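import Fermat.Agent.LowerSquare.Geometry.Operator
import Fermat.Agent.CarayolSquare.Geometry.Balanced

/-!
# Residues of the operator

The residue of the operator at a component is a product of the residues at the components, with
exponents divisible by `p`; the roots lift to the components, as `q`-th powers of residues are
residues of base functions.
-/

set_option autoImplicit false

noncomputable section

open FLTAgent.CarayolSquare Polynomial

namespace FLTAgent.LowerSquare.Geometry

variable {q : ℕ} [NeZero q] [Fact q.Prime]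

/-- All sums over the pairs with a given line are divisible by `p`. -/
def FibDvd (ν : Pair q → ℕ) (p : ℕ) : Prop :=
  ∀ (b : Bool) (L : Line q), p ∣ ∑ P ∈ Finset.univ.filter (fun P : Pair q => P.line b = L), ν P

omit [NeZero q] [Fact (Nat.Prime q)] in
theorem kindOf_eq_some_iff (P : Pair q) (b : Bool) : kindOf P = some b ↔ P.line b = none := by
  obtain ⟨⟨A, B⟩, hP⟩ := P
  cases b <;> cases A <;> cases B <;>
    first
      | exact absurd rfl hP
      | simp_all [kindOf, Pair.line]

omit [NeZero q] [Fact (Nat.Prime q)] in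
theorem line_permPair (π : Equiv.Perm (Line q)) (P : Pair q) (b : Bool) :
    (Model.permPair π P).line b = π (P.line b) := by cases b <;> rfl

omit [Fact (Nat.Prime q)] in
theorem fibDvd_total {ν : Pair q → ℕ} {p : ℕ} (h : FibDvd ν p) : p ∣ ∑ P, ν P := by
  classical
  rw [← Finset.sum_fiberwise (Finset.univ : Finset (Pair q)) (fun P => P.line true) ν]
  exact Finset.dvd_sum fun L _ => h true L

/-- The total exponent with which the component `κ'` enters the component `κ`. -/
def expo (ν : Pair q → ℕ) (κ κ' : Option Bool) : ℕ :=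
  ∑ Q ∈ Finset.univ.filter
    (fun Q : Pair q => kindOf (Model.permPair (moveTo (kindPair κ)) Q) = κ'), ν Q

theorem sum_expo (ν : Pair q → ℕ) (κ : Option Bool) : ∑ κ', expo ν κ κ' = ∑ Q, ν Q :=
  Finset.sum_fiberwise (Finset.univ : Finset (Pair q))
    (fun Q => kindOf (Model.permPair (moveTo (kindPair κ)) Q)) ν

theorem dvd_expo {ν : Pair q → ℕ} {p : ℕ} (h : FibDvd ν p) (κ κ' : Option Bool) :
    p ∣ expo ν κ κ' := by
  classical
  have hsome : ∀ b, p ∣ expo ν κ (some b) := by
    intro b
    convert h b ((moveTo (kindPair (q := q) κ)).symm none) using 1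
    refine Finset.sum_congr (Finset.filter_congr fun Q _ => ?_) fun _ _ => rfl
    rw [kindOf_eq_some_iff, line_permPair, Equiv.eq_symm_apply]
  cases κ' with
  | some b => exact hsome b
  | none =>
    have h1 := fibDvd_total h
    rw [← sum_expo ν κ, Fintype.sum_option, Fintype.sum_bool] at h1
    exact (Nat.dvd_add_left ((hsome true).add (hsome false))).mp h1

omit [Fact (Nat.Prime q)] in
theorem card_kind_some (b : Bool) :
    (Finset.univ.filter fun P : Pair q => kindOf P = some b).card = q := by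
  classical
  rw [Finset.filter_congr fun P _ => kindOf_eq_some_iff P b, ← Fintype.card_subtype]
  exact card_fibre b none

theorem card_kind_none :
    (Finset.univ.filter fun P : Pair q => kindOf P = none).card = q * (q - 1) := by
  classical
  have h : ∑ κ : Option Bool, (Finset.univ.filter fun P : Pair q => kindOf P = κ).card =
      Fintype.card (Pair q) :=
    (Finset.card_eq_sum_card_fiberwise fun P _ => Finset.mem_univ (kindOf P)).symm
  rw [Fintype.sum_option, Fintype.sum_bool, card_kind_some, card_kind_some, card_pair] at h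
  obtain ⟨m, rfl⟩ : ∃ m, q = m + 1 := ⟨q - 1, (Nat.succ_pred (NeZero.ne q)).symm⟩
  simp only [Nat.add_sub_cancel]
  linarith [h]

variable {X : Ctx q} {M₁ : ℕ} [NeZero M₁] (G : Model X M₁)

theorem mem_and_red_eq_zero_of_ord_pos {κ : Option Bool} {z : G.splitField} (hz : z ≠ 0)
    (h : 0 < G.ord κ z) : z ∈ G.V κ ∧ G.red κ z = 0 := by
  have hg := X.mem_gaussRing_of_nonneg (G.hasOrd_ord κ hz) h.le
  refine ⟨hg, ?_⟩
  rw [G.red_eq (show z ∈ G.V κ from hg), G.resV_apply]
  by_contra h0
  exact h.ne' ((X.hasOrd_zero_iff (G.hasOrd_ord κ hz)).mpr ⟨hg, h0⟩)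

/-- A function which is a unit at one component and vanishes on the other two. -/
theorem exists_indicator (κ : Option Bool) :
    ∃ e : G.splitField, (∀ κ', e ∈ G.V κ') ∧ G.red κ e ≠ 0 ∧ ∀ κ', κ' ≠ κ → G.red κ' e = 0 := by
  obtain ⟨e, he, hord⟩ : ∃ e : G.splitField, e ≠ 0 ∧
      ∀ κ', G.ord κ' e = if κ' = κ then 0 else 12 * (q.factorial : ℤ) := by
    have hq : (q : G.splitField) ≠ 0 := Nat.cast_ne_zero.mpr X.prime.ne_zero
    cases κ with
    | none =>
      refine ⟨G.gen true .disc * G.gen false .disc,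
        mul_ne_zero (G.disc_ne_zero _) (G.disc_ne_zero _), fun κ' => ?_⟩
      rw [G.ord_mul κ' (G.disc_ne_zero _) (G.disc_ne_zero _), G.ord_disc, G.ord_disc]
      rcases κ' with _ | _ | _ <;> simp [discOrd]
    | some b =>
      refine ⟨(q : G.splitField) ^ 12 * (G.gen b .disc)⁻¹,
        mul_ne_zero (pow_ne_zero _ hq) (inv_ne_zero (G.disc_ne_zero _)), fun κ' => ?_⟩
      rw [G.ord_mul κ' (pow_ne_zero _ hq) (inv_ne_zero (G.disc_ne_zero _)), G.ord_pow κ' hq,
        G.ord_inv κ' (G.disc_ne_zero _), G.ord_natCast, G.ord_disc, discOrd]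
      split_ifs <;> ring
  have hpos : ∀ κ', κ' ≠ κ → e ∈ G.V κ' ∧ G.red κ' e = 0 := fun κ' hne =>
    mem_and_red_eq_zero_of_ord_pos G he (by
      rw [hord, if_neg hne]
      exact mul_pos (by norm_num) (by exact_mod_cast Nat.factorial_pos q))
  obtain ⟨hV, -, hr⟩ := G.unit_V_of_ord_eq_zero he ((hord κ).trans (if_pos rfl))
  refine ⟨e, fun κ' => ?_, by rwa [G.red_eq hV], fun κ' hne => (hpos κ' hne).2⟩
  rcases eq_or_ne κ' κ with rfl | hne
  · exact hV
  · exact (hpos κ' hne).1

/-- The coefficients of the reduced characteristic polynomial are residues of base functions. -/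
theorem inBase_coeff {z : G.splitField} (hz : ∀ κ, z ∈ G.V κ) (n : ℕ) :
    G.InBase ((∏ P : Pair q, (Polynomial.X - C (G.red (kindOf P) z))).coeff n) := by
  classical
  choose hm he using fun P : Pair q => G.emb_red P (hz (kindOf P))
  let QG : Polynomial X.gaussRing := ∏ P, (Polynomial.X - C (⟨_, hm P⟩ : X.gaussRing))
  have hQ : QG.map X.gaussRing.subtype = ∏ P, (Polynomial.X - C (G.emb G.one P z)) := by
    simp [QG, Polynomial.map_prod]
  have hred : QG.map X.gaussRes = ∏ P : Pair q, (Polynomial.X - C (G.red (kindOf P) z)) := by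
    simp [QG, Polynomial.map_prod, he]
  obtain ⟨a, d, hd, hcoef⟩ := G.exists_coeff z
  set β := G.baseHom (a n) / G.baseHom d
  have hβ : β ∈ G.B₀ :=
    div_mem (IntermediateField.subset_adjoin _ _ ⟨_, rfl⟩)
      (IntermediateField.subset_adjoin _ _ ⟨_, rfl⟩)
  have e : G.emb G.one (kindPair none) β = (QG.coeff n : Ser) := by
    rw [hcoef, ← hQ, Polynomial.coeff_map]; rfl
  have hV : β ∈ G.V none := by rw [G.mem_V, e]; exact (QG.coeff n).2
  refine ⟨β, hβ, hV, ?_⟩
  rw [← hred, Polynomial.coeff_map, G.red_eq hV, G.resV_apply]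
  exact congrArg X.gaussRes (Subtype.ext e)

/-- The `q`-th power of the residue at one component of a function vanishing on the others. -/
theorem inBase_indicator {κ : Option Bool} {z : G.splitField} (hz : ∀ κ', z ∈ G.V κ')
    (h0 : ∀ κ', κ' ≠ κ → G.red κ' z = 0) : G.InBase (G.red κ z ^ q) := by
  classical
  have := X.charP_serk
  have : ExpChar (LaurentSeries X.k) q := ExpChar.prime X.prime
  obtain ⟨c, hc, hc0⟩ : ∃ c : ℕ,
      (Finset.univ.filter fun P : Pair q => kindOf P = κ).card = q * c ∧ ¬ q ∣ c := by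
    have hq := X.prime.two_le
    cases κ with
    | none =>
      exact ⟨q - 1, card_kind_none, fun h => by
        have := Nat.le_of_dvd (by omega) h; omega⟩
    | some b =>
      exact ⟨1, by rw [card_kind_some, mul_one], fun h => by
        have := Nat.le_of_dvd one_pos h; omega⟩
  set a := G.red κ z
  set d := (Finset.univ.filter fun P : Pair q => ¬ kindOf P = κ).card
  have hpoly : ∏ P : Pair q, (Polynomial.X - C (G.red (kindOf P) z)) =
      expand _ q ((Polynomial.X - C (a ^ q)) ^ c) * Polynomial.X ^ d := by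
    rw [← Finset.prod_filter_mul_prod_filter_not Finset.univ (fun P : Pair q => kindOf P = κ),
      Finset.prod_congr rfl (g := fun _ => Polynomial.X - C a)
        (fun P hP => by rw [(Finset.mem_filter.mp hP).2]),
      Finset.prod_congr (s₂ := Finset.univ.filter fun P : Pair q => ¬ kindOf P = κ) rfl
        (g := fun _ => (Polynomial.X : Polynomial (LaurentSeries X.k)))
        (fun P hP => by rw [h0 _ (Finset.mem_filter.mp hP).2, map_zero, sub_zero]),
      Finset.prod_const, Finset.prod_const, hc, pow_mul, map_pow, map_sub, expand_X, expand_C,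
      sub_pow_expChar, ← map_pow]
  have h := inBase_coeff G hz ((c - 1) * q + d)
  rw [hpoly, coeff_mul_X_pow, coeff_expand_mul X.prime.pos, sub_eq_add_neg, ← map_neg,
    coeff_X_add_C_pow] at h
  have hc1 : c - (c - 1) = 1 := by
    rcases Nat.eq_zero_or_pos c with rfl | hpos
    · exact absurd (dvd_zero q) hc0
    · omega
  have hch : c.choose (c - 1) = c := by
    rw [← Nat.choose_symm (Nat.sub_le c 1), hc1, Nat.choose_one_right]
  rw [hc1, hch, pow_one] at h
  have hck : (c : X.k) ≠ 0 := by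
    have : CharP X.k q := (CharP.charP_iff_prime_eq_zero X.prime).mpr X.natCast_k
    exact fun h0 => hc0 ((CharP.cast_eq_zero_iff X.k q c).mp h0)
  have h1 := (G.inBase_const (-(c : X.k)⁻¹)).mul h
  have he : HahnSeries.C (-(c : X.k)⁻¹) * (-a ^ q * (c : LaurentSeries X.k)) = a ^ q := by
    rw [← map_natCast (HahnSeries.C : X.k →+* LaurentSeries X.k), mul_comm (-a ^ q),
      ← mul_assoc, ← map_mul, neg_mul, inv_mul_cancel₀ hck, map_neg, map_one, neg_one_mul,
      neg_neg]
  rwa [he] at h1

/-- `q`-th powers of residues of units are residues of base functions. -/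
theorem inBase_red_pow {z : G.splitField} (hz : G.Unit0 z) (κ : Option Bool) :
    G.InBase (G.red κ z ^ q) := by
  obtain ⟨e, hV, hne, h0⟩ := exists_indicator G κ
  have h1 := inBase_indicator G (κ := κ) (z := z * e)
    (fun κ' => mul_mem (hz.mem κ') (hV κ'))
    (fun κ' hn => by rw [G.red_mul (hz.mem κ') (hV κ'), h0 κ' hn, mul_zero])
  have h2 := h1.mul (inBase_indicator G (κ := κ) hV h0).inv
  rwa [G.red_mul (hz.mem κ) (hV κ), mul_pow, mul_assoc,
    mul_inv_cancel₀ (pow_ne_zero q hne), mul_one] at h2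

variable {G} (D : OpData G)

/-- The residue of the operator. -/
theorem OpData.red_op {z : G.splitField} (hz : G.Unit0 z) :
    G.Unit0 (D.op z) ∧ ∀ κ, G.red κ (D.op z) = ∏ κ', G.red κ' z ^ expo D.ν κ κ' := by
  classical
  have key : ∀ κ, D.op z ∈ G.V κ ∧
      G.red κ (D.op z) = ∏ κ', G.red κ' z ^ expo D.ν κ κ' := by
    intro κ
    set π := moveTo (kindPair (q := q) κ)
    choose hm he using fun Q : Pair q =>
      G.emb_red (Model.permPair π Q) (hz.mem (kindOf (Model.permPair π Q)))
    have hprod : G.emb G.one (kindPair κ) (D.op z) =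
        ((∏ Q, (⟨_, hm Q⟩ : X.gaussRing) ^ D.ν Q : X.gaussRing) : Ser) := by
      rw [D.emb_op, SubmonoidClass.coe_finsetProd]
      rfl
    obtain ⟨hV, hr⟩ := G.red_of_emb (κ := κ) _ hprod
    refine ⟨hV, ?_⟩
    rw [hr, map_prod]
    simp only [map_pow, he]
    rw [← Finset.prod_fiberwise (Finset.univ : Finset (Pair q))
      (fun Q => kindOf (Model.permPair π Q))]
    refine Finset.prod_congr rfl fun κ' _ => ?_
    rw [Finset.prod_congr rfl (g := fun Q => G.red κ' z ^ D.ν Q)
      fun Q hQ => by rw [(Finset.mem_filter.mp hQ).2], Finset.prod_pow_eq_pow_sum]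
    rfl
  refine ⟨Model.unit0_of_red fun κ => ⟨(key κ).1, ?_⟩, fun κ => (key κ).2⟩
  rw [(key κ).2]
  exact Finset.prod_ne_zero_iff.mpr fun κ' _ => pow_ne_zero _ (hz.red_ne_zero κ')

/-- The root of the residue of the operator. -/
def OpData.groot (z : G.splitField) (p : ℕ) (κ : Option Bool) : LaurentSeries X.k :=
  ∏ κ', G.red κ' z ^ (expo D.ν κ κ' / p)

theorem OpData.groot_pow {p : ℕ} (h : FibDvd D.ν p) {z : G.splitField} (hz : G.Unit0 z)
    (κ : Option Bool) : D.groot z p κ ^ p = G.red κ (D.op z) := by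
  rw [(D.red_op hz).2, OpData.groot, ← Finset.prod_pow]
  exact Finset.prod_congr rfl fun κ' _ => by
    rw [← pow_mul, Nat.div_mul_cancel (dvd_expo h κ κ')]

theorem OpData.groot_ne_zero {p : ℕ} {z : G.splitField} (hz : G.Unit0 z) (κ : Option Bool) :
    D.groot z p κ ≠ 0 :=
  Finset.prod_ne_zero_iff.mpr fun κ' _ => pow_ne_zero _ (hz.red_ne_zero κ')

theorem OpData.inBase_groot_pow {p : ℕ} {z : G.splitField} (hz : G.Unit0 z) (κ : Option Bool) :
    G.InBase (D.groot z p κ ^ q) := by
  rw [OpData.groot, ← Finset.prod_pow]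
  refine Finset.prod_induction _ G.InBase (fun _ _ => Model.InBase.mul) ?_ fun κ' _ => ?_
  · simpa using G.inBase_const 1
  · rw [pow_right_comm]
    exact (inBase_red_pow G hz κ').pow _

/-- The roots lift to the components. -/
theorem OpData.exists_groot_lift {p : ℕ} (hqp : Nat.Coprime q p) (h : FibDvd D.ν p)
    {z : G.splitField} (hz : G.Unit0 z) (κ : Option Bool) :
    ∃ g : G.V κ, G.resV κ g = D.groot z p κ := by
  obtain ⟨β, -, hβ, hr⟩ := (D.inBase_groot_pow (p := p) hz κ).exists_lift κ
  set w : G.V κ := ⟨D.op z, (D.red_op hz).1.mem κ⟩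
  have hw : G.resV κ w = D.groot z p κ ^ p := by
    rw [D.groot_pow h hz, G.red_eq]
  set g := D.groot z p κ
  have hg : g ≠ 0 := D.groot_ne_zero hz κ
  have hu : ∀ v : G.V κ, G.resV κ v ≠ 0 →
      ∃ v' : G.V κ, G.resV κ v' = (G.resV κ v)⁻¹ := fun v hv => by
    have hv1 : IsUnit v := by
      by_contra hnu
      exact hv ((G.resV_eq_zero_iff κ v).mpr (((G.V κ).valuation_lt_one_iff v).mp hnu))
    obtain ⟨v', hv'⟩ := hv1.exists_right_inv
    exact ⟨v', eq_inv_of_mul_eq_one_right (by rw [← map_mul, hv', map_one])⟩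
  have hgb : (q : ℤ) * Nat.gcdA q p + (p : ℤ) * Nat.gcdB q p = 1 := by
    rw [← Nat.gcd_eq_gcd_ab, hqp, Nat.cast_one]
  have hpow : ∀ (v : G.V κ) (i : ℤ), G.resV κ v ≠ 0 →
      ∃ v' : G.V κ, G.resV κ v' = G.resV κ v ^ i := fun v i hv => by
    rcases Int.eq_nat_or_neg i with ⟨n, rfl | rfl⟩
    · exact ⟨v ^ n, by rw [map_pow, zpow_natCast]⟩
    · obtain ⟨v', hv'⟩ := hu v hv
      exact ⟨v' ^ n, by rw [map_pow, hv', inv_pow, zpow_neg, zpow_natCast]⟩
  obtain ⟨v₁, h1⟩ := hpow ⟨β, hβ⟩ (Nat.gcdA q p) (by rw [hr]; exact pow_ne_zero q hg)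
  obtain ⟨v₂, h2⟩ := hpow w (Nat.gcdB q p) (by rw [hw]; exact pow_ne_zero p hg)
  refine ⟨v₁ * v₂, ?_⟩
  rw [map_mul, h1, h2, hr, hw, ← zpow_natCast, ← zpow_mul, ← zpow_natCast g p, ← zpow_mul,
    ← zpow_add₀ hg, hgb, zpow_one]

end FLTAgent.LowerSquare.Geometry

end
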