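import Fermat.Agent.CarayolSquare.Geometry.Single
import Fermat.Agent.LowerSquare.Geometry.Residual

/-!
# The closed points of the special fibre

What the divisibility of torus invariant kernels uses of the special fibre of the split Cartan
cover: off the supersingular locus and at the cusps a point lies on one component and is regular
(`SingleAt`); a supersingular point is the only one over its image in the base, all three components
pass through it, and there a function with divisible orders is a unit times a power.
-/

set_option autoImplicit false

noncomputable section

open FLTAgent.CarayolSquare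

namespace FLTAgent.LowerSquare.Geometry

variable {q : ℕ} [NeZero q] [Fact q.Prime] {X : Ctx q} {M₁ : ℕ} [NeZero M₁] (G : Model X M₁)

/-- Orders divisible by `m` at the places of the affine part. -/
def HorizAff (f : G.splitField) (m : ℕ) : Prop :=
  ∀ W : ValuationSubring G.splitField, (∀ c : X.K, algebraMap X.K G.splitField c ∈ W) →
    G.baseHom G.h ∈ W → G.baseHom G.Dinv ∈ W →
      ∃ g : G.splitField, g ≠ 0 ∧ W.valuation f = W.valuation (g ^ m)

/-- A supersingular point: all three components pass through it. -/
structure TriplePoint (P : G.Point G.openChart) : Prop where
  /-- it is the only point over its image in the base -/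
  base : ∀ s : G.openChart, P.φ s ≠ 0 →
    ∃ a b : G.openChart, P.φ b ≠ 0 ∧ (b : G.splitField) ∈ G.B₀ ∧ s * a = b
  /-- the three components pass through it -/
  res_ker : ∀ (κ : Option Bool) (z : G.openChart), G.red κ (z : G.splitField) = 0 → P.φ z = 0
  /-- functions with divisible orders are units times powers -/
  unit_mul_pow : ∀ m : ℕ, 0 < m → ¬ q ∣ m → ∀ f : G.splitField, G.Unit0 f → HorizAff G f m →
    ∃ (a b : G.openChart) (h : G.splitField), P.φ a ≠ 0 ∧ P.φ b ≠ 0 ∧ G.Unit0 h ∧
      f * (b : G.splitField) = (a : G.splitField) * h ^ m

/-- What is assumed of the closed points. -/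
structure Points : Prop where
  /-- ordinary points -/
  ordinary : ∀ P : G.Point G.openChart, ¬ G.Supersingular P → Model.SingleAt P
  /-- supersingular points -/
  supersingular : ∀ P : G.Point G.openChart, G.Supersingular P → TriplePoint G P
  /-- cusps -/
  cusp : ∀ u : G.splitField, G.IsCuspCoord u → ∀ P : G.Point (G.uChart u),
    (∀ z : G.uChart u, (z : G.splitField) = u → P.φ z = 0) → Model.SingleAt P

variable {G}

/-- The roots of the residues of `D.op f` glue at a point. -/
def GlueD (D : OpData G) (p : ℕ) (f : G.splitField) (j : ℕ) {B : Subring G.splitField}
    (φ : B →+* X.k) : Prop :=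
  Model.GlueAt p (D.op f) (D.groot f p) j φ

end FLTAgent.LowerSquare.Geometry

end
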