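import Fermat.Agent.CarayolSquare.Supersingular.SuperLocal
import Fermat.Agent.LowerSquare.Geometry.Points

/-!
# Supersingular points are triple points

`triplePoint_of_supersingular` packages the facts about supersingular points used by the
divisibility of torus invariant kernels in `LowerSquare.Geometry`.
-/

set_option autoImplicit false

noncomputable section

namespace FLTAgent.CarayolSquare.Model

variable {q : ℕ} [NeZero q] [Fact q.Prime] {X : Ctx q} {M₁ : ℕ} [NeZero M₁] (G : Model X M₁)

/-- Supersingular points are triple points. -/
theorem triplePoint_of_supersingular (P : G.Point G.openChart) (hP : G.Supersingular P) :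
    FLTAgent.LowerSquare.Geometry.TriplePoint G P where
  base := G.ss_base hP
  res_ker := G.ss_res_ker hP
  unit_mul_pow _ hm _ _ hf hor := G.ss_unit_mul_pow hP hm hf hor

end FLTAgent.CarayolSquare.Model
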