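import Fermat.Agent.LowerSquare.Geometry.Normalises
import Fermat.Agent.LowerSquare.Geometry.TriplePointFact

/-!
# The closed points of the models

Supersingular points are triple points, so the closed points of the models reduce to two
propositions, `OrdinarySingle` and `CuspSingle`: ordinary points and cusps lie on a single
component and are regular.  Given these, kernels kill (`operatorKills_of_single`); both are
supplied in `LowerSquare.Main` (`operatorKills`).
-/

set_option autoImplicit false

noncomputable section

open FLTAgent.CarayolSquare

namespace FLTAgent.LowerSquare.Geometry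

/-- Ordinary points are regular points of one component. -/
def OrdinarySingle : Prop :=
  ∀ {q : ℕ} [NeZero q] [Fact q.Prime] {X : Ctx q} {M₁ : ℕ} [NeZero M₁] (G : Model X M₁),
    ProjSymm G → ∀ P : G.Point G.openChart, ¬ G.Supersingular P → Model.SingleAt P

/-- Cusps are regular points of one component. -/
def CuspSingle : Prop :=
  ∀ {q : ℕ} [NeZero q] [Fact q.Prime] {X : Ctx q} {M₁ : ℕ} [NeZero M₁] (G : Model X M₁),
    ProjSymm G → ∀ u : G.splitField, G.IsCuspCoord u → ∀ P : G.Point (G.uChart u),
      (∀ z : G.uChart u, (z : G.splitField) = u → P.φ z = 0) → Model.SingleAt P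

theorem hasPoints_of_single (ho : OrdinarySingle) (hc : CuspSingle) : HasPoints :=
  fun G hG => ⟨ho G hG, G.triplePoint_of_supersingular, hc G hG⟩

/-- **Kernels kill, from the points on a single component.** -/
theorem operatorKills_of_single (ho : OrdinarySingle) (hc : CuspSingle) : OperatorKills :=
  operatorKills_of_points (hasPoints_of_single ho hc)

end FLTAgent.LowerSquare.Geometry

end
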