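import Fermat.Agent.LowerSquare.Geometry.BridgeRealisation
import Fermat.Agent.CarayolSquare.Plumbing.Descent

/-!
# The Kummer character of a product of translates

If the product of the translates of `f (τ/q)` along the pairs is a constant times an `n`-th power in
the field of the split Cartan cover, the combination of the conjugates of the character vanishes on
`Γ (q M₁)`.
-/

set_option autoImplicit false

noncomputable section

open CongruenceSubgroup AlgebraicCurve ModularCurve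
open scoped UpperHalfPlane MatrixGroups
open FLTAgent.LevelM FLTAgent.HeckeJacobian FLTAgent.ModularFF

namespace FLTAgent.LowerSquare.Geometry

open FLTAgent.CarayolSquare FLTAgent.CarayolSquare.Provider

local notation "Qbar" => AlgebraicClosure ℚ

variable {q M' M₁ : ℕ} [Fact q.Prime] [NeZero M₁] [NeZero (q * M' * q)] (h : q.Coprime M₁)
  (X : Ctx q)

omit [NeZero M₁] in
omit [Fact (Nat.Prime q)] [NeZero (q * M' * q)] in
/-- Conjugation by `diag (q, 1)`. -/
theorem exists_conjD {g : SL(2, ℤ)} (h0 : (q : ℤ) ∣ g 0 1) (h1 : (q : ℤ) ∣ g 1 0)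
    (hM : (M' : ℤ) ∣ g 1 0) (hqM : q.Coprime M') :
    ∃ δ : Gamma0 (q * M' * q),
      !![(q : ℤ), 0; 0, 1] * ((δ : SL(2, ℤ)) : Matrix (Fin 2) (Fin 2) ℤ) =
        (g : Matrix (Fin 2) (Fin 2) ℤ) * !![(q : ℤ), 0; 0, 1] := by
  obtain ⟨b, hb⟩ := h0
  have hqM' : (q : ℤ) * M' ∣ g 1 0 := (Nat.isCoprime_iff_coprime.mpr hqM).mul_dvd h1 hM
  refine ⟨⟨⟨!![g 0 0, b; g 1 0 * q, g 1 1], ?_⟩, ?_⟩, ?_⟩
  · rw [Matrix.det_fin_two_of]
    have := g.det_coe
    rw [Matrix.det_fin_two] at this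
    linear_combination this + g 1 0 * hb
  · rw [Gamma0_mem, ZMod.intCast_zmod_eq_zero_iff_dvd]
    push_cast
    exact mul_dvd_mul_right hqM' _
  · ext i j
    fin_cases i <;> fin_cases j <;> simp [Matrix.mul_apply, Fin.sum_univ_two, hb, mul_comm]

omit [NeZero M₁] in
omit [NeZero (q * M' * q)] in
/-- The conjugates to compare. -/
theorem exists_conj_eq (hqM : q.Coprime M') {δ g γ : SL(2, ℤ)} (hδ : δ ∈ Gamma0 M')
    (hg : g ∈ Gamma0 M') (hp : pairOf q δ⁻¹ = pairOf q g) {d : Gamma0 (q * M' * q)}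
    (hd : !![(q : ℤ), 0; 0, 1] * ((d : SL(2, ℤ)) : Matrix (Fin 2) (Fin 2) ℤ) =
      ((g⁻¹ * γ * g : SL(2, ℤ)) : Matrix (Fin 2) (Fin 2) ℤ) * !![(q : ℤ), 0; 0, 1]) :
    ∃ ε : Gamma0 (q * M' * q),
      !![(q : ℤ), 0; 0, 1] * ((ε * d * ε⁻¹ : Gamma0 (q * M' * q)) : SL(2, ℤ)).1 =
        ((δ * γ * δ⁻¹ : SL(2, ℤ)) : Matrix (Fin 2) (Fin 2) ℤ) * !![(q : ℤ), 0; 0, 1] := by
  have h01 := dvd_of_pairOf_eq hp
  rw [inv_inv] at h01
  have hM : (M' : ℤ) ∣ (δ * g) 1 0 :=
    (ZMod.intCast_zmod_eq_zero_iff_dvd _ _).mp (Gamma0_mem.mp (mul_mem hδ hg))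
  obtain ⟨ε, hε⟩ := exists_conjD (g := δ * g) h01.1 h01.2 hM hqM
  refine ⟨ε, ?_⟩
  have hinv : !![(q : ℤ), 0; 0, 1] * ((ε⁻¹ : Gamma0 (q * M' * q)) : SL(2, ℤ)).1 =
      (((δ * g)⁻¹ : SL(2, ℤ)) : Matrix (Fin 2) (Fin 2) ℤ) * !![(q : ℤ), 0; 0, 1] := by
    have := congrArg (fun Y => (((δ * g)⁻¹ : SL(2, ℤ)) : Matrix (Fin 2) (Fin 2) ℤ) *
      (Y * ((ε⁻¹ : Gamma0 (q * M' * q)) : SL(2, ℤ)).1)) hε
    simp only [Matrix.mul_assoc, ← Matrix.SpecialLinearGroup.coe_mul, Subgroup.coe_inv,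
      mul_inv_cancel, Matrix.SpecialLinearGroup.coe_one, Matrix.mul_one] at this
    rw [← Matrix.mul_assoc _ ((δ * g : SL(2, ℤ)) : Matrix (Fin 2) (Fin 2) ℤ),
      ← Matrix.SpecialLinearGroup.coe_mul, inv_mul_cancel, Matrix.SpecialLinearGroup.coe_one,
      Matrix.one_mul] at this
    rw [Subgroup.coe_inv]
    exact this.symm
  rw [Subgroup.coe_mul, Subgroup.coe_mul, Matrix.SpecialLinearGroup.coe_mul,
    Matrix.SpecialLinearGroup.coe_mul, ← Matrix.mul_assoc, ← Matrix.mul_assoc, hε,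
    Matrix.mul_assoc _ !![(q : ℤ), 0; 0, 1], hd, Matrix.mul_assoc, Matrix.mul_assoc, hinv,
    ← Matrix.mul_assoc, ← Matrix.mul_assoc, ← Matrix.SpecialLinearGroup.coe_mul,
    ← Matrix.SpecialLinearGroup.coe_mul]
  congr 2
  group

omit [NeZero M₁] in
omit [NeZero (q * M' * q)] in
/-- The scaled function of level `q² M'` transforms by the conjugate of the character. -/
theorem actH_scaled {a : Hol} {c : Additive (Gamma0 (q * M' * q)) →+ Additive ℂˣ}
    (hc : TransformsBy (q * M' * q) a c) {δ γ : SL(2, ℤ)} {d ε : Gamma0 (q * M' * q)}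
    (he : !![(q : ℤ), 0; 0, 1] * ((ε * d * ε⁻¹ : Gamma0 (q * M' * q)) : SL(2, ℤ)).1 =
        ((δ * γ * δ⁻¹ : SL(2, ℤ)) : Matrix (Fin 2) (Fin 2) ℤ) * !![(q : ℤ), 0; 0, 1]) :
    actH γ (actH δ (scaleDiv q M₁ a)) =
      ((Additive.toMul (c (Additive.ofMul d)) : ℂˣ) : ℂ) • actH δ (scaleDiv q M₁ a) := by
  have hcc : c (Additive.ofMul (ε * d * ε⁻¹)) = c (Additive.ofMul d) := by
    rw [ofMul_mul, ofMul_mul, map_add, map_add, ofMul_inv, map_neg]
    abel
  rw [← actH_mul, show δ * γ = δ * γ * δ⁻¹ * δ by group, actH_mul,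
    actH_scaleDiv (γ' := ((ε * d * ε⁻¹ : Gamma0 (q * M' * q)) : SL(2, ℤ))) he, hc, hcc,
    scaleDiv_smul, map_smul]

omit [Fact q.Prime] [NeZero M₁] [NeZero (q * M' * q)] in
theorem prod_smul_pow {ι : Type*} [Fintype ι] (u : ι → ℂ) (v : ι → Hol) (n : ι → ℕ) :
    ∏ i, (u i • v i) ^ n i = (∏ i, u i ^ n i) • ∏ i, v i ^ n i := by
  simp only [Algebra.smul_def, mul_pow, Finset.prod_mul_distrib, map_prod, map_pow]

/-- **The bridge.** -/
theorem character_of_series (hqM : q.Coprime M') (hM : M' ∣ M₁) {m : ℕ} (hm : m ≠ 0)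
    {D : Divisor.degZero (K := Qbar) (F := modularFunctionFieldBar (q * M' * q))}
    {f : modularFunctionFieldBar (q * M' * q)} (hf0 : f ≠ 0)
    (hdiv : ∀ v, (m • (D : Divisor Qbar (modularFunctionFieldBar (q * M' * q)))) v = v.ord f)
    {c : Additive (Gamma0 (q * M' * q)) →+ Additive ℂˣ}
    (hc : @KummerRel (Provider.emb X).toAlgebra (q * M' * q) m _ (Pic0.mk D) c)
    {u₁ u₂ w₁ w₂ : MvPolynomial (Bool × Gen (CRing X M₁)) X.O}
    (_hu : pairSer h X (Pair.base q) u₂ ≠ 0) (hw : pairSer h X (Pair.base q) w₂ ≠ 0)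
    (hu2 : ∀ P, pairSer h X P u₂ ≠ 0)
    (hF : qExpand Qbar M₁ (f : Ser) * pairSer h X (Pair.base q) u₂ =
      pairSer h X (Pair.base q) u₁)
    {κ : X.K} (hκ : κ ≠ 0) (n : Pair q → ℕ)
    (hser : (∏ P, pairSer h X P u₁ ^ n P) * pairSer h X (Pair.base q) w₂ ^ m =
      algebraMap X.K Ser κ * pairSer h X (Pair.base q) w₁ ^ m * ∏ P, pairSer h X P u₂ ^ n P)
    {γ : SL(2, ℤ)} (hγ : γ ∈ Gamma (q * M₁)) {g : Pair q → SL(2, ℤ)}
    (hg : ∀ P, g P ∈ Gamma0 M' ∧ pairOf q (g P) = (relabel q M₁ P.1.1, relabel q M₁ P.1.2))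
    {d : Pair q → Gamma0 (q * M' * q)}
    (hd : ∀ P, !![(q : ℤ), 0; 0, 1] * ((d P : SL(2, ℤ)) : Matrix (Fin 2) (Fin 2) ℤ) =
      (((g P)⁻¹ * γ * g P : SL(2, ℤ)) : Matrix (Fin 2) (Fin 2) ℤ) * !![(q : ℤ), 0; 0, 1]) :
    ∑ P, n P • c (Additive.ofMul (d P)) = 0 := by
  classical
  let : Algebra Qbar ℂ := (Provider.emb X).toAlgebra
  have hqM₁ : 0 < q * M₁ := qM_pos
  obtain ⟨R, Q, a, hQ, hR, ha, ha0, hca⟩ := exists_kummer_of_div hm hf0 hdiv hc
  have hexp : ∀ S : MvPolynomial (Divs (q * M' * q)) Qbar,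
      HasExp (q * M₁) (scaleDiv q M₁ (evalHol _ S) : ℍ → ℂ) (coeffMap (Provider.emb X)
        (qExpand Qbar M₁ ((evalField Qbar (q * M' * q) S : modField Qbar (q * M' * q)) : Ser))) :=
    fun S => hasExp_scaleDiv X
      (hasExp_of_hasLaurent (h := 1) (by simpa using! hasLaurent_evalFun S))
  have hbase : scaleDiv q M₁ (evalHol _ R) * pairFun h X (Pair.base q) u₂ =
      pairFun h X (Pair.base q) u₁ * scaleDiv q M₁ (evalHol _ Q) ^ m := by
    refine hol_eq_of_hasExp hqM₁ ((hexp R).mul (hasExp_pairFun h X _ u₂)) ?_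
    have h2 := (hasExp_pairFun h X (Pair.base q) u₁).mul ((hexp Q).pow m)
    have e : qExpand Qbar M₁ ((evalField Qbar (q * M' * q) R : modField Qbar (q * M' * q)) : Ser) =
        qExpand Qbar M₁ (f : Ser) *
          qExpand Qbar M₁
            ((evalField Qbar (q * M' * q) Q : modField Qbar (q * M' * q)) : Ser) ^ m := by
      rw [hR]
      push_cast
      rw [map_mul, map_pow]
    rw [← map_mul, e, mul_right_comm (qExpand Qbar M₁ (f : Ser)), hF]
    rw [← map_pow, ← map_mul] at h2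
    exact h2
  choose δ hδ hmove using movePair_surjective (q := q) (M := M₁) h
  have hP : ∀ P, actH (δ P) (scaleDiv q M₁ (evalHol _ R)) * pairFun h X P u₂ =
      pairFun h X P u₁ * actH (δ P) (scaleDiv q M₁ (evalHol _ Q)) ^ m := fun P => by
    have := congrArg (actH (δ P)) hbase
    rwa [map_mul, map_mul, map_pow, actH_pairFun_base h X (hδ P), actH_pairFun_base h X (hδ P),
      hmove] at this
  set κc : ℂ := Provider.embK X κ with hκc
  have hκc0 : κc ≠ 0 := (_root_.map_ne_zero _).mpr hκ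
  have hyfun : (∏ P, pairFun h X P u₁ ^ n P) * pairFun h X (Pair.base q) w₂ ^ m =
      κc • pairFun h X (Pair.base q) w₁ ^ m * ∏ P, pairFun h X P u₂ ^ n P := by
    have hprod : ∀ u, HasExp (q * M₁) ((∏ P, pairFun h X P u ^ n P : Hol) : ℍ → ℂ)
        (coeffMap (Provider.emb X) (∏ P, pairSer h X P u ^ n P)) := fun u => by
      rw [map_prod]
      push_cast
      exact hasExp_finset_prod _ fun P _ => by
        rw [map_pow]
        exact (hasExp_pairFun h X P u).pow _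
    have hpow : ∀ u, HasExp (q * M₁) ((pairFun h X (Pair.base q) u ^ m : Hol) : ℍ → ℂ)
        (coeffMap (Provider.emb X) (pairSer h X (Pair.base q) u ^ m)) := fun u => by
      rw [map_pow]
      push_cast
      exact (hasExp_pairFun h X _ u).pow m
    have h1 := (hprod u₁).mul (hpow w₂)
    have h2 := ((hpow w₁).const_mul κc).mul (hprod u₂)
    rw [← map_mul, hser] at h1
    have e : coeffMap (Provider.emb X) (algebraMap X.K Ser κ) = HahnSeries.C κc := by
      rw [Plumbing.algebraMap_Ser_eq, algebraMap_laurentSeries_eq_single, coeffMap_single,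
        HahnSeries.C_apply]
      rfl
    rw [map_mul, map_mul, e] at h1
    exact hol_eq_of_hasExp hqM₁ h1 h2
  have hne : ∀ {P : Pair q} {u}, pairSer h X P u ≠ 0 → pairFun h X P u ≠ 0 := fun {P u} hs h0 => by
    have := hasExp_pairFun h X P u
    rw [h0] at this
    exact hs (coeffMap_emb_injective ((this.unique hqM₁ (hasExp_zero _)).trans (map_zero _).symm))
  set A := (∏ P, actH (δ P) (scaleDiv q M₁ a) ^ n P) * pairFun h X (Pair.base q) w₂
  set B := pairFun h X (Pair.base q) w₁ *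
    ∏ P, actH (δ P) (scaleDiv q M₁ (evalHol _ Q)) ^ n P
  have hAB : A ^ m = κc • B ^ m := by
    have hb : ∏ P, pairFun h X P u₂ ^ n P ≠ 0 :=
      Finset.prod_ne_zero_iff.mpr fun P _ => pow_ne_zero _ (hne (hu2 P))
    refine mul_right_cancel₀ hb ?_
    have e1 : A ^ m = (∏ P, actH (δ P) (scaleDiv q M₁ (evalHol _ R)) ^ n P) *
        pairFun h X (Pair.base q) w₂ ^ m := by
      rw [mul_pow, ← Finset.prod_pow]
      congr 1
      refine Finset.prod_congr rfl fun P _ => ?_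
      rw [← pow_mul, mul_comm, pow_mul, ← ha, map_pow, map_pow]
    have e2 : (∏ P, actH (δ P) (scaleDiv q M₁ (evalHol _ R)) ^ n P) *
        ∏ P, pairFun h X P u₂ ^ n P = (∏ P, pairFun h X P u₁ ^ n P) *
          (∏ P, actH (δ P) (scaleDiv q M₁ (evalHol _ Q)) ^ n P) ^ m := by
      rw [← Finset.prod_mul_distrib, ← Finset.prod_pow, ← Finset.prod_mul_distrib]
      refine Finset.prod_congr rfl fun P _ => ?_
      rw [← mul_pow, hP, mul_pow, ← pow_mul, ← pow_mul, mul_comm m]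
    rw [e1, mul_right_comm, e2, mul_right_comm, hyfun, mul_pow]
    simp only [Algebra.smul_def]
    ring
  obtain ⟨z, hz, hABz⟩ := exists_smul_of_pow_eq hm hκc0 hAB
  have hA0 : A ≠ 0 := by
    refine mul_ne_zero (Finset.prod_ne_zero_iff.mpr fun P _ => pow_ne_zero _ fun h0 => ha0 ?_)
      (hne hw)
    have h1 := congrArg (actH (δ P)⁻¹) h0
    rw [← actH_mul, mul_inv_cancel, actH_one, map_zero] at h1
    refine Subtype.ext (funext fun τ => ?_)
    obtain ⟨τ', rfl⟩ : ∃ τ', lineTau M₁ (some (0 : ZMod q)) τ' = τ :=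
      ⟨(glLine M₁ (some (0 : ZMod q)))⁻¹ • τ, smul_inv_smul _ _⟩
    exact congrFun (congrArg Subtype.val h1) τ'
  -- the conjugates
  have hsub : Gamma0 M₁ ≤ Gamma0 M' := fun x hx => by
    rw [Gamma0_mem, ZMod.intCast_zmod_eq_zero_iff_dvd] at hx ⊢
    exact (Int.natCast_dvd_natCast.mpr hM).trans hx
  have hε : ∀ P, ∃ ε : Gamma0 (q * M' * q),
      !![(q : ℤ), 0; 0, 1] * ((ε * d P * ε⁻¹ : Gamma0 (q * M' * q)) : SL(2, ℤ)).1 =
        ((δ P * γ * (δ P)⁻¹ : SL(2, ℤ)) : Matrix (Fin 2) (Fin 2) ℤ) * !![(q : ℤ), 0; 0, 1] :=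
    fun P => exists_conj_eq hqM (hsub (by
      rw [Gamma0_mem]
      exact (Gamma_mem.mp (hδ P)).2.2.1)) (hg P).1 (by
      rw [(hg P).2, pairOf_inv h]
      have := congrArg Subtype.val (hmove P)
      rw [← this]
      rfl) (hd P)
  choose ε hε using hε
  have hQinv : TransformsBy (q * M' * q) (evalHol _ Q) 0 := fun g => by
    show actH (g : SL(2, ℤ)) _ = ((1 : ℂˣ) : ℂ) • _
    rw [Units.val_one, one_smul]
    exact (rep_evalField Q).invariant g.2
  have hA : actH γ A = (∏ P, ((Additive.toMul (c (Additive.ofMul (d P))) : ℂˣ) : ℂ) ^ n P) • A := by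
    simp only [A, map_mul, map_prod, map_pow, actH_pairFun_of_mem h X hγ,
      actH_scaled hca (hε _), prod_smul_pow, smul_mul_assoc]
  have hB : actH γ B = B := by
    simp only [B, map_mul, map_prod, map_pow, actH_pairFun_of_mem h X hγ,
      actH_scaled hQinv (hε _)]
    simp
  have h1 : (∏ P, ((Additive.toMul (c (Additive.ofMul (d P))) : ℂˣ) : ℂ) ^ n P) • A =
      (1 : ℂ) • A := by
    rw [← hA, one_smul, hABz, map_smul, hB]
  refine Additive.toMul.injective ?_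
  rw [toMul_sum, toMul_zero]
  refine Units.ext ?_
  rw [Units.coe_prod, Units.val_one]
  simp only [toMul_nsmul, Units.val_pow_eq_pow_val]
  exact smul_inj_of_ne_zero hA0 h1

end FLTAgent.LowerSquare.Geometry
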