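import Fermat.Agent.LowerSquare.Interface
import Fermat.Agent.CarayolSquare.Plumbing.Ctx
import Fermat.Agent.CarayolSquare.Provider.Basics
import Fermat.Agent.HeckeJacobian.Realisation
import Fermat.Agent.MazurStep.Reflect
import Fermat.Agent.Density.Inertia

/-!
# Change of the complex embedding

The Kummer character of a class for an embedding `ι` is that of a conjugate class for `ι ∘ σ⁻¹`.
So one may assume that the embedding sends the chosen root of unity to `exp (2πi/q)`.
-/

set_option autoImplicit false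

noncomputable section

open ModularCurve AlgebraicCurve CongruenceSubgroup
open scoped Pointwise
open FLTAgent.HeckeJacobian FLTAgent.SemistableHecke FLTAgent.ModularFF

namespace FLTAgent.LowerSquare.Geometry

open FLTAgent.CarayolSquare

local notation "Qbar" => AlgebraicClosure ℚ

/-- Two complex embeddings differ by an automorphism. -/
theorem exists_aut (ι₁ ι₂ : Qbar →+* ℂ) : ∃ σ : Qbar ≃ₐ[ℚ] Qbar, ∀ a, ι₂ (σ a) = ι₁ a := by
  classical
  let : Algebra Qbar ℂ := ι₂.toAlgebra
  have : IsScalarTower ℚ Qbar ℂ := IsScalarTower.of_algebraMap_eq fun c => (map_ratCast ι₂ c).symm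
  let ψ : Qbar →ₐ[ℚ] ℂ := { ι₁ with commutes' := fun c => map_ratCast ι₁ c }
  exact ⟨ψ.restrictNormal' Qbar, fun a => AlgHom.restrictNormal_commutes ψ Qbar a⟩

variable {N : ℕ} [NeZero N]

/-- The realisation for another embedding. -/
theorem realF_change (inst₁ inst₂ : Algebra Qbar ℂ) (σ : Qbar ≃ₐ[ℚ] Qbar)
    (hσ : ∀ a, @algebraMap Qbar ℂ _ _ inst₂ (σ a) = @algebraMap Qbar ℂ _ _ inst₁ a)
    (x : modularFunctionFieldBar N) :
    @realF inst₂ N _ (arithmeticGalois (modularFunctionFieldFull N) σ • x) =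
      @realF inst₁ N _ x := by
  let φ : modularFunctionFieldBar N →+* modularFunctionFieldBar N :=
    (SemilinearAut.toRingAut (arithmeticGalois (modularFunctionFieldFull N) σ) :
      modularFunctionFieldBar N ≃+* modularFunctionFieldBar N).toRingHom
  have hφ : (@realF inst₂ N _).comp φ = @realF inst₁ N _ := by
    refine realF_hom_ext N (fun a => ?_) fun i => ?_
    · rw [RingHom.comp_apply, show φ (algebraMap Qbar (modularFunctionFieldBar N) a) =
          algebraMap Qbar (modularFunctionFieldBar N) (σ a) from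
            SemilinearAut.commutes (arithmeticGalois (modularFunctionFieldFull N) σ) a,
        @realF_algebraMap inst₂ N _, @realF_algebraMap inst₁ N _, hσ]
    · rw [RingHom.comp_apply, show φ (gen Qbar N i) = gen Qbar N i from
          MazurStep.arithmeticGalois_gen i, ← evalField_X, @realF_evalField inst₂ N _,
        @realF_evalField inst₁ N _]
      exact congrArg _ (Subtype.ext ((@evalHol_X inst₂ N i).trans (@evalHol_X inst₁ N i).symm))
  exact RingHom.congr_fun hφ x

/-- The Kummer character for another embedding. -/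
theorem kummerRel_change (inst₁ inst₂ : Algebra Qbar ℂ) (σ : Qbar ≃ₐ[ℚ] Qbar)
    (hσ : ∀ a, @algebraMap Qbar ℂ _ _ inst₂ (σ a) = @algebraMap Qbar ℂ _ _ inst₁ a)
    {n : ℕ} {x : JZero N} {c : Additive (Gamma0 N) →+ Additive ℂˣ}
    (h : @KummerRel inst₁ N n _ x c) : @KummerRel inst₂ N n _ (σ • x) c := by
  obtain ⟨D, f, H, a, hx, hf, hD, hr, ha, hc⟩ := h
  set g := arithmeticGalois (modularFunctionFieldFull N) σ
  refine ⟨SemilinearAut.degZeroSMulHom g D, g • f, H, a, ?_, (smul_ne_zero_iff_ne _).mpr hf,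
    fun v => ?_, (realF_change inst₁ inst₂ σ hσ f).trans hr, ha, hc⟩
  · rw [← SemilinearAut.pic0_smul_mk, hx, galois_smul_pic0_def]
  · rw [SemilinearAut.coe_degZeroSMulHom, SemilinearAut.divisor_smul_apply, hD]
    have h := SemilinearAut.ord_smul g (g⁻¹ • v) f
    rw [smul_inv_smul] at h
    exact h.symm

theorem liesOverPrime_smul {A : ValuationSubring Qbar} {q : ℕ} (hA : A.LiesOverPrime q)
    (σ : Qbar ≃ₐ[ℚ] Qbar) : (σ • A).LiesOverPrime q := by
  have h : (q : Qbar) ∈ A.nonunits := hA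
  show (q : Qbar) ∈ (σ • A).nonunits
  rw [ValuationSubring.mem_nonunits_iff_exists_mem_maximalIdeal] at h ⊢
  obtain ⟨hq, hmax⟩ := h
  have hq' : (q : Qbar) ∈ σ • A := by
    rw [← map_natCast σ q]
    exact ValuationSubring.smul_mem_pointwise_smul σ _ A hq
  refine ⟨hq', fun hu => hmax ?_⟩
  obtain ⟨b, hb⟩ := isUnit_iff_exists_inv.mp hu
  have hb1 : (q : Qbar) * b = 1 := congrArg Subtype.val hb
  refine isUnit_iff_exists_inv.mpr ⟨⟨σ.symm (b : Qbar), (Density.smul_apply_mem_iff σ _).mp (by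
    rw [AlgEquiv.apply_symm_apply]; exact b.2)⟩, Subtype.ext (σ.injective ?_)⟩
  show σ ((q : Qbar) * σ.symm (b : Qbar)) = σ 1
  rw [map_mul, map_natCast, map_one, AlgEquiv.apply_symm_apply, hb1]

omit [NeZero N] in
theorem galois_smul_zero (σ : Qbar ≃ₐ[ℚ] Qbar) : σ • (0 : JZero N) = 0 :=
  smul_zero (M := Qbar ≃ₐ[ℚ] Qbar)
    (A := Pic0 Qbar (laurentBaseChange Qbar (modularFunctionFieldFull N))) σ

omit [NeZero N] in
theorem galois_smul_nsmul (σ : Qbar ≃ₐ[ℚ] Qbar) (n : ℕ) (x : JZero N) :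
    σ • (n • x) = n • (σ • x) :=
  map_nsmul (DistribSMul.toAddMonoidHom
    (Pic0 Qbar (laurentBaseChange Qbar (modularFunctionFieldFull N))) σ) n x

variable {q M : ℕ} [NeZero q] [NeZero M] [NeZero (q * M)] [NeZero (q * M * q)]

omit [NeZero M] in
/-- **The embedding may be assumed adapted to the context.** -/
theorem exists_ctx_adapted [inst : Algebra Qbar ℂ] (hq : q.Prime) {A : ValuationSubring Qbar}
    (hA : A.LiesOverPrime q) {p : ℕ} {x : JZero (q * M * q)} (hx : p • x = 0)
    (hfix : ∀ σ ∈ A.inertiaSubgroupIn ℚ, σ • x = x)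
    (hα : pushJ (heckeAlphaBar Qbar (q * M) q) x = 0)
    (hβ : pushJ (heckeBetaBar Qbar (q * M) q) x = 0)
    {c : Additive (Gamma0 (q * M * q)) →+ Additive ℂˣ} (hc : KummerRel (q * M * q) p x c) :
    ∃ (X : Ctx q) (y : JZero (q * M * q)),
      X.K = IntermediateField.fixedField (X.A.inertiaSubgroupIn ℚ) ∧ p • y = 0 ∧
      (∀ σ ∈ X.A.inertiaSubgroupIn ℚ, σ • y = y) ∧
      pushJ (heckeAlphaBar Qbar (q * M) q) y = 0 ∧ pushJ (heckeBetaBar Qbar (q * M) q) y = 0 ∧
      @KummerRel (Provider.emb X).toAlgebra (q * M * q) p _ y c := by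
  obtain ⟨X₁, -, -⟩ := Plumbing.exists_ctx hq A hA
  obtain ⟨σ, hσ⟩ := exists_aut (algebraMap Qbar ℂ) (Provider.emb X₁)
  obtain ⟨X, hXA, hXK, hXζ⟩ :=
    Plumbing.exists_ctx_zeta hq (σ • A) (liesOverPrime_smul hA σ) X₁.hζ
  have hemb : Provider.emb X = Provider.emb X₁ := by
    unfold Provider.emb
    congr 1; simp only [hXζ]
  refine ⟨X, σ • x, hXA ▸ hXK, ?_, fun τ hτ => ?_, ?_, ?_,
    kummerRel_change inst _ σ (fun a => ?_) hc⟩
  · rw [← galois_smul_nsmul, hx, galois_smul_zero]
  · rw [hXA] at hτ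
    have h1 := Density.mem_inertiaSubgroupIn_smul hτ σ⁻¹
    rw [inv_smul_smul, inv_inv] at h1
    have h2 := hfix _ h1
    rw [mul_smul, mul_smul, inv_smul_eq_iff] at h2
    exact h2
  · rw [pushJ_galois _ σ (intertwines_alpha σ), hα, galois_smul_zero]
  · rw [pushJ_galois _ σ (intertwines_beta σ), hβ, galois_smul_zero]
  · show Provider.emb X (σ a) = algebraMap Qbar ℂ a
    rw [hemb]
    exact hσ a

end FLTAgent.LowerSquare.Geometry
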