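import Fermat.Agent.LowerSquare.Interface
import Fermat.Agent.CarayolSquare.Provider.Translates

/-!
# The two labellings of the ordered pairs of lines

An element of `Γ(M₁)` moving `(∞, 0)` to a pair for the line matrices is the inverse of a
representative of that pair, scaled by `-M₁`, for `pairOf`.
-/

set_option autoImplicit false

noncomputable section

open CongruenceSubgroup Matrix
open scoped MatrixGroups

namespace FLTAgent.LowerSquare.Geometry

open FLTAgent.CarayolSquare FLTAgent.CarayolSquare.Provider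

variable {q : ℕ} [Fact q.Prime]

theorem lineOf_eq_some {a c : ℤ} {x : ZMod q} (hc : (c : ZMod q) ≠ 0)
    (h : (a : ZMod q) = x * (c : ZMod q)) : lineOf q a c = some x := by
  rw [lineOf, if_neg hc, h, mul_inv_cancel_right₀ hc]

theorem lineOf_cross {a c a' c' : ℤ} (h : lineOf q a c = lineOf q a' c') :
    (a : ZMod q) * c' - c * a' = 0 := by
  unfold lineOf at h
  split_ifs at h with h1 h2
  · rw [h1, h2, mul_zero, zero_mul, sub_zero]
  · rw [Option.some.injEq] at h
    have h1' : (c : ZMod q) ≠ 0 := ‹_›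
    have h2' : (c' : ZMod q) ≠ 0 := ‹_›
    field_simp at h
    linear_combination h

/-- Two representatives of one pair differ by an element diagonal modulo `q`. -/
theorem dvd_of_pairOf_eq {g₁ g₂ : SL(2, ℤ)} (h : pairOf q g₁ = pairOf q g₂) :
    (q : ℤ) ∣ (g₁⁻¹ * g₂) 0 1 ∧ (q : ℤ) ∣ (g₁⁻¹ * g₂) 1 0 := by
  rw [pairOf, pairOf, Prod.mk.injEq] at h
  have h0 := lineOf_cross h.1
  have h1 := lineOf_cross h.2
  have e : ((g₁⁻¹ * g₂ : SL(2, ℤ)) : Matrix (Fin 2) (Fin 2) ℤ) =
      (g₁ : Matrix (Fin 2) (Fin 2) ℤ).adjugate * (g₂ : Matrix (Fin 2) (Fin 2) ℤ) := by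
    rw [Matrix.SpecialLinearGroup.coe_mul, Matrix.SpecialLinearGroup.coe_inv]
  simp only [e, Matrix.adjugate_fin_two, Matrix.mul_apply, Fin.sum_univ_two, Matrix.cons_val',
    Matrix.cons_val_zero, Matrix.cons_val_one, Matrix.of_apply, Matrix.cons_val_fin_one,
    ← ZMod.intCast_zmod_eq_zero_iff_dvd]
  push_cast
  constructor
  · linear_combination -h1
  · linear_combination h0

variable {M : ℕ} [NeZero M] (h : q.Coprime M)

/-- The relabelling. -/
def relabel (q M : ℕ) (L : Line q) : Line q := L.map (((-(M : ℤ) : ℤ) : ZMod q) * ·)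

include h in
omit [NeZero M] in
/-- The pair of the inverse of a mover. -/
theorem pairOf_inv (δ : SL(2, ℤ)) :
    pairOf q δ⁻¹ = (relabel q M (lineMap h δ none), relabel q M (lineMap h δ (some 0))) := by
  have hM := natCast_M_ne_zero h
  have hdet : (δ 0 0 : ZMod q) * (δ 1 1 : ℤ) - (δ 0 1 : ℤ) * (δ 1 0 : ℤ) = 1 := by
    have := congrArg (Int.cast : ℤ → ZMod q) δ.det_coe
    rw [Matrix.det_fin_two] at this
    push_cast at this
    exact this
  have hη : (eta M q 0 1 : ZMod q) * (eta M q 1 0 : ℤ) = -1 := by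
    have := congrArg (Int.cast : ℤ → ZMod q) (eta M q).det_coe
    rw [Matrix.det_fin_two, (eta_spec h).2.2.1] at this
    push_cast at this
    rw [ZMod.natCast_self, mul_zero, zero_sub] at this
    linear_combination -this
  -- the row line of `(a, b)` modulo `q`
  have key : ∀ (L : Line q) (u v : ZMod q) (γ : SL(2, ℤ)),
      (u = (γ 0 0 : ℤ) * ((lineR M L 0 0 : ℤ) : ZMod q) + (γ 0 1 : ℤ) * (lineR M L 1 0 : ℤ) ∧
        v = (γ 0 0 : ℤ) * ((lineR M L 0 1 : ℤ) : ZMod q) + (γ 0 1 : ℤ) * (lineR M L 1 1 : ℤ)) →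
      (∀ b, L = some b → v = (M : ZMod q) * b * u) ∧ (L = none → u = 0) := by
    rintro L u v γ ⟨rfl, rfl⟩
    cases L with
    | none =>
      refine ⟨fun b hb => (Option.some_ne_none b hb.symm).elim, fun _ => ?_⟩
      simp [lineR, Matrix.mul_apply, Fin.sum_univ_two]
    | some b =>
      refine ⟨fun b' hb => ?_, fun hb => (Option.some_ne_none b hb).elim⟩
      obtain rfl := Option.some.inj hb
      simp [lineR, -ZMod.natCast_val, ZMod.natCast_zmod_val]
      ring
  have hcoe : ∀ i j, ((δ⁻¹ : SL(2, ℤ)) i j) =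
      !![δ 1 1, -(δ 0 1); -(δ 1 0), δ 0 0] i j := fun i j => by
    rw [Matrix.SpecialLinearGroup.coe_inv, Matrix.adjugate_fin_two]
  have hline : ∀ (L : Line q) (x y : ℤ), ((x : ZMod q) ≠ 0 ∨ (y : ZMod q) ≠ 0) →
      ((∀ b, L = some b → (x : ZMod q) = (M : ZMod q) * b * y) ∧
        (L = none → (y : ZMod q) = 0)) → lineOf q x (-y) = relabel q M L := by
    intro L x y hne hL
    cases L with
    | none =>
      have := hL.2 rfl
      rw [lineOf, if_pos (by push_cast; rw [this, neg_zero])]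
      rfl
    | some b =>
      have hb := hL.1 b rfl
      have hy : (y : ZMod q) ≠ 0 := fun h0 => by
        rw [h0, mul_zero] at hb
        exact hne.elim (· hb) (· h0)
      refine lineOf_eq_some (by push_cast; exact neg_ne_zero.mpr hy) ?_
      rw [hb]
      push_cast
      ring
  have hR : ∀ (L : Line q) (i j : Fin 2),
      ((lineR M L 1 0 : ℤ) : ZMod q) * (δ 0 j : ℤ) + (lineR M L 1 1 : ℤ) * (δ 1 j : ℤ) =
        (lineLift h δ L 1 0 : ℤ) * (lineR M (lineMap h δ L) 0 j : ℤ) +
          (lineLift h δ L 1 1 : ℤ) * (lineR M (lineMap h δ L) 1 j : ℤ) ∧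
      ((lineR M L 0 0 : ℤ) : ZMod q) * (δ 0 j : ℤ) + (lineR M L 0 1 : ℤ) * (δ 1 j : ℤ) =
        (lineLift h δ L 0 0 : ℤ) * (lineR M (lineMap h δ L) 0 j : ℤ) +
          (lineLift h δ L 0 1 : ℤ) * (lineR M (lineMap h δ L) 1 j : ℤ) := by
    intro L i j
    have e := lineR_mul h δ L
    constructor
    · have := congrArg (Int.cast : ℤ → ZMod q) (congrFun (congrFun e 1) j)
      simpa [Matrix.mul_apply, Fin.sum_univ_two] using this
    · have := congrArg (Int.cast : ℤ → ZMod q) (congrFun (congrFun e 0) j)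
      simpa [Matrix.mul_apply, Fin.sum_univ_two] using this
  refine Prod.ext ?_ ?_
  · -- the second row, scaled
    show lineOf q ((δ⁻¹ : SL(2, ℤ)) 0 0) ((δ⁻¹ : SL(2, ℤ)) 1 0) = _
    rw [hcoe, hcoe]
    simp only [Matrix.cons_val', Matrix.cons_val_zero, Matrix.cons_val_one, Matrix.of_apply,
      Matrix.cons_val_fin_one]
    have h00 : ((lineR M (none : Line q) 0 0 : ℤ) : ZMod q) = 0 := by
      simp [lineR, Matrix.mul_apply, Fin.sum_univ_two]
    have h01 : ((lineR M (none : Line q) 0 1 : ℤ) : ZMod q) ≠ 0 := by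
      intro h0
      simp [lineR, Matrix.mul_apply, Fin.sum_univ_two] at h0
      rw [h0, zero_mul] at hη
      exact neg_ne_zero.mpr one_ne_zero hη.symm
    refine hline _ _ _ ?_ ?_
    · by_contra hcon
      push Not at hcon
      rw [hcon.1, hcon.2, mul_zero, mul_zero, sub_zero] at hdet
      exact zero_ne_one hdet
    · have e0 := (hR none 0 0).2
      have e1 := (hR none 0 1).2
      rw [h00, zero_mul, zero_add] at e0 e1
      have := key (lineMap h δ none) _ _ (lineLift h δ none) ⟨e0, e1⟩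
      exact ⟨fun b hb => mul_left_cancel₀ h01 ((this.1 b hb).trans (by ring)),
        fun hb => (mul_eq_zero.mp (this.2 hb)).resolve_left h01⟩
  · show lineOf q ((δ⁻¹ : SL(2, ℤ)) 0 1) ((δ⁻¹ : SL(2, ℤ)) 1 1) = _
    rw [hcoe, hcoe]
    simp only [Matrix.cons_val', Matrix.cons_val_zero, Matrix.cons_val_one, Matrix.of_apply,
      Matrix.cons_val_fin_one]
    have e0 := (hR (some 0) 0 0).2
    have e1 := (hR (some 0) 0 1).2
    rw [show ((lineR M (some (0 : ZMod q)) 0 0 : ℤ) : ZMod q) = 1 by simp [lineR],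
      show ((lineR M (some (0 : ZMod q)) 0 1 : ℤ) : ZMod q) = 0 by simp [lineR],
      one_mul, zero_mul, add_zero] at e0 e1
    have := key (lineMap h δ (some 0)) _ _ (lineLift h δ (some 0)) ⟨e0, e1⟩
    rw [show (δ 0 0 : ℤ) = -(-(δ 0 0)) by rw [neg_neg]]
    refine hline _ _ _ ?_ ⟨fun b hb => ?_, fun hb => ?_⟩
    · by_contra hcon
      push Not at hcon
      push_cast at hcon
      rw [neg_eq_zero, neg_eq_zero] at hcon
      rw [hcon.1, hcon.2, zero_mul, zero_mul, sub_zero] at hdet
      exact zero_ne_one hdet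
    · push_cast
      linear_combination -(this.1 b hb)
    · push_cast
      rw [this.2 hb, neg_zero]

omit [NeZero M] in
/-- Elements of `Γ (q M)` fix all lines. -/
theorem lineMap_of_mem {γ : SL(2, ℤ)} (hγ : γ ∈ Gamma (q * M)) (L : Line q) :
    lineMap h γ L = L := by
  set R := lineR M L with hR
  have hdvd : ∀ i j, ((q * M : ℕ) : ℤ) ∣ ((γ : Matrix (Fin 2) (Fin 2) ℤ) - 1) i j := fun i j => by
    rw [Gamma_mem] at hγ
    rw [← ZMod.intCast_zmod_eq_zero_iff_dvd, Matrix.sub_apply, Int.cast_sub, sub_eq_zero]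
    fin_cases i <;> fin_cases j <;> simp_all
  choose Y hY using hdvd
  set γ' : Matrix (Fin 2) (Fin 2) ℤ := 1 + (M : ℤ) • (R * Matrix.of Y * R.adjugate) with hγ'
  have hγeq : (γ : Matrix (Fin 2) (Fin 2) ℤ) = 1 + ((q * M : ℕ) : ℤ) • Matrix.of Y := by
    ext i j
    have := hY i j
    simp only [Matrix.sub_apply] at this
    simp only [Matrix.add_apply, Matrix.smul_apply, Matrix.of_apply, smul_eq_mul]
    linear_combination this
  have he : R * (γ : Matrix (Fin 2) (Fin 2) ℤ) = γ' * R := by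
    rw [hγ', hγeq, add_mul, mul_add, mul_one, one_mul, smul_mul, Matrix.mul_assoc (R * Matrix.of Y),
      Matrix.adjugate_mul, hR, det_lineR, Matrix.mul_smul, Matrix.mul_smul, mul_one, smul_smul]
    push_cast
    rw [mul_comm (M : ℤ)]
  have hdet : γ'.det = 1 := by
    have := congrArg Matrix.det he
    rw [Matrix.det_mul, Matrix.det_mul, γ.det_coe, mul_one, hR, det_lineR] at this
    exact mul_right_cancel₀ (Int.natCast_ne_zero.mpr (Fact.out : q.Prime).ne_zero)
      (this.symm.trans (one_mul _).symm)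
  exact lineMap_eq h (γ := ⟨γ', hdet⟩) he

end FLTAgent.LowerSquare.Geometry
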