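import Fermat.Agent.LowerSquare.Geometry.BridgePairs
import Fermat.Agent.HeckeJacobian.KummerMap

/-!
# Functions behind the series of the split Cartan cover

Polynomials in the families along a pair of lines as holomorphic functions, and the functions of
level `q² M'` in the variable `τ/q`.
-/

set_option autoImplicit false

noncomputable section

open CongruenceSubgroup AlgebraicCurve ModularCurve
open UpperHalfPlane hiding I
open scoped UpperHalfPlane MatrixGroups Manifold
open FLTAgent.LevelM FLTAgent.HeckeJacobian FLTAgent.ModularFF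

namespace FLTAgent.LowerSquare.Geometry

open FLTAgent.CarayolSquare FLTAgent.CarayolSquare.Provider

local notation "Qbar" => AlgebraicClosure ℚ

variable {q M : ℕ} [Fact q.Prime] [NeZero M] (h : q.Coprime M) (X : Ctx q)

/-- A polynomial in the families along a pair, as a holomorphic function. -/
def pairFun (P : Pair q) : MvPolynomial (Bool × Gen (CRing X M)) X.O →+* Hol :=
  (MvPolynomial.eval₂Hom (constHom X)
      (fun v : Bool × Gen (CRing X M) => genFun M h X 1 (P.line v.1) v.2)).codRestrict Hol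
    fun u => mdiff_eval X (fun _ => mdiff_genFun h X _ _ _) u

/-- Its series. -/
def pairSer (P : Pair q) : MvPolynomial (Bool × Gen (CRing X M)) X.O →ₐ[X.O] Ser :=
  MvPolynomial.aeval fun v => genSerAt M h X 1 (P.line v.1) v.2

theorem hasExp_pairFun (P : Pair q) (u : MvPolynomial (Bool × Gen (CRing X M)) X.O) :
    HasExp (q * M) (pairFun h X P u : ℍ → ℂ) (coeffMap (Provider.emb X) (pairSer h X P u)) :=
  hasExp_eval X (F := fun v : Bool × Gen (CRing X M) => genFun M h X 1 (P.line v.1) v.2)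
    (S := fun v : Bool × Gen (CRing X M) => genSerAt M h X 1 (P.line v.1) v.2)
    (fun _ => hasExp_genFun h X 1 _ _) u

omit [Fact q.Prime] [NeZero M] in
theorem Gamma_le_of_dvd {A B : ℕ} (hAB : A ∣ B) {γ : SL(2, ℤ)} (hγ : γ ∈ Gamma B) :
    γ ∈ Gamma A := by
  rw [Gamma_mem] at hγ ⊢
  have key : ∀ (x : ℤ) (e : ℤ), (x : ZMod B) = e → (x : ZMod A) = e := fun x e hx => by
    rw [ZMod.intCast_eq_intCast_iff_dvd_sub] at hx ⊢
    exact (Int.natCast_dvd_natCast.mpr hAB).trans hx
  refine ⟨?_, ?_, ?_, ?_⟩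
  · simpa using key _ 1 (by simpa using hγ.1)
  · simpa using key _ 0 (by simpa using hγ.2.1)
  · simpa using key _ 0 (by simpa using hγ.2.2.1)
  · simpa using key _ 1 (by simpa using hγ.2.2.2)

/-- The pair of a mover. -/
def movePair (δ : SL(2, ℤ)) : Pair q :=
  ⟨(lineMap h δ none, lineMap h δ (some 0)), (lineMap_bijective h δ).1.ne (by simp)⟩

omit [NeZero M] in
theorem movePair_surjective (P : Pair q) :
    ∃ δ ∈ Gamma M, movePair h δ = P := by
  obtain ⟨δ, hδ, h1, h2⟩ := exists_pair_move h P.2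
  exact ⟨δ, hδ, Subtype.ext (Prod.ext h1 h2)⟩

omit [NeZero M] in
theorem movePair_of_mem {γ : SL(2, ℤ)} (hγ : γ ∈ Gamma (q * M)) :
    movePair h γ = Pair.base q :=
  Subtype.ext (Prod.ext (lineMap_of_mem h hγ none) (lineMap_of_mem h hγ (some 0)))

/-- Moving the base pair. -/
theorem actH_pairFun_base {δ : SL(2, ℤ)} (hδ : δ ∈ Gamma M)
    (u : MvPolynomial (Bool × Gen (CRing X M)) X.O) :
    actH δ (pairFun h X (Pair.base q) u) = pairFun h X (movePair h δ) u := by
  refine Subtype.ext ?_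
  show act δ (MvPolynomial.eval₂ (constHom X)
      (fun v : Bool × Gen (CRing X M) => genFun M h X 1 ((Pair.base q).line v.1) v.2) u) =
    MvPolynomial.eval₂ (constHom X)
      (fun v : Bool × Gen (CRing X M) => genFun M h X 1 ((movePair h δ).line v.1) v.2) u
  rw [act_eval]
  congr 1
  funext v
  rw [← genFun_move, genFun_of_mem h X hδ]
  obtain ⟨b, w⟩ := v
  cases b <;> rfl

theorem actH_pairFun_of_mem {γ : SL(2, ℤ)} (hγ : γ ∈ Gamma (q * M))
    (u : MvPolynomial (Bool × Gen (CRing X M)) X.O) :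
    actH γ (pairFun h X (Pair.base q) u) = pairFun h X (Pair.base q) u := by
  rw [actH_pairFun_base h X (Gamma_le_of_dvd (dvd_mul_left M q) hγ), movePair_of_mem h hγ]

/-! ### `τ ↦ τ/q` -/

/-- `f (τ/q)`. -/
def scaleDiv (q M : ℕ) [Fact q.Prime] : Hol →+* Hol where
  toFun f := ⟨fun τ => (f : ℍ → ℂ) (lineTau M (some (0 : ZMod q)) τ), mdiff_comp_lineTau M f.2 _⟩
  map_one' := rfl
  map_mul' _ _ := rfl
  map_zero' := rfl
  map_add' _ _ := rfl

omit [NeZero M] in
theorem scaleDiv_smul (c : ℂ) (f : Hol) : scaleDiv q M (c • f) = c • scaleDiv q M f := rfl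

omit [NeZero M] in
/-- Conjugation by `diag (1, q)`. -/
theorem actH_scaleDiv {γ γ' : SL(2, ℤ)}
    (he : !![(q : ℤ), 0; 0, 1] * (γ' : Matrix (Fin 2) (Fin 2) ℤ) =
      (γ : Matrix (Fin 2) (Fin 2) ℤ) * !![(q : ℤ), 0; 0, 1]) (f : Hol) :
    actH γ (scaleDiv q M f) = scaleDiv q M (actH γ' f) := by
  have he' : lineR M (some (0 : ZMod q)) * (γ : Matrix (Fin 2) (Fin 2) ℤ) =
      (γ' : Matrix (Fin 2) (Fin 2) ℤ) * lineR M (some (0 : ZMod q)) := by
    have h00 := congrFun (congrFun he 0) 0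
    have h01 := congrFun (congrFun he 0) 1
    have h10 := congrFun (congrFun he 1) 0
    have h11 := congrFun (congrFun he 1) 1
    have hq : (q : ℤ) ≠ 0 := Int.natCast_ne_zero.mpr (Fact.out : q.Prime).ne_zero
    simp [Matrix.mul_apply, Fin.sum_univ_two] at h00 h01 h10 h11
    ext i j
    fin_cases i <;> fin_cases j <;> simp [lineR, Matrix.mul_apply, Fin.sum_univ_two]
    · exact mul_left_cancel₀ hq (by linear_combination -h00)
    · linear_combination -h01
    · linear_combination -h10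
    · linear_combination -(q : ℤ) * h11
  have hgl : glLine M (some (0 : ZMod q)) * Matrix.SpecialLinearGroup.mapGL ℝ γ =
      Matrix.SpecialLinearGroup.mapGL ℝ γ' * glLine M (some (0 : ZMod q)) := by
    refine Units.ext ?_
    have := congrArg (fun Y : Matrix (Fin 2) (Fin 2) ℤ => Y.map (Int.castRingHom ℝ)) he'
    rw [Matrix.map_mul, Matrix.map_mul] at this
    exact this
  refine Subtype.ext (funext fun τ => ?_)
  show (f : ℍ → ℂ) (lineTau M (some (0 : ZMod q)) (γ • τ)) =
    (f : ℍ → ℂ) (γ' • lineTau M (some (0 : ZMod q)) τ)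
  rw [lineTau, lineTau, smul_eq_mapGL, smul_eq_mapGL, ← mul_smul, ← mul_smul, hgl]

/-- The series of a function of level `N` in the variable `τ/q`. -/
theorem hasExp_scaleDiv {f : Hol} {s : Ser}
    (hf : HasExp 1 (f : ℍ → ℂ) (coeffMap (Provider.emb X) s)) :
    HasExp (q * M) (scaleDiv q M f : ℍ → ℂ)
      (coeffMap (Provider.emb X) (qExpand Qbar M s)) := by
  have h1 := hf.qExpand M
  rw [mul_one, ← coeffMap_qExpand] at h1
  have h2 := (hasExp_sub X h1).2 0
  have e : X.sub (some (0 : ZMod q)) (qExpand Qbar M s) = qExpand Qbar M s := by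
    show Igusa.scale (X.zetaU 0) _ = _
    have : X.zetaU 0 = 1 := Units.ext (by
      show X.ζ ^ (0 : ZMod q).val = 1
      rw [ZMod.val_zero, pow_zero])
    rw [this, Igusa.scale_one]
  rw [e] at h2
  exact h2

/-- Functions with equal expansions are equal. -/
theorem hol_eq_of_hasExp {N : ℕ} (_hN : 0 < N) {f g : Hol} {s : LaurentSeries ℂ}
    (hf : HasExp N (f : ℍ → ℂ) s) (hg : HasExp N (g : ℍ → ℂ) s) : f = g := by
  refine sub_eq_zero.mp (Subtype.ext (eq_zero_of_eventuallyEq_zero (f - g).2 ?_))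
  have h0 := hf.sub hg
  rw [sub_self] at h0
  filter_upwards [h0] with τ hτ
  exact hτ.unique (by simp [hasSum_zero])

/-- Kummer data on a given divisor. -/
theorem exists_kummer_of_div [Algebra Qbar ℂ] {N n : ℕ} [NeZero N] (hn : n ≠ 0)
    {D : Divisor.degZero (K := Qbar) (F := modularFunctionFieldBar N)}
    {f : modularFunctionFieldBar N} (hf : f ≠ 0)
    (hD : ∀ v, (n • (D : Divisor Qbar (modularFunctionFieldBar N))) v = v.ord f)
    {c : Additive (Gamma0 N) →+ Additive ℂˣ} (hc : KummerRel N n (Pic0.mk D) c) :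
    ∃ (P Q : MvPolynomial (Divs N) Qbar) (a : Hol),
      evalField Qbar N Q ≠ 0 ∧ evalField Qbar N P = f * evalField Qbar N Q ^ n ∧
      a ^ n = evalHol N P ∧ a ≠ 0 ∧ TransformsBy N a c := by
  obtain ⟨P, Q, hQ, hfQ⟩ := HeckeJacobian.exists_mul_eq N f
  have hP : evalField Qbar N (P * Q ^ (n - 1)) = f * evalField Qbar N Q ^ n := by
    rw [map_mul, map_pow, ← hfQ, mul_assoc, ← pow_succ',
      Nat.sub_add_cancel (Nat.pos_of_ne_zero hn)]
  have hr : Rep N (f * evalField Qbar N Q ^ n) (evalHol N (P * Q ^ (n - 1))) :=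
    hP ▸ rep_evalField _
  have h0 : f * evalField Qbar N Q ^ n ≠ 0 := mul_ne_zero hf (pow_ne_zero _ hQ)
  obtain ⟨E, hE, hEdeg⟩ := HasPrincipalDivisors.exists_divisor (K := Qbar)
    (F := modularFunctionFieldBar N) (evalField Qbar N Q) hQ
  have hord : ∀ v : Place Qbar (modularFunctionFieldBar N), (n : ℤ) *
      ((D + ⟨E, hEdeg⟩ : Divisor.degZero (K := Qbar) (F := modularFunctionFieldBar N)) :
        Divisor Qbar (modularFunctionFieldBar N)) v = v.ord (f * evalField Qbar N Q ^ n) := by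
    intro v
    rw [v.ord_mul hf (pow_ne_zero _ hQ), FFBasic.ord_pow, AddSubgroup.coe_add, Finsupp.add_apply,
      ← hD v, hE v, mul_add, Finsupp.smul_apply, nsmul_eq_mul]
  obtain ⟨a, ha⟩ := Hol.exists_root hn _ fun τ => hr.dvd_ordI (fun v => ⟨_, (hord v).symm⟩) τ
  obtain ⟨c', hc'⟩ := exists_transformsBy hn (root_ne_zero hn hr h0 ha) (N := N)
    fun γ hγ => by rw [ha]; exact hr.invariant hγ
  have hrel : KummerRel N n (Pic0.mk D) c' := by
    refine ⟨D + ⟨E, hEdeg⟩, _, _, a, ?_, h0, hord, hr, ha, hc'⟩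
    rw [Pic0.mk_add, add_eq_left]
    exact (QuotientAddGroup.eq_zero_iff _).mpr ⟨_, hQ, hE⟩
  exact ⟨_, Q, a, hQ, hP, ha, root_ne_zero hn hr h0 ha, KummerRel.unique hn hrel hc ▸ hc'⟩

end FLTAgent.LowerSquare.Geometry
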