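import Fermat.Agent.LowerSquare.Geometry.Operator
import Fermat.Agent.CarayolSquare.Plumbing.Transport
import Fermat.Agent.FFBasic.Approximation
import Fermat.Agent.FFBasic.Discrete
import Mathlib.RingTheory.Valuation.LocalSubring

/-!
# The operator preserves divisibility of the horizontal orders

A place of `splitField` extends to the series; pulled back along the embeddings it gives finitely
many places, at all of which a function with divisible orders is a power up to units by weak
approximation.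
-/

set_option autoImplicit false

noncomputable section

open AlgebraicCurve IntermediateField FLTAgent.CarayolSquare

namespace FLTAgent.LowerSquare.Geometry

variable {q : ℕ} [NeZero q] [Fact q.Prime] {X : Ctx q} {M₁ : ℕ} [NeZero M₁]

omit [Fact (Nat.Prime q)] in
theorem isFunctionField_split (G : Model X M₁) : FFBasic.IsFunctionField X.K G.splitField := by
  have := Plumbing.finiteDimensional_adjoin_hSplit G
  have hJ := Plumbing.transcendental_jSplit G
  refine ⟨⟨Plumbing.hSplit G, fun halg => ?_, inferInstance⟩⟩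
  have : Algebra.IsAlgebraic X.K X.K⟮Plumbing.hSplit G⟯ :=
    IntermediateField.isAlgebraic_adjoin_simple halg.isIntegral
  have : Algebra.IsAlgebraic X.K⟮Plumbing.hSplit G⟯ G.splitField :=
    Algebra.IsAlgebraic.of_finite _ _
  exact hJ ((Algebra.IsAlgebraic.trans X.K X.K⟮Plumbing.hSplit G⟯ G.splitField).isAlgebraic _)

/-- Orders divisible by `m` at all horizontal places. -/
def Horiz (G : Model X M₁) (f : G.splitField) (m : ℕ) : Prop :=
  ∀ W : ValuationSubring G.splitField, (∀ c : X.K, algebraMap X.K G.splitField c ∈ W) →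
    ∃ g : G.splitField, g ≠ 0 ∧ W.valuation f = W.valuation (g ^ m)

theorem exists_comap_eq {F L : Type*} [Field F] [Field L] (i : F →+* L) (W : ValuationSubring F) :
    ∃ W' : ValuationSubring L, W'.comap i = W := by
  let A : Subring L := W.toSubring.map i
  let ι : W.toSubring →+* A :=
    (i.comp W.toSubring.subtype).codRestrict A fun x => ⟨x, x.2, rfl⟩
  have hι : Function.Bijective ι := by
    refine ⟨fun x y h => Subtype.ext (i.injective (congrArg Subtype.val h)), ?_⟩
    rintro ⟨_, x, hx, rfl⟩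
    exact ⟨⟨x, hx⟩, rfl⟩
  let e := RingEquiv.ofBijective ι hι
  let I : Ideal A := (IsLocalRing.maximalIdeal W).comap e.symm.toRingHom
  have hI : I ≠ ⊤ := Ideal.comap_ne_top _ (IsLocalRing.maximalIdeal.isMaximal W).ne_top
  obtain ⟨B, hAB, hIB⟩ := Ideal.image_subset_nonunits_valuationSubring I hI
  refine ⟨B, le_antisymm (fun z hz => ?_) fun z hz => hAB ⟨z, hz, rfl⟩⟩
  by_contra hzW
  rcases eq_or_ne z 0 with rfl | hz0
  · exact hzW (zero_mem W)
  have hzi : z⁻¹ ∈ W := (W.mem_or_inv_mem z).resolve_left hzW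
  have hmax : (⟨z⁻¹, hzi⟩ : W) ∈ IsLocalRing.maximalIdeal W := by
    rw [IsLocalRing.mem_maximalIdeal]
    rintro ⟨u, hu⟩
    have h1 : z⁻¹ * ((u⁻¹ : (W)ˣ) : W) = (1 : F) := by
      have := congrArg (fun x : W => (x : F)) u.mul_inv
      simp only [MulMemClass.coe_mul, OneMemClass.coe_one] at this
      rwa [show ((u : W) : F) = z⁻¹ from congrArg Subtype.val hu] at this
    refine hzW ?_
    rw [show z = (((u⁻¹ : (W)ˣ) : W) : F) by
      field_simp at h1
      exact h1.symm]
    exact Subtype.coe_prop _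
  have hmem : (ι ⟨z⁻¹, hzi⟩ : L) ∈ A.subtype '' I :=
    ⟨ι ⟨z⁻¹, hzi⟩, show e.symm (e ⟨z⁻¹, hzi⟩) ∈ IsLocalRing.maximalIdeal W by
      rw [e.symm_apply_apply]; exact hmax, rfl⟩
  have hnu := hIB hmem
  rw [show (ι ⟨z⁻¹, hzi⟩ : L) = (i z)⁻¹ from map_inv₀ i z] at hnu
  exact (B.inv_mem_nonunits_iff.mp hnu).elim ((_root_.map_ne_zero i).mpr hz0) fun h => h hz

theorem mem_and_inv_mem_of_valuation_eq {F : Type*} [Field F] (W : ValuationSubring F) {a b : F}
    (hb : b ≠ 0) (h : W.valuation a = W.valuation b) : a / b ∈ W ∧ (a / b)⁻¹ ∈ W := by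
  have h1 : W.valuation (a / b) = 1 := by
    rw [map_div₀, h, div_self (W.valuation.ne_zero_iff.mpr hb)]
  exact ⟨(W.valuation_le_one_iff _).mp h1.le,
    (W.valuation_le_one_iff _).mp (by rw [map_inv₀, h1, inv_one])⟩

variable {G : Model X M₁}

omit [Fact (Nat.Prime q)] in
/-- Finitely many places: a function with divisible orders is a power up to units. -/
theorem exists_pow_approx {f : G.splitField} (hf : f ≠ 0) {m : ℕ} (h : Horiz G f m)
    (S : Finset (ValuationSubring G.splitField))
    (hS : ∀ W ∈ S, ∀ c : X.K, algebraMap X.K G.splitField c ∈ W) :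
    ∃ g : G.splitField, g ≠ 0 ∧ ∀ W ∈ S, f / g ^ m ∈ W ∧ (f / g ^ m)⁻¹ ∈ W := by
  classical
  have := isFunctionField_split G
  let P : Finset (Place X.K G.splitField) :=
    ((S.filter fun W => ¬ W = ⊤).attach).image fun W : {W // W ∈ S.filter fun W => ¬ W = ⊤} =>
      FFBasic.placeOfValuationSubring W.1
        (hS W.1 (Finset.mem_filter.mp W.2).1) (Finset.mem_filter.mp W.2).2
  choose gw hgw0 hgw using fun v : Place X.K G.splitField =>
    h v.toValuationSubring v.algebraMap_mem'
  obtain ⟨z, hz⟩ := FFBasic.exists_ord_eq_forall P fun v => v.ord (gw v)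
  set g : G.splitField := if z = 0 then 1 else z with hgdef
  have hg0 : g ≠ 0 := by
    rw [hgdef]; split_ifs with h0
    · exact one_ne_zero
    · exact h0
  refine ⟨g, hg0, fun W hW => ?_⟩
  by_cases hWtop : W = ⊤
  · subst hWtop
    exact ⟨ValuationSubring.mem_top _, ValuationSubring.mem_top _⟩
  set v := FFBasic.placeOfValuationSubring W (hS W hW) hWtop
  have hvP : v ∈ P := Finset.mem_image.mpr
    ⟨⟨W, Finset.mem_filter.mpr ⟨hW, hWtop⟩⟩, Finset.mem_attach _ _, rfl⟩
  obtain ⟨hz0, hzord⟩ := hz v hvP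
  have hgz : g = z := if_neg hz0
  obtain ⟨h1, h2⟩ := mem_and_inv_mem_of_valuation_eq v.toValuationSubring
    (pow_ne_zero m (hgw0 v)) (hgw v)
  have hpz : gw v ^ m ≠ 0 := pow_ne_zero m (hgw0 v)
  have hdiv : f / gw v ^ m ≠ 0 := div_ne_zero hf hpz
  have hord : v.ord (f / g ^ m) = 0 := by
    have e1 := FFBasic.ord_nonneg_of_mem v h1
    have e2 := FFBasic.ord_nonneg_of_mem v h2
    rw [Place.ord_inv] at e2
    have e3 : v.ord (f / gw v ^ m) = v.ord f - m * v.ord (gw v) := by
      rw [div_eq_mul_inv, v.ord_mul hf (inv_ne_zero hpz), v.ord_inv, FFBasic.ord_pow]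
      ring
    rw [div_eq_mul_inv, v.ord_mul hf (inv_ne_zero (pow_ne_zero m hg0)), v.ord_inv,
      FFBasic.ord_pow, hgz, hzord]
    omega
  exact ⟨FFBasic.mem_of_ord_nonneg v hord.ge, FFBasic.mem_of_ord_nonneg v
    (by rw [Place.ord_inv, hord, neg_zero])⟩

/-- **The operator preserves divisibility of the horizontal orders.** -/
theorem OpData.horiz (D : OpData G) {f : G.splitField} (hf : f ≠ 0) {m : ℕ} (h : Horiz G f m) :
    Horiz G (D.op f) m := by
  classical
  intro W hK
  obtain ⟨W', hW'⟩ := exists_comap_eq (G.splitField.val.toRingHom) W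
  have hmem : ∀ z : G.splitField, z ∈ W ↔ (z : Ser) ∈ W' := fun z => by
    conv_lhs => rw [← hW']
    rfl
  set S := Finset.univ.image fun Q : Pair q => W'.comap (G.emb G.one Q).toRingHom
  have hS : ∀ V ∈ S, ∀ c : X.K, algebraMap X.K G.splitField c ∈ V := by
    intro V hV c
    obtain ⟨Q, -, rfl⟩ := Finset.mem_image.mp hV
    show G.emb G.one Q (algebraMap X.K G.splitField c) ∈ W'
    rw [AlgHom.commutes]
    exact (hmem _).mp (hK c)
  obtain ⟨g, hg0, hg⟩ := exists_pow_approx hf h S hS
  refine ⟨D.op g, D.op_ne_zero hg0, ?_⟩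
  set u := f / g ^ m
  have hu : ∀ Q, G.emb G.one Q u ∈ W' ∧ G.emb G.one Q u⁻¹ ∈ W' := fun Q =>
    hg _ (Finset.mem_image_of_mem _ (Finset.mem_univ Q))
  have hopu : ∀ x : G.splitField, (∀ Q, G.emb G.one Q x ∈ W') → D.op x ∈ W := fun x hx => by
    rw [hmem, D.coe_op]
    exact prod_mem fun Q _ => pow_mem (hx Q) _
  have h1 : W.valuation (D.op u) = 1 := by
    refine le_antisymm ((W.valuation_le_one_iff _).mpr (hopu u fun Q => (hu Q).1)) ?_
    have h2 := (W.valuation_le_one_iff _).mpr (hopu u⁻¹ fun Q => (hu Q).2)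
    rw [D.op_inv, map_inv₀] at h2
    exact (inv_le_one₀ (W.valuation.pos_iff.mpr
      (D.op_ne_zero (div_ne_zero hf (pow_ne_zero m hg0))))).mp h2
  rw [show f = u * g ^ m from (div_mul_cancel₀ f (pow_ne_zero m hg0)).symm, D.op_mul, D.op_pow,
    map_mul, h1, one_mul]

end FLTAgent.LowerSquare.Geometry

end
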