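import Fermat.Agent.LowerSquare.Geometry.Multipliers
import Fermat.Agent.LowerSquare.Geometry.Horizontal
import Fermat.Agent.MazurModuli.Unit

/-!
# The multipliers have no zero and no pole on the open part

The translates of `q ^ 12 Δ (q τ) / Δ τ` are integral over the base and their product is a constant,
so they are units at every place over `K` at which `h` and `1 / D` are integral.
-/

set_option autoImplicit false

noncomputable section

open ModularCurve Polynomial FLTAgent.CarayolSquare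

namespace FLTAgent.LowerSquare.Geometry

local notation "Qbar" => AlgebraicClosure ℚ

section Product

open FLTAgent.Igusa (jv qx Lead ZetaRing ev deltaQ isoFSeries pairPsi expandPair scale)
open FLTAgent.MazurModuli

/-- The product of the conjugates of `p ^ 12 Δ (p τ) / Δ τ` is a constant. -/
theorem exists_prod_isoFSeries (p : ℕ) [NeZero p] [Fact p.Prime] :
    ∃ ε : ZetaRing p, IsUnit ε ∧ ∏ i : Option (ZMod p), isoFSeries p i =
      HahnSeries.C (ε * (p : ZetaRing p) ^ 12) := by
  classical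
  obtain ⟨Ψ, ε, -, hε, hprod, h0⟩ := exists_unitPoly p Fact.out
  set n := Fintype.card (Option (ZMod p))
  refine ⟨(-1) ^ n * ε, (isUnit_neg_one.pow n).mul hε, ?_⟩
  have h := congrArg (fun P => Polynomial.coeff P 0) hprod
  simp only [Polynomial.coeff_map, h0, coeff_zero_eq_eval_zero (∏ i, (X - C (isoFSeries p i))),
    eval_prod, eval_sub, eval_X, eval_C, zero_sub, Finset.prod_neg, Finset.card_univ,
    ev, coe_eval₂RingHom, eval₂_C] at h
  rw [mul_assoc ((-1) ^ n), map_mul, map_pow, map_neg, map_one, h, ← mul_assoc, ← mul_pow]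
  simp [n]

variable {q : ℕ} [NeZero q] [Fact q.Prime] (X : Ctx q) (M₁ : ℕ) [NeZero M₁]

/-- The product of the translates of the unit over all lines is a nonzero constant. -/
theorem exists_prod_discFam (hM : ¬ q ∣ M₁) :
    ∃ c : Qbar, c ≠ 0 ∧ ∏ L : Line q, discFam X M₁ L = HahnSeries.C c := by
  classical
  obtain ⟨ε, hε, hprod⟩ := exists_prod_isoFSeries q
  set f : ZetaRing q →+* Qbar := FLTAgent.Igusa.zetaHom X.ζ X.hζ
  have hf : ∀ n : ℕ, (Units.map (f : ZetaRing q →* Qbar) (FLTAgent.Igusa.zetaU q ^ n) : Qbar) =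
      X.ζ ^ n := fun n => by
    rw [map_pow, Units.val_pow_eq_pow_val]
    refine congrArg (· ^ n) ?_
    simp [f, FLTAgent.Igusa.zetaHom, FLTAgent.Igusa.zetaU]
  refine ⟨f ε * (q : Qbar) ^ 12, mul_ne_zero (hε.map f).ne_zero (pow_ne_zero _ X.q_ne_zero), ?_⟩
  have hM0 := NeZero.ne M₁
  have hq0 := NeZero.ne q
  have key := congrArg (fun s => qx Qbar M₁ (coeffMap f s)) hprod
  simp only [map_prod, HahnSeries.C_apply, coeffMap_single, FLTAgent.Igusa.qx_single hM0, mul_zero,
    map_mul, map_pow, map_natCast] at key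
  rw [map_mul, map_pow, map_natCast, HahnSeries.C_apply, ← key, Fintype.prod_option,
    Fintype.prod_option]
  have hnone : discFam X M₁ none = qx Qbar M₁ (coeffMap f (isoFSeries q none)) := by
    simp only [isoFSeries, map_mul, map_pow, map_natCast, FLTAgent.Igusa.coeffMap_deltaQ]
    show (q : Ser) ^ 12 * (qExpand Qbar q (qExpand Qbar q (qExpand Qbar M₁ _)) *
      qExpand Qbar q (qExpand Qbar M₁ _)) = _
    simp only [← FLTAgent.Igusa.qx_eq, deltaQ, Igusa.discSeries, Igusa.discInvSeries, map_mul]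
    rw [FLTAgent.Igusa.qx_qx hq0 hM0, FLTAgent.Igusa.qx_qx hq0 hM0,
      FLTAgent.Igusa.qx_qx hq0 (mul_ne_zero hq0 hM0),
      FLTAgent.Igusa.qx_qx hq0 hM0, FLTAgent.Igusa.qx_qx hq0 (mul_ne_zero hq0 hM0),
      FLTAgent.Igusa.qx_qx hM0 (mul_ne_zero hq0 hq0), FLTAgent.Igusa.qx_qx hM0 hq0,
      FLTAgent.Igusa.qx_qx hq0 hM0,
      show q * (q * M₁) = q * q * M₁ by ring, show M₁ * (q * q) = q * q * M₁ by ring,
      show M₁ * q = q * M₁ by ring,
      FLTAgent.Igusa.qx_single (mul_ne_zero (mul_ne_zero hq0 hq0) hM0),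
      FLTAgent.Igusa.qx_single (mul_ne_zero hq0 hM0), FLTAgent.Igusa.qx_single hM0,
      show HahnSeries.single ((M₁ : ℤ) * ((q : ℤ) * q - q)) (1 : Qbar) =
        HahnSeries.single (((q * q * M₁ : ℕ) : ℤ) * 1) 1 *
          HahnSeries.single (((q * M₁ : ℕ) : ℤ) * (-1)) 1 by
        rw [HahnSeries.single_mul_single, one_mul]
        congr 1
        push_cast
        ring_nf]
    ring_nf
  rw [hnone]
  congr 1
  let e : ZMod q ≃ ZMod q := Equiv.mulRight₀ (M₁ : ZMod q) (by
    rw [Ne, ZMod.natCast_eq_zero_iff]; exact hM)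
  refine Fintype.prod_equiv e _ _ fun b => ?_
  have hz : X.zetaU b ^ M₁ = Units.map (f : ZetaRing q →* Qbar)
      (FLTAgent.Igusa.zetaU q ^ (e b).val) := by
    refine Units.ext ?_
    rw [hf, Units.val_pow_eq_pow_val, Ctx.zetaU, Units.val_mk0, ← pow_mul]
    refine pow_eq_pow_of_modEq ?_ X.hζ.pow_eq_one
    rw [← ZMod.natCast_eq_natCast_iff]
    simp [e]
  show discFam X M₁ (some b) = qx Qbar M₁ (coeffMap f (isoFSeries q (some (e b))))
  simp only [isoFSeries, map_mul, FLTAgent.Igusa.coeffMap_scale, ← hz,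
    FLTAgent.Igusa.coeffMap_qx _ hq0, (FLTAgent.Igusa.coeffMap_discSeries f).1,
    (FLTAgent.Igusa.coeffMap_discSeries f).2, FLTAgent.Igusa.qx_qx hM0 hq0]
  show Igusa.scale (X.zetaU b) (qExpand Qbar M₁ _) * qExpand Qbar q (qExpand Qbar M₁ _) = _
  simp only [← FLTAgent.Igusa.qx_eq, FLTAgent.Igusa.scale_qx _ hM0,
    FLTAgent.Igusa.qx_qx hq0 hM0, mul_comm q M₁]

end Product

variable {q : ℕ} [NeZero q] [Fact q.Prime] {X : Ctx q} {M₁ : ℕ} [NeZero M₁] (G : Model X M₁)

theorem mem_of_isIntegral_adjoin {R E : Type*} [CommRing R] [Field E] [Algebra R E]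
    {A : Subalgebra R E} (B : ValuationSubring E) (hAB : ∀ a ∈ A, a ∈ B) {z : E}
    (hz : IsIntegral A z) : z ∈ B := by
  obtain ⟨P, hP, hPz⟩ := hz
  let ψ : A →+* B := A.val.toRingHom.codRestrict B.toSubring fun a => hAB a a.2
  obtain ⟨y, hy⟩ := IsIntegrallyClosed.isIntegral_iff.mp
    (⟨P.map ψ, hP.map _, by rw [eval₂_map]; exact hPz⟩ : IsIntegral B z)
  rw [← hy]
  exact y.2

omit [Fact (Nat.Prime q)] in
/-- The translates along all lines are integral where `h` and `1 / D` are. -/
theorem gs_mem_of_base (W' : ValuationSubring Ser)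
    (hC : ∀ c : G.C, X.up (c : Ser) ∈ W') (L : Line q) (v : Gen G.C) : G.gs G.one L v ∈ W' := by
  classical
  let R := MvPolynomial (Line q × Gen G.C) X.O
  let PP : Polynomial R := ∏ L' : Line q, (Polynomial.X - C (MvPolynomial.X (L', v)))
  have hPP : ∀ π : Equiv.Perm (Line q),
      PP.map (MvPolynomial.rename (Prod.map π id)).toRingHom = PP := fun π => by
    simp only [PP, Polynomial.map_prod, Polynomial.map_sub, Polynomial.map_X, Polynomial.map_C]
    refine Fintype.prod_equiv π _ _ fun L' => ?_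
    simp
  let ev₁ : R →+* Ser := (MvPolynomial.aeval (R := X.O) fun v : Line q × Gen G.C =>
    genSer X M₁ (fun δ a => G.cs δ a) G.twP G.twB G.one v.1 v.2).toRingHom
  have hcoef : ∀ n, (PP.map ev₁).coeff n ∈ W' := fun n => by
    obtain ⟨c, hc⟩ := G.symm (PP.coeff n) fun π => by
      conv_rhs => rw [← hPP π, Polynomial.coeff_map]
      rfl
    rw [Polynomial.coeff_map]
    show MvPolynomial.aeval _ (PP.coeff n) ∈ W'
    rw [hc G.one, G.cs_one]
    exact hC c
  have hm : (PP.map ev₁).Monic :=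
    (monic_prod_of_monic _ _ fun _ _ => monic_X_sub_C _).map _
  have hroot : (PP.map ev₁).eval (G.gs G.one L v) = 0 := by
    simp only [PP, Polynomial.map_prod, Polynomial.map_sub, Polynomial.map_X, Polynomial.map_C,
      eval_prod]
    refine Finset.prod_eq_zero (Finset.mem_univ L) ?_
    simp only [ev₁, AlgHom.toRingHom_eq_coe, RingHom.coe_coe, eval_sub, eval_X, eval_C, sub_eq_zero]
    rw [MvPolynomial.aeval_X]
    rfl
  obtain ⟨Q, hQ, -, hQm⟩ := lifts_and_natDegree_eq_and_monic
    ((Polynomial.lifts_iff_coeff_lifts (f := W'.toSubring.subtype) _).mpr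
      fun n => ⟨⟨_, hcoef n⟩, rfl⟩) hm
  obtain ⟨y, hy⟩ := IsIntegrallyClosed.isIntegral_iff.mp
    (⟨Q, hQm, by rw [← eval_map]; exact hQ ▸ hroot⟩ : IsIntegral W' (G.gs G.one L v))
  rw [← hy]
  exact y.2

omit [NeZero q] [Fact (Nat.Prime q)] in
theorem algebraMap_O_eq (c : X.O) : algebraMap X.O Ser c = algebraMap X.K Ser (c : X.K) := by
  rw [X.algebraMap_eq_C, IsScalarTower.algebraMap_apply X.K Qbar Ser,
    algebraMap_laurentSeries_eq_single, HahnSeries.C_apply]

omit [Fact (Nat.Prime q)] [NeZero q] in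
/-- Over a place at which `h` and `1 / D` are integral the base is integral. -/
theorem exists_place_over (W : ValuationSubring G.splitField)
    (hK : ∀ c : X.K, algebraMap X.K G.splitField c ∈ W) (hh : G.baseHom G.h ∈ W)
    (hD : G.baseHom G.Dinv ∈ W) :
    ∃ W' : ValuationSubring Ser, (∀ z : G.splitField, (z : Ser) ∈ W' ↔ z ∈ W) ∧
      (∀ c : X.K, algebraMap X.K Ser c ∈ W') ∧ ∀ c : G.C, X.up (c : Ser) ∈ W' := by
  obtain ⟨W', hW'⟩ := exists_comap_eq G.splitField.val.toRingHom W
  have hmem : ∀ z : G.splitField, (z : Ser) ∈ W' ↔ z ∈ W := fun z => by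
    conv_rhs => rw [← hW']
    rfl
  have hK' : ∀ c : X.K, algebraMap X.K Ser c ∈ W' := fun c => (hmem _).mpr (hK c)
  refine ⟨W', hmem, hK', fun c => ?_⟩
  refine mem_of_isIntegral_adjoin (W'.comap X.upA.toRingHom) (fun a ha => ?_) (G.isIntegral_hRing c)
  show X.upA a ∈ W'
  induction ha using Algebra.adjoin_induction with
  | mem x hx =>
    rcases hx with rfl | rfl
    · rw [X.upA_apply, ← G.coe_baseHom]; exact (hmem _).mpr hh
    · rw [X.upA_apply, ← G.coe_baseHom]; exact (hmem _).mpr hD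
  | algebraMap r => rw [AlgHom.commutes, algebraMap_O_eq]; exact hK' _
  | add x y _ _ hx hy => rw [map_add]; exact add_mem hx hy
  | mul x y _ _ hx hy => rw [map_mul]; exact mul_mem hx hy

theorem valuation_eq_one_of_inv {L : Type*} [Field L] (W : ValuationSubring L) {a b : L}
    (ha : a ∈ W) (hb : b ∈ W) (h : a * b = 1) : W.valuation a = 1 := by
  have h1 := congrArg W.valuation h
  rw [map_mul, map_one] at h1
  refine le_antisymm ((W.valuation_le_one_iff _).mpr ha) ?_
  calc (1 : W.ValueGroup) = W.valuation a * W.valuation b := h1.symm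
    _ ≤ W.valuation a * 1 := mul_le_mul_right ((W.valuation_le_one_iff _).mpr hb) _
    _ = W.valuation a := mul_one _

/-- The unit has no zero and no pole on the open part. -/
theorem valuation_disc (W : ValuationSubring G.splitField)
    (hK : ∀ c : X.K, algebraMap X.K G.splitField c ∈ W) (hh : G.baseHom G.h ∈ W)
    (hD : G.baseHom G.Dinv ∈ W) (b : Bool) : W.valuation (G.gen b .disc) = 1 := by
  classical
  obtain ⟨W', hmem, hK', hC⟩ := exists_place_over G W hK hh hD
  have hgs : ∀ L, discFam X M₁ L ∈ W' := fun L =>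
    gs_mem_of_base G W' hC L .disc
  obtain ⟨c, hc0, hc⟩ := exists_prod_discFam X M₁ G.q_not_dvd
  obtain ⟨d, hd⟩ := G.symm (∏ L' : Line q, MvPolynomial.X (L', Gen.disc)) fun π => by
    simp only [map_prod, MvPolynomial.rename_X]
    exact Fintype.prod_equiv π _ _ fun L' => rfl
  have h1 := hd G.one
  simp only [map_prod, MvPolynomial.aeval_X, G.cs_one] at h1
  obtain ⟨k, hk⟩ : ∃ k : X.K, algebraMap X.K Qbar k = c := by
    obtain ⟨o, ho⟩ := G.coeff_mem _ d.2 0
    refine ⟨(o : X.K), ho.trans ?_⟩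
    have h2 := congrArg (fun s : Ser => s.coeff ((q : ℤ) * 0)) h1
    simp only [show ∀ s : Ser, X.up s = qExpand Qbar q s from fun _ => rfl, qExpand_coeff_mul] at h2
    rw [← h2, mul_zero]
    exact (congrArg (fun s : Ser => s.coeff 0) hc).trans (by simp)
  have hk0 : k ≠ 0 := fun h0 => hc0 (by rw [← hk, h0, map_zero])
  set L := (Pair.base q).line b
  set rest := ∏ L' ∈ Finset.univ.erase L, discFam X M₁ L'
  have hmul : discFam X M₁ L * (rest * algebraMap X.K Ser k⁻¹) = 1 := by
    rw [← mul_assoc, Finset.mul_prod_erase _ _ (Finset.mem_univ L), hc, ← hk,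
      IsScalarTower.algebraMap_apply X.K Qbar Ser, algebraMap_laurentSeries_eq_single,
      ← HahnSeries.C_apply, ← map_mul, ← map_mul, mul_inv_cancel₀ hk0, map_one, map_one]
  have hinv : ((G.gen b .disc)⁻¹ : G.splitField) ∈ W := by
    rw [← hmem]
    push_cast
    rw [show ((G.gen b .disc : G.splitField) : Ser) = discFam X M₁ L from rfl,
      inv_eq_of_mul_eq_one_right hmul]
    exact mul_mem (prod_mem fun L' _ => hgs L') (hK' _)
  exact valuation_eq_one_of_inv W ((hmem _).mp (hgs L)) hinv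
    (mul_inv_cancel₀ (G.disc_ne_zero b))

omit [Fact (Nat.Prime q)] in
theorem valuation_gen_eq_one (W : ValuationSubring G.splitField)
    (hK : ∀ c : X.K, algebraMap X.K G.splitField c ∈ W) (hh : G.baseHom G.h ∈ W)
    (hD : G.baseHom G.Dinv ∈ W) (b : Bool) {v v' : Gen G.C}
    (h : G.gen b v * G.gen b v' = 1) : W.valuation (G.gen b v) = 1 := by
  obtain ⟨W', hmem, -, hC⟩ := exists_place_over G W hK hh hD
  exact valuation_eq_one_of_inv W ((hmem _).mp (gs_mem_of_base G W' hC _ _))
    ((hmem _).mp (gs_mem_of_base G W' hC _ _)) h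

/-- **The multipliers**, with their behaviour on the open part. -/
theorem exists_mult_open (b : Bool) :
    ∃ w : G.splitField, w ∈ G.LF b ∧ w ≠ 0 ∧
      (∀ κ, G.ord κ w = if κ = some b then 2 * (q.factorial : ℤ) else 0) ∧
      ∀ W : ValuationSubring G.splitField, (∀ c : X.K, algebraMap X.K G.splitField c ∈ W) →
        G.baseHom G.h ∈ W → G.baseHom G.Dinv ∈ W → W.valuation w = 1 := by
  obtain ⟨w, R, R', hwLF, hw0, hRR, hkey⟩ := exists_mult_pow G b
  refine ⟨w, hwLF, hw0, ord_mult G b hw0 hRR hkey, fun W hK hh hD => ?_⟩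
  have hcs : ∀ δ, G.cs δ R * G.cs δ R' = 1 := fun δ => by rw [← map_mul, hRR, map_one]
  have h1 : G.gen b (.pull R) * G.gen b (.pull R') = 1 := Subtype.ext (by
    show X.sub _ _ * X.sub _ _ = 1
    rw [← map_mul, hcs, map_one])
  have h2 : G.gen b (.base R') * G.gen b (.base R) = 1 := Subtype.ext (by
    show X.up _ * X.up _ = 1
    rw [← map_mul, mul_comm, hcs, map_one])
  refine (pow_eq_one_iff_left (by norm_num : (6 : ℕ) ≠ 0)).mp ?_
  rw [← map_pow, hkey, map_mul, map_mul, valuation_disc G W hK hh hD,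
    valuation_gen_eq_one G W hK hh hD b h1, valuation_gen_eq_one G W hK hh hD b h2, one_mul,
    one_mul]

end FLTAgent.LowerSquare.Geometry

end
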