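import Fermat.Agent.CarayolSquare.Geometry.Final
import Fermat.Agent.LowerSquare.Geometry.Points
import Fermat.Agent.LowerSquare.Geometry.Horizontal

/-!
# The global root from gluing at all closed points

On the split Cartan cover the residues of `D.op f` have explicit roots `D.groot f p`; if these glue
at every closed point of the special fibre then `D.op f` is a `p`-th power.
-/

set_option autoImplicit false

noncomputable section

open Polynomial FLTAgent.CarayolSquare

namespace FLTAgent.LowerSquare.Geometry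

variable {q : ℕ} [NeZero q] [Fact q.Prime] {X : Ctx q} {M₁ : ℕ} [NeZero M₁] {G : Model X M₁}
  (D : OpData G) {p : ℕ} {f : G.splitField}

/-- The components with the roots of the residues of the operator. -/
def OpData.compData (hfib : FibDvd D.ν p) (hf : G.Unit0 f) :
    CompData X.O G.splitField (LaurentSeries X.k) X.fixedData.π (G.baseHom G.h) (D.op f) p where
  ι := Option Bool
  nonempty := ⟨none⟩
  V := G.V
  res := G.resV
  algebraMap_mem := G.algebraMap_mem_V
  res_π κ := by
    rw [← G.red_eq, G.red_algebraMap, X.fixedData_π, map_natCast, X.natCast_k, map_zero]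
  u_mem κ := G.baseHom_mem_V κ G.h
  u_inv_mem := G.unit0_h.inv_mem
  f_mem := (D.red_op hf).1.mem
  f_inv_mem := (D.red_op hf).1.inv_mem
  g := D.groot f p
  g_pow κ := by rw [D.groot_pow hfib hf κ, G.red_eq ((D.red_op hf).1.mem κ)]

variable {D}

/-- **Gluing at a regular point on a single component.** -/
theorem glueD_single (hqp : q.Coprime p) (hp : 0 < p) (hfib : FibDvd D.ν p) (hf : G.Unit0 f)
    (hh : Horiz G (D.op f) p) {B : Subring G.splitField} (hB : ∀ κ, ∀ b ∈ B, b ∈ G.V κ)
    {P : G.Point B} (h : Model.SingleAt P) (j : ℕ) : GlueD D p f j P.φ := by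
  obtain ⟨κ₀, R, hO, hgen, hc, hV, hsep⟩ := h
  have : Fintype (D.compData hfib hf).ι := inferInstanceAs (Fintype (Option Bool))
  have hdiv : R.DivisibleAt (D.op f) p :=
    G.divisibleAt_of_unit0 R hO hgen (D.red_op hf).1 fun W _ hK => hh W hK
  exact R.exists_glue (D.compData hfib hf) hB hc κ₀ hV (fun z => G.resV_eq_zero_iff κ₀ z) hp
    (D.op_ne_zero hf.ne_zero) hdiv (D.exists_groot_lift hqp hfib hf κ₀) hsep j

/-- **The root.** -/
theorem exists_root (hp : 0 < p) (hqp : ¬ q ∣ p) (hfib : FibDvd D.ν p) (hf : G.Unit0 f)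
    (hg : ∀ j < p, G.GlueCases p (D.op f) (D.groot f p) j) :
    ∃ φ : G.splitField, φ ^ p = D.op f := by
  have := X.dvr
  have := X.isFractionRing
  have : CharZero G.splitField := inferInstance
  obtain ⟨ζ, hζ⟩ := X.roots p hp hqp
  have hπ : X.fixedData.π ≠ 0 := by
    rw [X.fixedData_π]; exact X.prime_q.ne_zero
  let U : G.C := ⟨G.hSer⁻¹, G.hRing_le_C G.coordInv.mem⟩
  have hU : G.baseHom U = (G.baseHom G.h)⁻¹ := by
    refine Subtype.ext ?_
    rw [G.coe_baseHom]
    show X.up G.hSer⁻¹ = G.valO (G.baseHom G.h)⁻¹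
    rw [map_inv₀, map_inv₀, G.valO_apply, G.coe_baseHom]
  have hglue : ∀ u : G.splitField, u = G.baseHom G.h ∨ u = (G.baseHom G.h)⁻¹ →
      (D.compData hfib hf).GlueHyp (AlgebraicClosure G.splitField) {u} := by
    intro u hu n hn hπ j hj
    have e := G.chartF_eq_uChart u
    let inc : G.uChart u →+* chartF X.O (AlgebraicClosure G.splitField) ({u} : Set G.splitField) :=
      Subring.inclusion e.ge
    have hinc : Function.Surjective inc := fun z => ⟨⟨z, e.le z.2⟩, rfl⟩
    have hn' : (n.comap inc).IsMaximal := Ideal.comap_isMaximal_of_surjective inc hinc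
    obtain ⟨P, hP⟩ := G.exists_point u (n.comap inc) hn' (by
      rw [Ideal.mem_comap]
      have hq' : inc ⟨algebraMap X.O G.splitField (q : X.O), G.algebraMap_mem_uChart u _⟩ =
          ⟨algebraMap X.O G.splitField X.fixedData.π, algebraMap_mem_chartF _ _⟩ :=
        Subtype.ext (show algebraMap X.O G.splitField (q : X.O) =
          algebraMap X.O G.splitField X.fixedData.π by rw [X.fixedData_π])
      rw [hq']
      exact hπ)
    obtain ⟨s₀, hs₀, y, hy, hres⟩ := Model.glueAt_uChart (hg j hj) hp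
      (fun κ y h => (D.compData hfib hf).mem_of_pow_mul (p := κ) hp (D.op_ne_zero hf.ne_zero) j h)
      hu P
    refine ⟨inc s₀, fun h => hs₀ ?_, y, e.ge hy, fun κ => hres κ⟩
    rw [← RingHom.mem_ker, hP]
    exact h
  have hrad : ∀ {w : Ser}, G.Coord w → ∀ (U : G.C), (U : Ser) = w →
      (∀ κ, G.baseHom U ∈ G.V κ) →
        (D.compData hfib hf).RadHyp (AlgebraicClosure G.splitField) {G.baseHom U} := by
    intro w hw U hU hV c hc h0
    have hcV : ∀ κ, c ∈ G.V κ := fun κ => G.uChart_le_V hV κ (G.chartF_eq_uChart _ ▸ hc)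
    obtain ⟨N, w', hw', hpow⟩ := G.exists_pow_eq_mul hw U hU (mem_chartF_iff.mp hc)
      fun κ => ⟨hcV κ, by rw [← G.red_eq]; exact h0 κ⟩
    refine ⟨N, w', mem_chartF_iff.mpr hw', ?_⟩
    rw [hpow, X.fixedData_π, map_natCast]
  refine exists_pow_eq_of_components (L := AlgebraicClosure ℚ) (Lk := LaurentSeries X.k) X.fixedData
    hπ G.unit0_h.ne_zero (D.op_ne_zero hf.ne_zero) hp (X.isUnit_natCast hqp) hζ (D.compData hfib hf)
    (G.chartFinite G.coordH G.h rfl _) (hrad G.coordH G.h rfl fun κ => G.baseHom_mem_V κ _)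
    ?_ (hglue _ (Or.inl rfl)) (hglue _ (Or.inr rfl))
  have h := hrad G.coordInv U rfl fun κ => by rw [hU]; exact G.unit0_h.inv_mem κ
  rwa [hU] at h

end FLTAgent.LowerSquare.Geometry

end
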