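import Fermat.Agent.LowerSquare.Geometry.Residual

/-!
# The operator on functions of one line

When all fibre sums are divisible by `p` the operator maps a function of one line to a `p`-th power.
-/

set_option autoImplicit false

noncomputable section

open FLTAgent.CarayolSquare

namespace FLTAgent.LowerSquare.Geometry

variable {q : ℕ} [NeZero q] [Fact q.Prime] {X : Ctx q} {M₁ : ℕ} [NeZero M₁] {G : Model X M₁}

/-- A line distinct from the given one, chosen compatibly with the torus. -/
def otherLine (L : Line q) : Line q := if L = none then some 0 else none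

omit [NeZero q] in
theorem otherLine_ne (L : Line q) : L ≠ otherLine L := by
  cases L <;> simp [otherLine]

omit [NeZero q] in
theorem otherLine_mulLine (u : (ZMod q)ˣ) (L : Line q) :
    otherLine (mulLine u L) = mulLine u (otherLine L) := by
  cases L <;> simp [otherLine, mulLine_apply]

/-- The chosen pair with a given line in a given place. -/
def stdPair (b : Bool) (L : Line q) : Pair q :=
  if b then ⟨(L, otherLine L), otherLine_ne L⟩ else ⟨(otherLine L, L), (otherLine_ne L).symm⟩

omit [NeZero q] in
theorem line_stdPair (b : Bool) (L : Line q) : (stdPair b L).line b = L := by cases b <;> rfl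

omit [NeZero q] in
theorem permPair_stdPair (u : (ZMod q)ˣ) (b : Bool) (L : Line q) :
    Model.permPair (mulLine u) (stdPair b L) = stdPair b (mulLine u L) := by
  cases b <;> refine Subtype.ext (Prod.ext ?_ ?_) <;>
    first
      | rfl
      | exact (otherLine_mulLine u L).symm

/-- The fibre sum. -/
def fibSum (ν : Pair q → ℕ) (b : Bool) (L : Line q) : ℕ :=
  ∑ P ∈ Finset.univ.filter (fun P : Pair q => P.line b = L), ν P

theorem fibSum_mulLine {ν : Pair q → ℕ} (hν : TorusInv ν) (b : Bool) (u : (ZMod q)ˣ)
    (L : Line q) : fibSum ν b (mulLine u L) = fibSum ν b L := by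
  refine (Finset.sum_equiv (Model.permPair (mulLine u)) (fun P => ?_) fun P _ => (hν u P).symm).symm
  simp [line_permPair]

/-- The exponents of the root along one line. -/
def rootExpo (ν : Pair q → ℕ) (p : ℕ) (b : Bool) (Q : Pair q) : ℕ :=
  if Q = stdPair b (Q.line b) then fibSum ν b (Q.line b) / p else 0

theorem torusInv_rootExpo {ν : Pair q → ℕ} (hν : TorusInv ν) (p : ℕ) (b : Bool) :
    TorusInv (rootExpo ν p b) := by
  intro u P
  simp only [rootExpo, line_permPair, fibSum_mulLine hν, ← permPair_stdPair,
    EmbeddingLike.apply_eq_iff_eq]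

/-- **The operator on a function of one line is a `p`-th power.** -/
theorem OpData.op_LF_isPow (D : OpData G) {p : ℕ} (h : FibDvd D.ν p) (b : Bool)
    {w : G.splitField} (hw : w ∈ G.LF b) : ∃ r : G.splitField, D.op w = r ^ p := by
  classical
  let D' : OpData G := ⟨D.symm, rootExpo D.ν p b, torusInv_rootExpo D.inv p b⟩
  refine ⟨D'.op w, Subtype.ext ?_⟩
  show (D.op w : Ser) = (D'.op w : Ser) ^ p
  simp only [OpData.coe_op, ← Finset.prod_pow, ← pow_mul]
  rw [← Finset.prod_fiberwise Finset.univ (fun P : Pair q => P.line b),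
    ← Finset.prod_fiberwise Finset.univ (fun P : Pair q => P.line b)]
  refine Finset.prod_congr rfl fun L _ => ?_
  have he : ∀ Q ∈ Finset.univ.filter (fun P : Pair q => P.line b = L),
      G.emb G.one Q w = G.emb G.one (stdPair b L) w := fun Q hQ =>
    G.emb_LF_eq G.one b ((Finset.mem_filter.mp hQ).2.trans (line_stdPair b L).symm) hw
  rw [Finset.prod_congr rfl (fun Q hQ => congrArg (· ^ D.ν Q) (he Q hQ)),
    Finset.prod_congr rfl (fun Q hQ => congrArg (· ^ (D'.ν Q * p)) (he Q hQ)),
    Finset.prod_pow_eq_pow_sum, Finset.prod_pow_eq_pow_sum]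
  congr 1
  rw [Finset.sum_eq_single (stdPair b L) (f := fun Q => D'.ν Q * p)]
  · show fibSum D.ν b L = rootExpo D.ν p b (stdPair b L) * p
    rw [rootExpo, line_stdPair, if_pos rfl]
    exact (Nat.div_mul_cancel (h b L)).symm
  · intro Q hQ hne
    show rootExpo D.ν p b Q * p = 0
    rw [rootExpo, (Finset.mem_filter.mp hQ).2, if_neg hne, zero_mul]
  · intro hn
    exact absurd (by simp [line_stdPair]) hn

end FLTAgent.LowerSquare.Geometry

end
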