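import Fermat.Agent.LowerSquare.Geometry.Points
import Fermat.Agent.CarayolSquare.Geometry.Final
import Mathlib.RingTheory.Finiteness.Nakayama
import Mathlib.RingTheory.Ideal.GoingUp

/-!
# Gluing at a supersingular point

At a point on the three components the roots of the residues of the operator come from the local
ring: they are integral over it, have one value at all points over it, and the equation `T ^ p = w`
is etale, so Nakayama's lemma applies.
-/

set_option autoImplicit false

noncomputable section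

open FLTAgent.CarayolSquare Polynomial

namespace FLTAgent.LowerSquare.Geometry

/-- An integral root of a separable equation with one value over a maximal ideal is a local
element. -/
theorem exists_mul_root_eq {A T : Type*} [CommRing A] [CommRing T] [Algebra A T]
    [Algebra.IsIntegral A T] (n : Ideal A) [hn : n.IsMaximal]
    (hker : ∀ x, algebraMap A T x = 0 → x ∈ n) {r : T} {w ρ : A} {m : ℕ}
    (hr : r ^ m = algebraMap A T w) (hm : (m : A) ∉ n) (hρ : ρ ∉ n)
    (hval : ∀ M : Ideal T, M.IsPrime → M.comap (algebraMap A T) = n →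
      r - algebraMap A T ρ ∈ M) :
    ∃ t s : A, t ∉ n ∧ s ∉ n ∧ algebraMap A T t * r = algebraMap A T s := by
  classical
  obtain ⟨M₀, -, hM₀, hM₀n⟩ := Ideal.exists_ideal_over_prime_of_isIntegral n (⊥ : Ideal T)
    fun x hx => hker x hx
  have hw : w - ρ ^ m ∈ n := by
    rw [← hM₀n, Ideal.mem_comap, map_sub, map_pow, ← hr]
    exact Ideal.mem_of_dvd M₀ (sub_dvd_pow_sub_pow _ _ m) (hval M₀ hM₀ hM₀n)
  set N := Algebra.adjoin A ({r} : Set T) with hN
  have : Algebra.IsIntegral N T := Algebra.IsIntegral.tower_top A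
  let r' : N := ⟨r, Algebra.self_mem_adjoin_singleton A r⟩
  let ρ' : N := algebraMap A N ρ
  let I : Ideal N := n.map (algebraMap A N)
  let Q : N := ∑ i ∈ Finset.range m, r' ^ i * ρ' ^ (m - 1 - i)
  have hQ : I ⊔ Ideal.span {Q} = ⊤ := by
    by_contra hne
    obtain ⟨M, hM, hle⟩ := Ideal.exists_le_maximal _ hne
    have hMn : M.comap (algebraMap A N) = n :=
      (hn.eq_of_le (Ideal.comap_ne_top _ hM.ne_top)
        (Ideal.map_le_iff_le_comap.mp (le_sup_left.trans hle))).symm
    obtain ⟨M', -, hM', hM'M⟩ := Ideal.exists_ideal_over_prime_of_isIntegral M (⊥ : Ideal T)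
      fun x hx => by
        rw [show x = 0 from Subtype.ext hx]
        exact zero_mem _
    have h1 : r' - ρ' ∈ M := by
      rw [← hM'M]
      refine hval M' hM' ?_
      rw [← hMn, ← hM'M, Ideal.comap_comap]
      rfl
    have h2 : (Ideal.Quotient.mk M) Q = 0 :=
      Ideal.Quotient.eq_zero_iff_mem.mpr
        (hle (Ideal.mem_sup_right (Ideal.mem_span_singleton_self Q)))
    rw [map_sum] at h2
    simp only [map_mul, map_pow, Ideal.Quotient.eq.mpr h1] at h2
    rw [geom_sum₂_self, ← map_pow, ← map_natCast (Ideal.Quotient.mk M), ← map_mul,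
      Ideal.Quotient.eq_zero_iff_mem] at h2
    rw [← map_natCast (algebraMap A N), ← map_pow, ← map_mul, ← Ideal.mem_comap, hMn] at h2
    exact (hn.isPrime.mem_or_mem h2).elim hm fun h => hρ (hn.isPrime.mem_of_pow_mem _ h)
  have hrI : r' - ρ' ∈ I := by
    obtain ⟨i, hi, c, hc, hic⟩ := Submodule.mem_sup.mp (hQ ▸ Submodule.mem_top : (1 : N) ∈ _)
    obtain ⟨d, rfl⟩ := Ideal.mem_span_singleton'.mp hc
    have e : Q * (r' - ρ') = algebraMap A N (w - ρ ^ m) := by
      rw [geom_sum₂_mul, map_sub, map_pow]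
      exact congrArg (· - ρ' ^ m) (Subtype.ext hr)
    rw [show r' - ρ' = (r' - ρ') * i + d * (Q * (r' - ρ')) by
      linear_combination -(r' - ρ') * hic, e]
    exact add_mem (I.mul_mem_left _ hi) (I.mul_mem_left _ (Ideal.mem_map_of_mem _ hw))
  have hgen : ∀ z : N, ∃ a : A, z - algebraMap A N a ∈ I := by
    rintro ⟨z, hz⟩
    induction hz using Algebra.adjoin_induction with
    | mem x hx =>
      refine ⟨ρ, ?_⟩
      rwa [show (⟨x, _⟩ : N) = r' from Subtype.ext (Set.mem_singleton_iff.mp hx)]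
    | algebraMap a => exact ⟨a, by
      rw [show (⟨_, _⟩ : N) = algebraMap A N a from rfl, sub_self]; exact zero_mem _⟩
    | add x y hx hy hx' hy' =>
      obtain ⟨a, ha⟩ := hx'
      obtain ⟨b, hb⟩ := hy'
      refine ⟨a + b, ?_⟩
      rw [show (⟨x + y, _⟩ : N) = ⟨x, hx⟩ + ⟨y, hy⟩ from rfl, map_add, add_sub_add_comm]
      exact add_mem ha hb
    | mul x y hx hy hx' hy' =>
      obtain ⟨a, ha⟩ := hx'
      obtain ⟨b, hb⟩ := hy'
      refine ⟨a * b, ?_⟩
      rw [show (⟨x * y, _⟩ : N) = ⟨x, hx⟩ * ⟨y, hy⟩ from rfl, map_mul,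
        show ∀ u v u' v' : N, u * v - u' * v' = (u - u') * v + u' * (v - v') from
          fun _ _ _ _ => by ring]
      exact add_mem (I.mul_mem_right _ ha) (I.mul_mem_left _ hb)
  have : Module.Finite A N :=
    Module.Finite.iff_fg.mpr ((Algebra.IsIntegral.isIntegral (R := A) r).fg_adjoin_singleton)
  let L : Submodule A N := LinearMap.range (Algebra.linearMap A N)
  have htop : (⊤ : Submodule A (N ⧸ L)) ≤ n • ⊤ := by
    rintro z -
    obtain ⟨z, rfl⟩ := Submodule.mkQ_surjective L z
    obtain ⟨a, ha⟩ := hgen z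
    have h1 : z - algebraMap A N a ∈ n • (⊤ : Submodule A N) := by
      rw [Ideal.smul_top_eq_map]; exact ha
    have h2 := Submodule.mem_map_of_mem (f := L.mkQ) h1
    rw [Submodule.map_smul'', Submodule.map_top, Submodule.range_mkQ, map_sub,
      show L.mkQ (algebraMap A N a) = 0 from (Submodule.Quotient.mk_eq_zero L).mpr ⟨a, rfl⟩,
      sub_zero] at h2
    exact h2
  obtain ⟨t, ht, hkill⟩ := Submodule.exists_sub_one_mem_and_smul_eq_zero_of_fg_of_le_smul n
    (⊤ : Submodule A (N ⧸ L)) Module.Finite.fg_top htop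
  obtain ⟨s, hs⟩ : t • r' ∈ L := by
    rw [← Submodule.Quotient.mk_eq_zero L, Submodule.Quotient.mk_smul]
    exact hkill _ Submodule.mem_top
  have htn : t ∉ n := fun h => hn.ne_top ((Ideal.eq_top_iff_one _).mpr (by
    simpa using sub_mem h ht))
  have he : algebraMap A T t * r = algebraMap A T s := by
    have h := congrArg Subtype.val hs
    rw [← Algebra.smul_def]
    exact h.symm
  refine ⟨t, s, htn, fun hsn => ?_, he⟩
  have h1 : s ^ m - t ^ m * w ∈ n := hker _ (by
    rw [map_sub, map_mul, map_pow, map_pow, ← he, mul_pow, hr, sub_self])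
  rcases Nat.eq_zero_or_pos m with rfl | hm0
  · exact hm (by rw [Nat.cast_zero]; exact zero_mem _)
  have h2 : t ^ m * w ∈ n := by
    have := sub_mem (n.pow_mem_of_mem hsn m hm0) h1
    rwa [sub_sub_cancel] at this
  have hρw : ρ ^ m ∈ n → False := fun h => hρ (hn.isPrime.mem_of_pow_mem _ h)
  refine (hn.isPrime.mem_or_mem h2).elim (fun h => htn (hn.isPrime.mem_of_pow_mem _ h)) fun h =>
    hρw ?_
  have := sub_mem h hw
  rwa [sub_sub_cancel] at this

theorem mem_intSet_map {O A B : Type*} [CommRing O] [Field A] [Field B] [Algebra O A]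
    [Algebra O B] (f : A →ₐ[O] B) {s : Set A} {x : A} (hx : x ∈ intSet O s) :
    f x ∈ intSet O (f '' s) := by
  obtain ⟨P, hP, hPx⟩ := hx
  let ψ : Algebra.adjoin O s →+* Algebra.adjoin O (f '' s) :=
    (f.toRingHom.comp (Algebra.adjoin O s).val.toRingHom).codRestrict _ fun a => by
      rw [← AlgHom.map_adjoin]
      exact ⟨a, a.2, rfl⟩
  refine ⟨P.map ψ, hP.map _, ?_⟩
  rw [eval₂_map]
  show eval₂ (f.toRingHom.comp (algebraMap (Algebra.adjoin O s) A)) (f.toRingHom x) P = 0
  rw [← hom_eval₂, hPx, map_zero]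

theorem mem_intSet_of_map {O A B : Type*} [CommRing O] [Field A] [Field B] [Algebra O A]
    [Algebra O B] (f : A →ₐ[O] B) {s : Set A} {x : A} (hx : f x ∈ intSet O (f '' s)) :
    x ∈ intSet O s := by
  obtain ⟨P, hP, hPx⟩ := hx
  let ψ : Algebra.adjoin O s →+* Algebra.adjoin O (f '' s) :=
    (f.toRingHom.comp (Algebra.adjoin O s).val.toRingHom).codRestrict _ fun a => by
      rw [← AlgHom.map_adjoin]
      exact ⟨a, a.2, rfl⟩
  have hψ : Function.Surjective ψ := fun b => by
    obtain ⟨a, ha, hab⟩ : (b : B) ∈ (Algebra.adjoin O s).map f :=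
      (AlgHom.map_adjoin f s).symm ▸ b.2
    exact ⟨⟨a, ha⟩, Subtype.ext hab⟩
  obtain ⟨Q, hQ, -, hQm⟩ := lifts_and_degree_eq_and_monic
    ((lifts_iff_coeff_lifts P).mpr fun i => hψ (P.coeff i)) hP
  refine ⟨Q, hQm, f.toRingHom.injective ?_⟩
  rw [map_zero, hom_eval₂]
  show eval₂ ((algebraMap (Algebra.adjoin O (f '' s)) B).comp ψ) (f x) Q = 0
  rw [← eval₂_map, hQ]
  exact hPx

variable {q : ℕ} [NeZero q] [Fact q.Prime] {X : Ctx q} {M₁ : ℕ} [NeZero M₁] {G : Model X M₁}
  (D : OpData G)

/-- The operator preserves the open chart. -/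
theorem OpData.op_mem_openChart {z : G.splitField} (hz : z ∈ G.openChart) :
    D.op z ∈ G.openChart := by
  refine mem_intSet_of_map G.valO ?_
  rw [show G.valO (D.op z) = ∏ Q, G.emb G.one Q z ^ D.ν Q by rw [G.valO_apply]; exact D.coe_op z]
  refine prod_mem fun Q _ => pow_mem ?_ _
  have h := mem_intSet_map (G.embO G.one Q) hz
  rw [G.embO_apply] at h
  refine intSet_mono ?_ h
  rintro _ ⟨c, hc, rfl⟩
  refine ⟨c, hc, ?_⟩
  rw [G.embO_apply, G.valO_apply]
  rcases hc with rfl | hc
  · rw [G.emb_baseHom, G.cs_one, G.coe_baseHom]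
  · rw [Set.mem_singleton_iff.mp hc, G.emb_baseHom, G.cs_one, G.coe_baseHom]

/-- The operator on base functions. -/
theorem OpData.op_B₀ {b : G.splitField} (hb : b ∈ G.B₀) : D.op b = b ^ ∑ Q, D.ν Q := by
  apply Subtype.ext
  show (D.op b : Ser) = (b : Ser) ^ _
  rw [D.coe_op, ← Finset.prod_pow_eq_pow_sum]
  refine Finset.prod_congr rfl fun Q _ => ?_
  rw [G.emb_B₀_eq G.one Q (Pair.base q) hb, G.emb_base]

theorem OpData.groot_mul {p : ℕ} {z w : G.splitField} (hz : G.Unit0 z) (hw : G.Unit0 w)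
    (κ : Option Bool) : D.groot (z * w) p κ = D.groot z p κ * D.groot w p κ := by
  rw [OpData.groot, OpData.groot, OpData.groot, ← Finset.prod_mul_distrib]
  exact Finset.prod_congr rfl fun κ' _ => by rw [G.red_mul (hz.mem κ') (hw.mem κ'), mul_pow]

theorem OpData.groot_pow_self {p : ℕ} (hfib : FibDvd D.ν p) {z : G.splitField} (hz : G.Unit0 z)
    (κ : Option Bool) : D.groot (z ^ p) p κ = G.red κ (D.op z) := by
  rw [(D.red_op hz).2, OpData.groot]
  exact Finset.prod_congr rfl fun κ' _ => by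
    rw [G.red_pow (hz.mem κ'), ← pow_mul, Nat.mul_div_cancel' (dvd_expo hfib κ κ')]

theorem sum_expo_div {ν : Pair q → ℕ} {p : ℕ} (h : FibDvd ν p) (κ : Option Bool) :
    ∑ κ', expo ν κ κ' / p = (∑ Q, ν Q) / p := by
  rw [← sum_expo ν κ, Nat.sum_div fun κ' _ => dvd_expo h κ κ']

theorem OpData.groot_B₀ {p : ℕ} (hfib : FibDvd D.ν p) {b : G.splitField} (hb : b ∈ G.B₀)
    (hu : G.Unit0 b) (κ : Option Bool) :
    D.groot b p κ = G.red κ b ^ ((∑ Q, D.ν Q) / p) := by
  rw [OpData.groot, ← sum_expo_div hfib κ, ← Finset.prod_pow_eq_pow_sum]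
  exact Finset.prod_congr rfl fun κ' _ => by rw [(G.red_B₀ hb (hu.mem κ) κ').2]

variable {P : G.Point G.openChart}

theorem TriplePoint.unit0 (hP : TriplePoint G P) {z : G.openChart} (hz : P.φ z ≠ 0) :
    G.Unit0 (z : G.splitField) :=
  Model.unit0_of_red fun κ => ⟨G.openChart_le_V κ z.2, fun h => hz (hP.res_ker κ z h)⟩

/-- **The roots at a supersingular point are local.** -/
theorem OpData.exists_groot_local (D : OpData G) (hP : TriplePoint G P) {p : ℕ} (hp : p.Prime)
    (hqp : q ≠ p) (hfib : FibDvd D.ν p) {a : G.openChart} (ha : P.φ a ≠ 0) :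
    ∃ t s : G.openChart, P.φ t ≠ 0 ∧ P.φ s ≠ 0 ∧
      ∀ κ, G.red κ (t : G.splitField) * D.groot (a : G.splitField) p κ =
        G.red κ (s : G.splitField) := by
  classical
  have hV : ∀ (κ : Option Bool) (z : G.openChart), (z : G.splitField) ∈ G.V κ :=
    fun κ z => G.openChart_le_V κ z.2
  let Φ : G.openChart →+* (Option Bool → LaurentSeries X.k) :=
    { toFun := fun z κ => G.red κ (z : G.splitField)
      map_one' := funext fun κ => G.red_one κ
      map_mul' := fun x y => funext fun κ => G.red_mul (hV κ x) (hV κ y)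
      map_zero' := funext fun κ => G.red_zero κ
      map_add' := fun x y => funext fun κ => G.red_add (hV κ x) (hV κ y) }
  let : Algebra G.openChart (Option Bool → LaurentSeries X.k) := Φ.toAlgebra
  let ψ : Option Bool → G.openChart →+* (Option Bool → LaurentSeries X.k) := fun κ' =>
    RingHom.pi fun _ => (Pi.evalRingHom (fun _ : Option Bool => LaurentSeries X.k) κ').comp Φ
  -- constants and the generators of the chart
  have hO : ∀ c : X.O, algebraMap X.O G.splitField c ∈ G.openChart :=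
    fun c => algebraMap_mem_intSet _ c
  let cst : X.O →+* G.openChart := (algebraMap X.O G.splitField).codRestrict G.openChart hO
  have hcst : ∀ c, P.φ (cst c) = X.resK c := fun c => P.const c _ rfl
  have hφ : Function.Surjective P.φ := fun x => by
    obtain ⟨c, hc⟩ := X.resK_surjective x
    exact ⟨cst c, (hcst c).trans hc⟩
  have := RingHom.ker_isMaximal_of_surjective P.φ hφ
  set n := RingHom.ker P.φ with hn
  have hmemn : ∀ z, z ∈ n ↔ P.φ z = 0 := fun z => RingHom.mem_ker
  set R₀ := Algebra.adjoin X.O ({G.baseHom G.h, G.baseHom G.Dinv} : Set G.splitField) with hR₀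
  have hR₀B : ∀ z ∈ R₀, z ∈ G.B₀ := by
    intro z hz
    induction hz using Algebra.adjoin_induction with
    | mem x hx =>
      rcases hx with rfl | hx
      · exact IntermediateField.subset_adjoin _ _ ⟨G.h, rfl⟩
      · rw [Set.mem_singleton_iff.mp hx]
        exact IntermediateField.subset_adjoin _ _ ⟨G.Dinv, rfl⟩
    | algebraMap c => exact IntermediateField.algebraMap_mem G.B₀ (c : X.K)
    | add x y _ _ hx hy => exact add_mem hx hy
    | mul x y _ _ hx hy => exact mul_mem hx hy
  have hψB : ∀ (κ' : Option Bool) (z : G.openChart), (z : G.splitField) ∈ G.B₀ →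
      ψ κ' z = Φ z := fun κ' z hz => funext fun κ =>
    (G.red_B₀ hz (hV κ z) κ').2
  have hint : ∀ κ' (x : G.openChart), IsIntegral G.openChart (ψ κ' x) := by
    intro κ' x
    obtain ⟨Q, hQ, hQx⟩ := x.2
    let ι : R₀ →+* G.openChart :=
      R₀.val.toRingHom.codRestrict G.openChart fun z => mem_intSet_of_mem_adjoin z.2
    refine ⟨Q.map ι, hQ.map _, ?_⟩
    rw [eval₂_map]
    show eval₂ (Φ.comp ι) (ψ κ' x) Q = 0
    rw [show Φ.comp ι = (ψ κ').comp ι from RingHom.ext fun z => (hψB κ' (ι z) (hR₀B _ z.2)).symm,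
      ← hom_eval₂, show eval₂ ι x Q = 0 from Subtype.ext (by
        show G.openChart.subtype (eval₂ ι x Q) = 0
        rw [hom_eval₂]
        exact hQx), map_zero]
  let T := integralClosure G.openChart (Option Bool → LaurentSeries X.k)
  let ψT : Option Bool → G.openChart →+* T := fun κ' => (ψ κ').codRestrict T (hint κ')
  have hδ : ∀ κ : Option Bool, IsIntegral G.openChart
      (Pi.single κ (1 : LaurentSeries X.k) : Option Bool → LaurentSeries X.k) := fun κ => by
    refine ⟨Polynomial.X ^ 2 - Polynomial.X, by monicity!, ?_⟩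
    rw [eval₂_sub, eval₂_X_pow, eval₂_X, sub_eq_zero]
    funext κ'
    rcases eq_or_ne κ' κ with rfl | h
    · simp
    · simp [Pi.single_eq_of_ne h]
  let δ : Option Bool → T := fun κ => ⟨_, hδ κ⟩
  let r : T := ∑ κ, δ κ * ∏ κ', ψT κ' a ^ (expo D.ν κ κ' / p)
  have hr : ∀ κ, (r : Option Bool → LaurentSeries X.k) κ = D.groot (a : G.splitField) p κ := by
    intro κ
    have h : (r : Option Bool → LaurentSeries X.k) =
        ∑ κ₁, (Pi.single κ₁ (1 : LaurentSeries X.k) : Option Bool → LaurentSeries X.k) *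
          ∏ κ', ψ κ' a ^ (expo D.ν κ₁ κ' / p) := by
      simp only [r, AddSubmonoidClass.coe_finsetSum, MulMemClass.coe_mul,
        SubmonoidClass.coe_finsetProd,
        SubmonoidClass.coe_pow]
      rfl
    rw [h, Finset.sum_apply, Finset.sum_eq_single κ]
    · rw [Pi.mul_apply, Pi.single_eq_same, one_mul, Finset.prod_apply]
      rfl
    · intro κ₁ _ hne
      rw [Pi.mul_apply, Pi.single_eq_of_ne hne.symm, zero_mul]
    · exact fun h => absurd (Finset.mem_univ κ) h
  let w : G.openChart := ⟨D.op a, D.op_mem_openChart a.2⟩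
  have hrw : r ^ p = algebraMap G.openChart T w := by
    refine Subtype.ext (funext fun κ => ?_)
    show (r : Option Bool → LaurentSeries X.k) κ ^ p = G.red κ (D.op a)
    rw [hr, D.groot_pow hfib (hP.unit0 ha)]
  obtain ⟨c, hc⟩ := X.resK_surjective (P.φ a)
  set E := (∑ Q, D.ν Q) / p with hE
  have hpn : (p : G.openChart) ∉ n := by
    rw [hmemn, map_natCast]
    have : CharP X.k q := (CharP.charP_iff_prime_eq_zero X.prime).mpr X.natCast_k
    exact fun h => hqp ((Nat.prime_dvd_prime_iff_eq X.prime hp).mp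
      ((CharP.cast_eq_zero_iff X.k q p).mp h))
  have hρn : cst c ^ E ∉ n := by
    rw [hmemn, map_pow, hcst, hc]
    exact pow_ne_zero _ ha
  obtain ⟨t, s, ht, hs, hts⟩ := exists_mul_root_eq n (T := T) (r := r) (w := w) (ρ := cst c ^ E)
    (m := p) (fun z hz => (hmemn z).mpr (hP.res_ker none z
      (congrFun (congrArg Subtype.val hz) none))) hrw hpn hρn fun M hM hMn => by
    have := hM
    have hbase : ∀ (κ' : Option Bool) (z : G.openChart), (z : G.splitField) ∈ G.B₀ →
        (z ∈ M.comap (ψT κ') ↔ z ∈ n) := fun κ' z hz => by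
      rw [← hMn, Ideal.mem_comap, Ideal.mem_comap,
        show ψT κ' z = algebraMap G.openChart T z from Subtype.ext (hψB κ' z hz)]
    have hcomap : ∀ κ', M.comap (ψT κ') = n := by
      intro κ'
      set m' := M.comap (ψT κ') with hm'
      have : m'.IsPrime := Ideal.IsPrime.comap _
      have hle : m' ≤ n := fun z hz => by
        by_contra hzn
        obtain ⟨x, b, hb, hbB, hzb⟩ := hP.base z fun h => hzn ((hmemn z).mpr h)
        exact hb ((hmemn b).mp ((hbase κ' b hbB).mp (hzb ▸ m'.mul_mem_right _ hz)))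
      refine le_antisymm hle fun z hz => ?_
      by_contra hzm
      obtain ⟨u, hu⟩ := Model.exists_mul_sub_one_mem (G := G) (S := G.openChart) hO
        (s := {G.baseHom G.h, G.baseHom G.Dinv}) (fun _ h => h) (subset_intSet _) m'
        ((hbase κ' _ (hR₀B _ (Subalgebra.algebraMap_mem _ _))).mpr ((hmemn _).mpr (by
          rw [show P.φ ⟨algebraMap X.O G.splitField (q : X.O), hO _⟩ = _ from hcst (q : X.O),
            map_natCast, X.natCast_k])))
        (fun x hx => by
          obtain ⟨d, hd⟩ := X.resK_surjective (P.φ ⟨x, subset_intSet _ hx⟩)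
          refine ⟨d, (hbase κ' _ ?_).mpr ((hmemn _).mpr ?_)⟩
          · exact hR₀B _ (sub_mem (Algebra.subset_adjoin hx) (Subalgebra.algebraMap_mem _ _))
          · rw [map_sub, sub_eq_zero]
            exact hd.symm.trans (hcst d).symm) hzm
      have h1 := sub_mem (n.mul_mem_right u hz) (hle hu)
      rw [sub_sub_cancel] at h1
      exact (RingHom.ker_ne_top P.φ) ((Ideal.eq_top_iff_one _).mpr h1)
    have hac : ∀ κ', ψT κ' a - algebraMap G.openChart T (cst c) ∈ M := fun κ' => by
      rw [← show ψT κ' (cst c) = algebraMap G.openChart T (cst c) from Subtype.ext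
        (hψB κ' _ (hR₀B _ (Subalgebra.algebraMap_mem R₀ c))), ← map_sub, ← Ideal.mem_comap,
        hcomap, hmemn, map_sub, hcst, hc, sub_self]
    rw [← Ideal.Quotient.eq]
    have hsum : ∑ κ : Option Bool, δ κ = 1 := Subtype.ext (by
      simp only [δ, AddSubmonoidClass.coe_finsetSum, OneMemClass.coe_one]
      exact Finset.univ_sum_single 1)
    simp only [r, map_sum, map_mul, map_prod, map_pow, fun κ' => Ideal.Quotient.eq.mpr (hac κ'),
      Finset.prod_pow_eq_pow_sum, sum_expo_div hfib]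
    rw [← Finset.sum_mul, ← map_sum, hsum, map_one, one_mul]
  refine ⟨t, s, fun h => ht ((hmemn t).mpr h), fun h => hs ((hmemn s).mpr h), fun κ => ?_⟩
  rw [← hr]
  exact congrFun (congrArg Subtype.val hts) κ

/-- **Gluing at a supersingular point.** -/
theorem OpData.glueD_triple (D : OpData G) {p : ℕ} (hp : p.Prime) (hqp : q ≠ p)
    (hfib : FibDvd D.ν p) {f : G.splitField} (hf : G.Unit0 f) (hh : HorizAff G f p)
    (hP : TriplePoint G P) (j : ℕ) : GlueD D p f j P.φ := by
  obtain ⟨a₀, b₀, h, ha₀, hb₀, hh0, heq₀⟩ := hP.unit_mul_pow p hp.pos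
    (fun hd => hqp ((Nat.prime_dvd_prime_iff_eq Fact.out hp).mp hd)) f hf hh
  obtain ⟨x, b, hb, hbB, hxb⟩ := hP.base b₀ hb₀
  have hx : P.φ x ≠ 0 := fun h0 => hb (by rw [← hxb, map_mul, h0, mul_zero])
  set a := a₀ * x
  have ha : P.φ a ≠ 0 := by rw [map_mul]; exact mul_ne_zero ha₀ hx
  have heq : f * (b : G.splitField) = (a : G.splitField) * h ^ p := by
    rw [← hxb, Subring.coe_mul, Subring.coe_mul]
    linear_combination (x : G.splitField) * heq₀
  have hbu := hP.unit0 hb
  set S := ∑ Q, D.ν Q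
  obtain ⟨E, hE⟩ := fibDvd_total hfib
  set hH := D.op h / (b : G.splitField) ^ E with hhH
  have hHu : G.Unit0 hH := by
    rw [hhH, div_eq_mul_inv]; exact (D.red_op hh0).1.mul (hbu.pow E).inv
  have hop : D.op f = D.op a * hH ^ p := by
    have h1 := congrArg D.op heq
    rw [D.op_mul, D.op_mul, D.op_pow, D.op_B₀ hbB, hE] at h1
    rw [hhH, div_pow, ← pow_mul, mul_comm E p, mul_div_assoc',
      eq_div_iff (pow_ne_zero _ hbu.ne_zero)]
    exact h1
  have hg : ∀ κ, D.groot f p κ = D.groot (a : G.splitField) p κ * G.red κ hH := by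
    intro κ
    have hau := hP.unit0 ha
    have h1 : D.groot f p κ * G.red κ (b : G.splitField) ^ E =
        D.groot (a : G.splitField) p κ * G.red κ (D.op h) := by
      rw [← D.groot_pow_self hfib hh0, ← D.groot_mul hau (hh0.pow p), ← heq,
        D.groot_mul hf hbu, D.groot_B₀ hfib hbB hbu, hE, Nat.mul_div_cancel_left E hp.pos]
    have h2 : G.red κ (D.op h) = G.red κ hH * G.red κ (b : G.splitField) ^ E := by
      rw [← G.red_pow (hbu.mem κ), ← G.red_mul (hHu.mem κ) ((hbu.pow E).mem κ), hhH,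
        div_mul_cancel₀ _ (pow_ne_zero _ hbu.ne_zero)]
    rw [h2, ← mul_assoc] at h1
    exact mul_right_cancel₀ (pow_ne_zero _ (hbu.red_ne_zero κ)) h1
  obtain ⟨t, s, ht, hs, hts⟩ := D.exists_groot_local hP hp hqp hfib ha
  refine ⟨s ^ j, by rw [map_pow]; exact pow_ne_zero _ hs, ((t : G.splitField) / hH) ^ j, ?_, ?_⟩
  · rw [hop, ← pow_mul, mul_comm j p, pow_mul, ← mul_pow, div_pow, mul_comm (D.op _),
      ← mul_assoc, div_mul_cancel₀ _ (pow_ne_zero _ hHu.ne_zero)]
    exact pow_mem (mul_mem (pow_mem t.2 _) (D.op_mem_openChart a.2)) j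
  · intro κ
    have htV : (t : G.splitField) / hH ∈ G.V κ := by
      rw [div_eq_mul_inv]; exact mul_mem (G.openChart_le_V κ t.2) (hHu.inv_mem κ)
    rw [Subring.coe_pow, G.red_pow htV, G.red_pow (G.openChart_le_V κ s.2), ← mul_pow, hg, ← hts,
      mul_left_comm, ← G.red_mul htV (hHu.mem κ), div_mul_cancel₀ _ hHu.ne_zero, mul_comm]

end FLTAgent.LowerSquare.Geometry

end
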