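import Fermat.Agent.LowerSquare.Geometry.Reduction
import Fermat.Agent.LowerSquare.Geometry.TripleGlue

/-!
# Kernels kill, given the closed points

States what is needed of the models (`Normalises`, `HasPoints`) and deduces `OperatorKills` from
the two (`operatorKills_of_hyps`) through the series reduction and gluing at triple points.
-/

set_option autoImplicit false

noncomputable section

open FLTAgent.CarayolSquare

namespace FLTAgent.LowerSquare.Geometry

/-- The normalisation of the function of a fixed class. -/
def Normalises : Prop :=
  ∀ {q : ℕ} [NeZero q] [Fact q.Prime] {X : Ctx q} {M₁ : ℕ} [NeZero M₁]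
    {G : Model X M₁} (D : OpData G) (p : ℕ), p.Prime → p ≠ 2 → q ≠ p → FibDvd D.ν p →
      ∀ F : G.splitField, Plumbing.IsPowLike G p F → Normalised D p F

/-- The models with projective symmetry have the expected closed points. -/
def HasPoints : Prop :=
  ∀ {q : ℕ} [NeZero q] [Fact q.Prime] {X : Ctx q} {M₁ : ℕ} [NeZero M₁]
    (G : Model X M₁), ProjSymm G → Points G

/-- **Kernels kill, from the points and the normalisation.** -/
theorem operatorKills_of_hyps (hpts : HasPoints) (hnorm : Normalises) : OperatorKills :=
  operatorKills_of_series (seriesKills_of_pieces (fun G => hpts G) (fun D p => hnorm D p)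
    fun D _ hp hqp hfib _ hf hh _ hP j => D.glueD_triple hp hqp hfib hf hh hP j)

end FLTAgent.LowerSquare.Geometry

end
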