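import Fermat.Agent.CarayolSquare.Geometry.Degree
import Mathlib.LinearAlgebra.Matrix.NonsingularInverse

/-!
# Projective maps of the lines

A permutation of the lines is projective when it is induced by a matrix.  Every pair of distinct
lines is the image of `(∞, 0)` by such a permutation, two of which differ by the torus.  A model has
projective symmetry when the functions of the lines invariant under all these permutations descend.
-/

set_option autoImplicit false

noncomputable section

open Matrix
open FLTAgent.CarayolSquare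

namespace FLTAgent.LowerSquare.Geometry

variable {q : ℕ} [Fact q.Prime]

/-- A vector on a line. -/
def lineVec : Line q → Fin 2 → ZMod q
  | none => ![1, 0]
  | some x => ![x, 1]

/-- The line of a vector. -/
def vecLine (v : Fin 2 → ZMod q) : Line q := if v 1 = 0 then none else some (v 0 * (v 1)⁻¹)

theorem lineVec_ne_zero (L : Line q) : lineVec L ≠ 0 := by
  cases L with
  | none => exact fun h => one_ne_zero (congrFun h 0)
  | some x => exact fun h => one_ne_zero (congrFun h 1)

theorem exists_smul_vecLine {v : Fin 2 → ZMod q} (hv : v ≠ 0) :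
    ∃ t : ZMod q, t ≠ 0 ∧ v = t • lineVec (vecLine v) := by
  by_cases h : v 1 = 0
  · have h0 : v 0 ≠ 0 := fun h0 => hv (funext fun i => by fin_cases i <;> assumption)
    refine ⟨v 0, h0, funext fun i => ?_⟩
    rw [vecLine, if_pos h]
    fin_cases i <;> simp [lineVec, h]
  · refine ⟨v 1, h, funext fun i => ?_⟩
    rw [vecLine, if_neg h]
    fin_cases i <;> simp [lineVec]
    field_simp

theorem eq_of_lineVec_smul {L L' : Line q} {t : ZMod q} (h : lineVec L = t • lineVec L') :
    L = L' := by
  have h0 := congrFun h 0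
  have h1 := congrFun h 1
  cases L <;> cases L' <;> simp [lineVec] at h0 h1 ⊢
  · rw [← h1, zero_mul] at h0
    exact one_ne_zero h0
  · rw [h0, ← h1, one_mul]

/-- A permutation of the lines induced by a matrix. -/
def IsMob (π : Equiv.Perm (Line q)) : Prop :=
  ∃ A : Matrix (Fin 2) (Fin 2) (ZMod q),
    ∀ L, ∃ t : ZMod q, t ≠ 0 ∧ A *ᵥ lineVec L = t • lineVec (π L)

theorem isMob_of_det {π : Equiv.Perm (Line q)} {A : Matrix (Fin 2) (Fin 2) (ZMod q)}
    (hA : A.det ≠ 0) (h : ∀ L, ∃ t : ZMod q, A *ᵥ lineVec L = t • lineVec (π L)) : IsMob π := by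
  refine ⟨A, fun L => ?_⟩
  obtain ⟨t, ht⟩ := h L
  refine ⟨t, fun h0 => lineVec_ne_zero L ?_, ht⟩
  rw [h0, zero_smul] at ht
  exact Matrix.eq_zero_of_mulVec_eq_zero hA ht

theorem IsMob.mul {π π' : Equiv.Perm (Line q)} (h : IsMob π) (h' : IsMob π') :
    IsMob (π * π') := by
  obtain ⟨A, hA⟩ := h
  obtain ⟨B, hB⟩ := h'
  refine ⟨A * B, fun L => ?_⟩
  obtain ⟨t, ht, hL⟩ := hB L
  obtain ⟨s, hs, hL'⟩ := hA (π' L)
  refine ⟨t * s, mul_ne_zero ht hs, ?_⟩
  rw [← Matrix.mulVec_mulVec, hL, Matrix.mulVec_smul, hL', smul_smul]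
  rfl

/-- Multiplication by a unit on the lines. -/
def mulLine (u : (ZMod q)ˣ) : Equiv.Perm (Line q) := Equiv.optionCongr (Units.mulLeft u)

theorem mulLine_apply (u : (ZMod q)ˣ) (L : Line q) :
    mulLine u L = L.map ((u : ZMod q) * ·) := by cases L <;> rfl

theorem isMob_mulLine (u : (ZMod q)ˣ) : IsMob (mulLine u) := by
  refine isMob_of_det (A := !![(u : ZMod q), 0; 0, 1]) (by simp [Matrix.det_fin_two]) fun L => ?_
  cases L with
  | none => exact ⟨u, by rw [mulLine_apply]; funext i; fin_cases i <;> simp [lineVec]⟩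
  | some x => exact ⟨1, by rw [mulLine_apply]; funext i; fin_cases i <;> simp [lineVec, mul_comm]⟩

theorem exists_isMob (P : Pair q) :
    ∃ π : Equiv.Perm (Line q), IsMob π ∧ π none = P.1.1 ∧ π (some 0) = P.1.2 := by
  set a := lineVec P.1.1
  set b := lineVec P.1.2
  let A : Matrix (Fin 2) (Fin 2) (ZMod q) := !![a 0, b 0; a 1, b 1]
  have hdet : A.det ≠ 0 := by
    intro h0
    rw [Matrix.det_fin_two] at h0
    simp [A] at h0
    by_cases hb : b 1 = 0
    · have hb0 : b 0 ≠ 0 := fun h => lineVec_ne_zero P.1.2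
        (funext fun i => by fin_cases i <;> assumption)
      refine P.2 (eq_of_lineVec_smul (t := a 0 / b 0) (funext fun i => ?_))
      fin_cases i
      · simp [a, b, div_mul_cancel₀ _ hb0]
      · rw [hb, mul_zero, zero_sub, neg_eq_zero, mul_eq_zero] at h0
        show a 1 = (a 0 / b 0) • b 1
        rw [hb, h0.resolve_left hb0, smul_zero]
    · refine P.2 (eq_of_lineVec_smul (t := a 1 / b 1) (funext fun i => ?_))
      fin_cases i
      · simp only [Pi.smul_apply, smul_eq_mul]
        show a 0 = a 1 / b 1 * b 0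
        field_simp
        linear_combination h0
      · simp [a, b, div_mul_cancel₀ _ hb]
  let f : Line q → Line q := fun L => vecLine (A *ᵥ lineVec L)
  have hne : ∀ L, A *ᵥ lineVec L ≠ 0 := fun L h =>
    lineVec_ne_zero L (Matrix.eq_zero_of_mulVec_eq_zero hdet h)
  have hf : Function.Injective f := fun L L' h => by
    obtain ⟨t, ht, hL⟩ := exists_smul_vecLine (hne L)
    obtain ⟨t', ht', hL'⟩ := exists_smul_vecLine (hne L')
    refine eq_of_lineVec_smul (t := t / t') (sub_eq_zero.mp
      (Matrix.eq_zero_of_mulVec_eq_zero hdet ?_))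
    rw [Matrix.mulVec_sub, Matrix.mulVec_smul, hL, hL', smul_smul, div_mul_cancel₀ _ ht',
      show vecLine (A *ᵥ lineVec L) = vecLine (A *ᵥ lineVec L') from h, sub_self]
  have hval : ∀ L L', A *ᵥ lineVec L = lineVec L' → f L = L' := fun L L' h => by
    obtain ⟨t, ht, hL⟩ := exists_smul_vecLine (hne L)
    exact (eq_of_lineVec_smul (t := t) (h.symm.trans hL)).symm
  refine ⟨Equiv.ofBijective f (Finite.injective_iff_bijective.mp hf),
    isMob_of_det hdet fun L => ?_, hval _ _ ?_, hval _ _ ?_⟩
  · obtain ⟨t, -, hL⟩ := exists_smul_vecLine (hne L)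
    exact ⟨t, hL⟩
  all_goals funext i; fin_cases i <;> simp [A, a, b, lineVec]

/-- Projective maps with the same values at `∞` and `0` differ by the torus. -/
theorem exists_torus {π π' : Equiv.Perm (Line q)} (h : IsMob π) (h' : IsMob π')
    (h0 : π none = π' none) (h1 : π (some 0) = π' (some 0)) :
    ∃ u : (ZMod q)ˣ, ∀ L, π L = π' (mulLine u L) := by
  obtain ⟨A, hA⟩ := h
  obtain ⟨A', hA'⟩ := h'
  obtain ⟨t, ht, ha⟩ := hA none
  obtain ⟨t', ht', ha'⟩ := hA' none
  obtain ⟨s, hs, hb⟩ := hA (some 0)
  obtain ⟨s', hs', hb'⟩ := hA' (some 0)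
  rw [← h0] at ha'
  rw [← h1] at hb'
  refine ⟨Units.mk0 (t * s' / (t' * s))
    (div_ne_zero (mul_ne_zero ht hs') (mul_ne_zero ht' hs)), fun L => ?_⟩
  cases L with
  | none => exact h0
  | some x =>
    set y : ZMod q := t * s' / (t' * s) * x with hy
    show π (some x) = π' (some y)
    obtain ⟨c, hc, hcx⟩ := hA (some x)
    obtain ⟨c', hc', hcy⟩ := hA' (some y)
    have hsplit : ∀ z : ZMod q, lineVec (some z) =
        z • lineVec (none : Line q) + lineVec (some 0) := fun z => by
      funext i; fin_cases i <;> simp [lineVec]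
    have key : A *ᵥ lineVec (some x) = (s / s') • A' *ᵥ lineVec (some y) := by
      rw [hsplit x, hsplit y, Matrix.mulVec_add, Matrix.mulVec_smul, ha, hb, Matrix.mulVec_add,
        Matrix.mulVec_smul, ha', hb', smul_add, smul_smul, smul_smul, smul_smul, smul_smul, hy]
      congr 2 <;> field_simp
    refine eq_of_lineVec_smul (t := c⁻¹ * (s / s' * c')) ?_
    have e := congrArg (c⁻¹ • ·) (hcx.symm.trans key)
    rwa [inv_smul_smul₀ hc, hcy, smul_smul, smul_smul, mul_assoc] at e

theorem permPair_base_eq (π : Equiv.Perm (Line q)) (P : Pair q) :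
    Model.permPair π (Pair.base q) = P ↔ π none = P.1.1 ∧ π (some 0) = P.1.2 := by
  constructor
  · rintro rfl
    exact ⟨rfl, rfl⟩
  · rintro ⟨h0, h1⟩
    exact Subtype.ext (Prod.ext h0 h1)

omit [Fact (Nat.Prime q)] in
theorem permPair_mul (π π' : Equiv.Perm (Line q)) (P : Pair q) :
    Model.permPair (π * π') P = Model.permPair π (Model.permPair π' P) := rfl

/-- A projective permutation moving `(∞, 0)` to a pair. -/
def moveTo (P : Pair q) : Equiv.Perm (Line q) := (exists_isMob P).choose

theorem isMob_moveTo (P : Pair q) : IsMob (moveTo P) := (exists_isMob P).choose_spec.1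

theorem moveTo_base (P : Pair q) : Model.permPair (moveTo P) (Pair.base q) = P :=
  (permPair_base_eq _ P).mpr (exists_isMob P).choose_spec.2

/-- Torus invariance of a function of the pairs. -/
def TorusInv {β : Type*} (ν : Pair q → β) : Prop :=
  ∀ (u : (ZMod q)ˣ) (P : Pair q), ν (Model.permPair (mulLine u) P) = ν P

/-- Products against a torus invariant function do not see the choice of the projective map. -/
theorem prod_perm_eq {β M : Type*} [CommMonoid M] {ν : Pair q → β} (hν : TorusInv ν)
    (F : Pair q → β → M) {π π' : Equiv.Perm (Line q)} (h : IsMob π) (h' : IsMob π')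
    (hb : Model.permPair π (Pair.base q) = Model.permPair π' (Pair.base q)) :
    ∏ Q, F (Model.permPair π Q) (ν Q) = ∏ Q, F (Model.permPair π' Q) (ν Q) := by
  obtain ⟨u, hu⟩ := exists_torus h h' (congrArg (fun P : Pair q => P.1.1) hb)
    (congrArg (fun P : Pair q => P.1.2) hb)
  refine Fintype.prod_equiv (Model.permPair (mulLine u)) _ _ fun Q => ?_
  rw [hν u Q]
  congr 1
  exact Subtype.ext (Prod.ext (hu Q.1.1) (hu Q.1.2))

/-- Functions of the lines invariant under all projective maps descend, compatibly with all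
cusps. -/
def ProjSymm {X : Ctx q} {M₁ : ℕ} [NeZero M₁] (G : Model X M₁) : Prop :=
  ∀ P : G.LinePoly,
    (∀ π : Equiv.Perm (Line q), IsMob π → MvPolynomial.rename (Prod.map π id) P = P) →
      ∃ c : G.C, ∀ δ, G.evL δ P = X.up (G.cs δ c)

end FLTAgent.LowerSquare.Geometry

end
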