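import Fermat.Agent.LowerSquare.Geometry.Orders
import Fermat.Agent.CarayolSquare.Plumbing.Transport
import Mathlib.FieldTheory.Perfect

/-!
# Functions of one line of order `2 q!` at one end

`w = q θ (h ∘ R_L) / θ h` lies in the field of the line `L` and its sixth power is the translate of
`Δ (q τ) / Δ τ` times a unit.
-/

set_option autoImplicit false

noncomputable section

open ModularCurve IntermediateField FLTAgent.CarayolSquare

namespace FLTAgent.LowerSquare.Geometry

local notation "Qbar" => AlgebraicClosure ℚ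

theorem coeff_thetaSer (s : Ser) (n : ℤ) : (thetaSer s).coeff n = (n : Qbar) * s.coeff n := rfl

theorem thetaSer_mul (s t : Ser) : thetaSer (s * t) = thetaSer s * t + s * thetaSer t := by
  ext n
  have hsub : ∀ u : Ser, (thetaSer u).support ⊆ u.support := fun u m hm h0 => hm (by
    show (m : Qbar) * u.coeff m = 0
    rw [h0, mul_zero])
  rw [HahnSeries.coeff_add, coeff_thetaSer, HahnSeries.coeff_mul,
    HahnSeries.coeff_mul_left' s.isPWO_support (hsub s),
    HahnSeries.coeff_mul_right' t.isPWO_support (hsub t), Finset.mul_sum,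
    ← Finset.sum_add_distrib]
  refine Finset.sum_congr rfl fun ij hij => ?_
  rw [coeff_thetaSer, coeff_thetaSer, ← (Finset.mem_antidiagonal.mp hij).2.2]
  push_cast
  ring

theorem thetaSer_C (c : Qbar) : thetaSer (HahnSeries.C c) = 0 := by
  ext n
  rw [coeff_thetaSer, HahnSeries.C_apply, HahnSeries.coeff_single]
  split_ifs with h <;> simp [h]

theorem thetaSer_qExpand (N : ℕ) [NeZero N] (s : Ser) :
    thetaSer (qExpand Qbar N s) = (N : Ser) * qExpand Qbar N (thetaSer s) := by
  ext n
  rw [coeff_thetaSer, ← map_natCast (HahnSeries.C : Qbar →+* Ser), HahnSeries.C_mul_eq_smul,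
    HahnSeries.coeff_smul, smul_eq_mul]
  by_cases h : (N : ℤ) ∣ n
  · obtain ⟨k, rfl⟩ := h
    rw [qExpand_coeff_mul, qExpand_coeff_mul, coeff_thetaSer]
    push_cast
    ring
  · rw [qExpand_coeff_of_not_dvd N s h, qExpand_coeff_of_not_dvd N _ h, mul_zero, mul_zero]

theorem thetaSer_scale (u : Qbarˣ) (s : Ser) :
    thetaSer (Igusa.scale u s) = Igusa.scale u (thetaSer s) := by
  ext n
  rw [coeff_thetaSer, Igusa.coeff_scale, Igusa.coeff_scale, coeff_thetaSer]
  ring

variable {q : ℕ} [NeZero q] [Fact q.Prime] {X : Ctx q}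

/-- The factor of `θ` along a line. -/
def lineFactor : Line q → Ser
  | none => (q : Ser) ^ 2
  | some _ => 1

omit [Fact (Nat.Prime q)] in
theorem thetaSer_sub (L : Line q) (s : Ser) :
    thetaSer (X.sub L s) = lineFactor L * X.sub L (thetaSer s) := by
  cases L with
  | none =>
    show thetaSer (qExpand Qbar q (qExpand Qbar q s)) =
      (q : Ser) ^ 2 * qExpand Qbar q (qExpand Qbar q (thetaSer s))
    rw [thetaSer_qExpand, thetaSer_qExpand, map_mul, map_natCast]
    ring
  | some b =>
    show thetaSer (Igusa.scale (X.zetaU b) s) = 1 * Igusa.scale (X.zetaU b) (thetaSer s)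
    rw [thetaSer_scale, one_mul]

variable {M₁ : ℕ} [NeZero M₁] (G : Model X M₁)

/-- `h` at level `q M₁`. -/
abbrev upH : Ser := X.up (G.h : Ser)

omit [Fact (Nat.Prime q)] in
theorem thetaSer_upH_ne_zero : thetaSer (upH G) ≠ 0 := by
  obtain ⟨e, he, -, -, hlead⟩ := G.h_order
  intro h0
  have h1 := congrArg (fun s : Ser => s.coeff ((q : ℤ) * (-(e : ℤ)))) h0
  simp only [coeff_thetaSer, HahnSeries.coeff_zero, mul_eq_zero] at h1
  rcases h1 with h1 | h1
  · have hq := X.prime.pos
    simp only [Int.cast_eq_zero, mul_eq_zero] at h1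
    omega
  · rw [show (upH G).coeff ((q : ℤ) * (-(e : ℤ))) = (G.h : Ser).coeff (-(e : ℤ)) from
      qExpand_coeff_mul q (G.h : Ser) _] at h1
    rw [h1, map_zero] at hlead
    exact zero_ne_one hlead

/-- `θ z / θ h`. -/
def relTheta : Ser →+ Ser where
  toFun s := thetaSer s / thetaSer (upH G)
  map_zero' := by
    rw [show thetaSer (0 : Ser) = 0 from HahnSeries.ext (funext fun n => by simp [coeff_thetaSer]),
      zero_div]
  map_add' s t := by
    rw [← add_div, show thetaSer (s + t) = thetaSer s + thetaSer t from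
      HahnSeries.ext (funext fun n => by simp [coeff_thetaSer, mul_add])]

omit [NeZero q] [Fact (Nat.Prime q)] in
theorem relTheta_apply (s : Ser) : relTheta G s = thetaSer s / thetaSer (upH G) := rfl

omit [NeZero q] [Fact (Nat.Prime q)] in
theorem relTheta_mul (s t : Ser) :
    relTheta G (s * t) = s * relTheta G t + t * relTheta G s := by
  simp only [relTheta_apply, thetaSer_mul]
  ring

omit [Fact (Nat.Prime q)] in
theorem relTheta_upH : relTheta G (upH G) = 1 := by
  rw [relTheta_apply, div_self (thetaSer_upH_ne_zero G)]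

omit [NeZero q] [Fact (Nat.Prime q)] in
theorem relTheta_algebraMap (c : X.K) : relTheta G (algebraMap X.K Ser c) = 0 := by
  rw [relTheta_apply, IsScalarTower.algebraMap_apply X.K Qbar Ser,
    algebraMap_laurentSeries_eq_single, ← HahnSeries.C_apply, thetaSer_C, zero_div]

omit [NeZero q] [Fact (Nat.Prime q)] in
theorem relTheta_inv (x : Ser) : relTheta G x⁻¹ = -(x⁻¹ * x⁻¹) * relTheta G x := by
  rcases eq_or_ne x 0 with rfl | hx
  · rw [inv_zero, map_zero, mul_zero]
  have h1 : relTheta G (1 : Ser) = 0 := by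
    simpa using relTheta_algebraMap G (1 : X.K)
  have h := relTheta_mul G x x⁻¹
  rw [mul_inv_cancel₀ hx, h1] at h
  linear_combination (-x⁻¹) * h - relTheta G x⁻¹ * (mul_inv_cancel₀ hx)

omit [Fact (Nat.Prime q)] in
/-- The base functions of `h` are closed under `θ / θ h`. -/
theorem relTheta_adjoin {z : G.splitField} (hz : z ∈ X.K⟮Plumbing.hSplit G⟯) :
    ∃ w ∈ X.K⟮Plumbing.hSplit G⟯, (w : Ser) = relTheta G (z : Ser) := by
  induction hz using IntermediateField.adjoin_induction with
  | mem x hx =>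
    rw [Set.mem_singleton_iff.mp hx]
    refine ⟨1, one_mem _, ?_⟩
    rw [show (Plumbing.hSplit G : Ser) = upH G from G.coe_baseHom G.h, relTheta_upH]
    rfl
  | algebraMap c =>
    refine ⟨0, zero_mem _, ?_⟩
    rw [show ((algebraMap X.K G.splitField c : G.splitField) : Ser) = algebraMap X.K Ser c from rfl,
      relTheta_algebraMap]
    rfl
  | add x y _ _ hx hy =>
    obtain ⟨u, hu, hu'⟩ := hx
    obtain ⟨v, hv, hv'⟩ := hy
    exact ⟨u + v, add_mem hu hv, by push_cast; rw [map_add, hu', hv']⟩
  | inv x hxm hx =>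
    obtain ⟨u, hu, hu'⟩ := hx
    exact ⟨-(x⁻¹ * x⁻¹) * u, mul_mem (neg_mem (mul_mem (inv_mem hxm) (inv_mem hxm))) hu,
      by push_cast; rw [relTheta_inv, hu']⟩
  | mul x y hxm hym hx hy =>
    obtain ⟨u, hu, hu'⟩ := hx
    obtain ⟨v, hv, hv'⟩ := hy
    exact ⟨x * v + y * u, add_mem (mul_mem hxm hv) (mul_mem hym hu), by
      push_cast; rw [relTheta_mul, hu', hv']⟩

omit [Fact (Nat.Prime q)] in
/-- A line field is closed under `θ / θ h`. -/
theorem relTheta_LF (b : Bool) {z : G.splitField} (hz : z ∈ G.LF b) :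
    ∃ w ∈ G.LF b, (w : Ser) = relTheta G (z : Ser) := by
  have := Plumbing.finiteDimensional_adjoin_hSplit G
  set Kh := X.K⟮Plumbing.hSplit G⟯
  have hKh : Kh ≤ G.LF b := adjoin_simple_le_iff.mpr
    (G.B₀_le_LF b (IntermediateField.subset_adjoin _ _ ⟨G.h, rfl⟩))
  have hint : IsIntegral Kh z := IsIntegral.of_finite Kh z
  let _ : Module Kh (Polynomial Kh) := Polynomial.module
  set P := minpoly Kh z
  have hP' : Polynomial.aeval z P.derivative ≠ 0 :=
    (minpoly.irreducible hint).separable.aeval_derivative_ne_zero (minpoly.aeval Kh z)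
  have hmemLF : ∀ Q : Polynomial Kh, Polynomial.aeval z Q ∈ G.LF b := by
    intro Q
    rw [Polynomial.aeval_eq_sum_range]
    refine sum_mem fun i _ => ?_
    rw [Algebra.smul_def]
    exact mul_mem (hKh (Q.coeff i).2) (pow_mem hz i)
  have key : ∀ Q : Polynomial Kh, ∃ u ∈ G.LF b,
      relTheta G ((Polynomial.aeval z Q : G.splitField) : Ser) = (u : Ser) +
        ((Polynomial.aeval z Q.derivative : G.splitField) : Ser) * relTheta G (z : Ser) := by
    intro Q
    induction Q using Polynomial.induction_on with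
    | C c =>
      obtain ⟨w, hw, hw'⟩ := relTheta_adjoin G (z := (c : G.splitField)) c.2
      refine ⟨w, hKh hw, ?_⟩
      rw [Polynomial.derivative_C, map_zero, Polynomial.aeval_C, ZeroMemClass.coe_zero, zero_mul,
        add_zero]
      exact hw'.symm
    | add P Q hP hQ =>
      obtain ⟨u, hu, hu'⟩ := hP
      obtain ⟨v, hv, hv'⟩ := hQ
      refine ⟨u + v, add_mem hu hv, ?_⟩
      simp only [map_add, AddMemClass.coe_add]
      rw [hu', hv']
      ring
    | monomial n a ih =>
      obtain ⟨u, hu, hu'⟩ := ih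
      refine ⟨u * z, mul_mem hu hz, ?_⟩
      rw [pow_succ, ← mul_assoc]
      simp only [map_mul, map_add, Polynomial.derivative_mul, Polynomial.derivative_X,
        Polynomial.aeval_X, MulMemClass.coe_mul, AddMemClass.coe_add, mul_one] at hu' ⊢
      rw [relTheta_mul, hu']
      ring
  obtain ⟨u, hu, hu'⟩ := key P
  rw [minpoly.aeval, ZeroMemClass.coe_zero, map_zero] at hu'
  refine ⟨-u / Polynomial.aeval z P.derivative, div_mem (neg_mem hu) (hmemLF _), ?_⟩
  have hne : ((Polynomial.aeval z P.derivative : G.splitField) : Ser) ≠ 0 :=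
    fun h => hP' (Subtype.ext h)
  show -(u : Ser) / _ = _
  rw [div_eq_iff hne]
  linear_combination hu'

/-- The multiplier series. -/
def multSer (L : Line q) : Ser := (q : Ser) * relTheta G (X.sub L (G.h : Ser))

omit [NeZero q] [Fact (Nat.Prime q)] in
theorem cs_fixed {δ : G.Cusp} (h : G.cs δ G.h = (G.h : Ser)) {r : G.C}
    (hr : r ∈ Algebra.adjoin X.O ({G.h, G.Dinv} : Set G.C)) : G.cs δ r = (r : Ser) := by
  induction hr using Algebra.adjoin_induction with
  | mem x hx =>
    rcases hx with rfl | rfl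
    · exact h
    · have h1 := congrArg (G.cs δ) G.Dinv_mul
      have h2 := congrArg G.C.val G.Dinv_mul
      simp only [map_mul, map_prod, map_sub, map_one, AlgHom.commutes, h] at h1 h2
      exact (eq_inv_of_mul_eq_one_left h1).trans (eq_inv_of_mul_eq_one_left h2).symm
  | algebraMap c => rw [AlgHom.commutes]; rfl
  | add x y _ _ hx hy => rw [map_add, hx, hy]; rfl
  | mul x y _ _ hx hy => rw [map_mul, hx, hy]; rfl

omit [NeZero q] [Fact (Nat.Prime q)] in
theorem gs_pull_base (b : Bool) {r : G.C}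
    (hr : r ∈ Algebra.adjoin X.O ({G.h, G.Dinv} : Set G.C)) :
    G.gs G.one ((Pair.base q).line b) (.pull r) = X.sub ((Pair.base q).line b) (r : Ser) := by
  show X.sub _ (G.cs (lineCusp G.twP G.twB G.one _) r) = _
  congr 1
  cases b
  · exact (congrArg (fun δ => G.cs δ r) G.twB_one).trans (G.cs_one r)
  · exact cs_fixed G G.twP_h hr

theorem unit0_gen (b : Bool) {v v' : Gen G.C}
    (h : ∀ P : Pair q, G.gs G.one (P.line b) v * G.gs G.one (P.line b) v' = 1) :
    G.Unit0 (G.gen b v) := by
  refine ⟨fun h0 => ?_, fun κ => ?_⟩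
  · have h1 := congrArg (G.emb G.one (Pair.base q)) h0
    rw [G.emb_gen, map_zero] at h1
    exact zero_ne_one (α := Ser) (by rw [← h (Pair.base q), h1, zero_mul])
  · refine G.ord_eq ?_ ?_
    · intro h0
      have h1 := congrArg (G.emb G.one (kindPair κ)) h0
      rw [G.emb_gen, map_zero] at h1
      exact zero_ne_one (α := Ser) (by rw [← h (kindPair κ), h1, zero_mul])
    · rw [G.emb_gen]
      exact X.hasOrd_of_unit (G.gs_mem_goodSer G.one _ v).1 (G.gs_mem_goodSer G.one _ v').1
        (h (kindPair κ))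

theorem unit0_multUnit (b : Bool) {R R' : G.C} (hRR : R * R' = 1) :
    G.Unit0 (G.gen b (.pull R) * G.gen b (.base R')) := by
  have hcs : ∀ δ, G.cs δ R * G.cs δ R' = 1 := fun δ => by rw [← map_mul, hRR, map_one]
  refine (unit0_gen G b (v' := .pull R') fun P => ?_).mul
    (unit0_gen G b (v' := .base R) fun P => ?_)
  · show X.sub _ _ * X.sub _ _ = 1
    rw [← map_mul, hcs, map_one]
  · show X.up _ * X.up _ = 1
    rw [← map_mul, mul_comm, hcs, map_one]

theorem ord_mult (b : Bool) {w : G.splitField} (hw0 : w ≠ 0) {R R' : G.C} (hRR : R * R' = 1)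
    (hkey : w ^ 6 = G.gen b .disc * (G.gen b (.pull R) * G.gen b (.base R'))) (κ : Option Bool) :
    G.ord κ w = if κ = some b then 2 * (q.factorial : ℤ) else 0 := by
  have hu := unit0_multUnit G b hRR
  have h6 := congrArg (G.ord κ) hkey
  rw [G.ord_pow κ hw0, G.ord_mul κ (G.disc_ne_zero b) hu.ne_zero, G.ord_disc, hu.ord_eq,
    discOrd, add_zero] at h6
  split_ifs at h6 ⊢ <;> push_cast at h6 <;> omega

/-- The sixth powers of the multipliers. -/
theorem exists_mult_pow (b : Bool) :
    ∃ (w : G.splitField) (R R' : G.C), w ∈ G.LF b ∧ w ≠ 0 ∧ R * R' = 1 ∧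
      w ^ 6 = G.gen b .disc * (G.gen b (.pull R) * G.gen b (.base R')) := by
  obtain ⟨R, hR, R', hR', hRR, htheta⟩ := G.theta
  obtain ⟨d, hd, hd'⟩ := relTheta_LF G b (z := G.gen b (.pull G.h))
    (G.gen_mem_LF b (.pull G.h))
  set w : G.splitField := (q : G.splitField) * d
  have hwser : (w : Ser) = multSer G ((Pair.base q).line b) := by
    show ((q : G.splitField) : Ser) * (d : Ser) = _
    rw [hd', multSer, show ((G.gen b (.pull G.h) : G.splitField) : Ser) =
      X.sub ((Pair.base q).line b) (G.h : Ser) from G.sub_h _]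
    norm_cast
  set u : G.splitField := G.gen b (.pull R) * G.gen b (.base R')
  have hser : ∀ r : G.C, ∀ δ L, G.gs δ L (.base r) = X.up (G.cs δ r) := fun _ _ _ => rfl
  have hkey : w ^ 6 = G.gen b .disc * u := by
    refine Subtype.ext ?_
    show (w : Ser) ^ 6 = discFam X M₁ ((Pair.base q).line b) *
      (G.gs G.one ((Pair.base q).line b) (.pull R) * G.gs G.one ((Pair.base q).line b) (.base R'))
    rw [hwser, gs_pull_base G b hR, hser, G.cs_one, multSer, relTheta_apply, thetaSer_sub,
      upH, show thetaSer (X.up (G.h : Ser)) = (q : Ser) * X.up (thetaSer (G.h : Ser)) from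
        thetaSer_qExpand q _]
    have hq : (q : Ser) ≠ 0 := by
      rw [← map_natCast (HahnSeries.C : Qbar →+* Ser)]
      exact (map_ne_zero_iff _ HahnSeries.C_injective).mpr X.q_ne_zero
    have hR1 : X.up (R : Ser) * X.up (R' : Ser) = 1 := by
      rw [← map_mul, show (R : Ser) * (R' : Ser) = ((R * R' : G.C) : Ser) from rfl, hRR]
      exact map_one _
    have hΔ : X.up (qExpand Qbar M₁ (Igusa.discSeries Qbar)) *
        X.up (qExpand Qbar M₁ (Igusa.discInvSeries Qbar)) = 1 := by
      rw [← map_mul, ← map_mul, Igusa.discSeries_mul_inv]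
      simp
    have hden : ((q : Ser) * X.up (thetaSer (G.h : Ser))) ^ 6 =
        (q : Ser) ^ 6 * (X.up (R : Ser) * X.up (qExpand Qbar M₁ (Igusa.discSeries Qbar))) := by
      rw [mul_pow, ← map_pow, htheta, map_mul]
    rw [mul_pow, div_pow, hden, mul_pow, ← map_pow, htheta, map_mul, mul_div_assoc']
    set Δs := qExpand Qbar M₁ (Igusa.discSeries Qbar)
    set Δi := qExpand Qbar M₁ (Igusa.discInvSeries Qbar)
    rw [div_eq_iff (mul_ne_zero (pow_ne_zero _ hq)
      (mul_ne_zero (left_ne_zero_of_mul_eq_one hR1) (left_ne_zero_of_mul_eq_one hΔ)))]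
    have hdisc : ∀ L : Line q, discFam X M₁ L = lineFactor L ^ 6 * (X.sub L Δs * X.up Δi) := by
      intro L
      cases L with
      | none => simp only [discFam, lineFactor]; ring
      | some c => simp only [discFam, lineFactor]; ring
    rw [hdisc]
    linear_combination (-((q : Ser) ^ 6 * lineFactor ((Pair.base q).line b) ^ 6 *
      X.sub ((Pair.base q).line b) (R : Ser) * X.sub ((Pair.base q).line b) Δs)) *
      (hΔ * (X.up (R : Ser) * X.up (R' : Ser)) + hR1)
  have hu : G.Unit0 u := unit0_multUnit G b hRR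
  have hw0 : w ≠ 0 := ne_zero_pow (by norm_num : (6 : ℕ) ≠ 0) (by
    rw [hkey]; exact mul_ne_zero (G.disc_ne_zero b) hu.ne_zero)
  exact ⟨w, R, R', mul_mem (_root_.natCast_mem _ q) hd, hw0, hRR, hkey⟩

end FLTAgent.LowerSquare.Geometry

end
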