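import Fermat.Agent.LowerSquare.Geometry.Orders
import Fermat.Agent.CarayolSquare.Geometry.Final
import Fermat.Agent.CarayolSquare.Plumbing.SplitFunction

/-!
# Making the orders zero at the components

A function with divisible horizontal orders and norms becomes a unit at the three components after
multiplication by functions of one line, a power of `q` and a `p`-th power.
-/

set_option autoImplicit false

noncomputable section

open FLTAgent.CarayolSquare

namespace FLTAgent.LowerSquare.Geometry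

variable {q : ℕ} [NeZero q] [Fact q.Prime] {X : Ctx q} {M₁ : ℕ} [NeZero M₁] (G : Model X M₁)

/-- The relation between the orders given by a divisible norm. -/
theorem exists_ord_rel (b : Bool) {p : ℕ} (hp : 0 < p) {F : G.splitField} (hF : F ≠ 0) {κ : X.K}
    {g : G.splitField} (hg : g ∈ G.LF b)
    (h : (Algebra.norm (G.LF b) F : G.splitField) = algebraMap X.K G.splitField κ * g ^ p)
    {A : Bool → ℤ} (hA : ∀ b, G.ord (some b) F = A b * q.factorial) :
    ∃ l : ℤ, ((q : ℤ) - 1) * G.ord none F =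
      q.factorial * ((q : ℤ) * A b - A (!b) - p * l) := by
  have hN : (Algebra.norm (G.LF b) F : G.splitField) ≠ 0 := by
    have h1 := (Algebra.norm_ne_zero_iff (R := G.LF b)).mpr hF
    exact fun h0 => h1 (Subtype.ext h0)
  rw [h] at hN
  have hκ : algebraMap X.K G.splitField κ ≠ 0 := left_ne_zero_of_mul hN
  have hg0 : g ≠ 0 := ne_zero_pow hp.ne' (right_ne_zero_of_mul hN)
  obtain ⟨m₁, hm₁⟩ := exists_ord_end G b g
  obtain ⟨m₂, hm₂⟩ := exists_ord_end G (!b) g
  refine ⟨m₁ - m₂, ?_⟩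
  have e1 := G.ord_norm_LF b (kindPair (some b)) hF
  have e2 := G.ord_norm_LF b (kindPair none) hF
  rw [kindOf_kindPair, if_pos (by cases b <;> rfl), h, G.ord_mul _ hκ (pow_ne_zero p hg0),
    G.ord_pow _ hg0, hm₁, hA] at e1
  rw [kindOf_kindPair, if_neg (by cases b <;> simp [kindPair, Pair.line]), h,
    G.ord_mul _ hκ (pow_ne_zero p hg0), G.ord_pow _ hg0, G.ord_algebraMap none (some b),
    ord_LF G b hg, hm₂, hA] at e2
  linear_combination e1 - e2

/-- The congruences are solvable in multiples of `q - 1`. -/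
theorem exists_split {p : ℕ} (hp : p.Prime) (hp2 : p ≠ 2) {q T S C l₁ l₂ : ℤ}
    (h₁ : C = q * T - S - p * l₁) (h₂ : C = q * S - T - p * l₂) :
    ∃ l c : ℤ, C = (q - 1) * l + p * c := by
  have hpz : Prime (p : ℤ) := Nat.prime_iff_prime_int.mp hp
  rcases em ((p : ℤ) ∣ q - 1) with hd | hd
  · have hsum : (p : ℤ) ∣ (q + 1) * (T - S) := ⟨l₁ - l₂, by linear_combination h₂ - h₁⟩
    rcases hpz.dvd_mul.mp hsum with h | h
    · exfalso
      have h2 : (p : ℤ) ∣ ((2 : ℕ) : ℤ) := by
        rw [Nat.cast_ofNat, show (2 : ℤ) = q + 1 - (q - 1) by ring]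
        exact dvd_sub h hd
      exact hp2 ((Nat.prime_dvd_prime_iff_eq hp Nat.prime_two).mp (by exact_mod_cast h2))
    · obtain ⟨d, hd⟩ := hd
      obtain ⟨e, he⟩ := h
      exact ⟨0, d * T + e - l₁, by linear_combination h₁ + T * hd + he⟩
  · obtain ⟨x, y, hxy⟩ := (hpz.coprime_iff_not_dvd.mpr hd)
    exact ⟨C * y, C * x, by linear_combination (-C) * hxy⟩

/-- **The orders at the components can be made zero.** -/
theorem exists_unit0 {p : ℕ} (hp : p.Prime) (hp2 : p ≠ 2) {F : G.splitField}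
    (hF : Plumbing.IsPowLike G p F) (w : Bool → G.splitField) (hw0 : ∀ b, w b ≠ 0)
    (hw : ∀ b κ, G.ord κ (w b) = if κ = some b then 2 * (q.factorial : ℤ) else 0) :
    ∃ (i j l : ℤ) (H : G.splitField), H ≠ 0 ∧
      G.Unit0 (F * w true ^ i * w false ^ j * (q : G.splitField) ^ l * H ^ p) := by
  obtain ⟨N, hN, hNnone, hNend⟩ := ord_midFun G
  have hd0 : midFun G ≠ 0 := fun h0 => by
    have hz : G.ord none (midFun G) = 0 := by rw [h0]; simp [Model.ord]
    rw [hNnone] at hz
    rw [hz, zero_mul] at hN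
    exact Nat.factorial_ne_zero q (by exact_mod_cast hN.symm)
  have hq0 : (q : G.splitField) ≠ 0 := Nat.cast_ne_zero.mpr X.prime.ne_zero
  choose A hA using fun b => exists_ord_end G b F
  obtain ⟨κ₁, g₁, hg₁, h₁⟩ := G.exists_norm_LF.1 hF.normNone
  obtain ⟨κ₂, g₂, hg₂, h₂⟩ := G.exists_norm_LF.2 hF.normZero
  obtain ⟨l₁, e₁⟩ := exists_ord_rel G true hp.pos hF.ne_zero hg₁ h₁ hA
  obtain ⟨l₂, e₂⟩ := exists_ord_rel G false hp.pos hF.ne_zero hg₂ h₂ hA
  simp only [Bool.not_true, Bool.not_false] at e₁ e₂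
  set C := (q : ℤ) * A true - A false - p * l₁ with hC
  have hC₂ : C = (q : ℤ) * A false - A true - p * l₂ :=
    mul_left_cancel₀ (by exact_mod_cast Nat.factorial_ne_zero q) (e₁.symm.trans e₂)
  have hnone : G.ord none F = N * C := by
    refine mul_left_cancel₀ (a := (q : ℤ) - 1) ?_ (by linear_combination e₁ - C * hN)
    have := X.prime.two_le
    omega
  obtain ⟨l, c, hlc⟩ := exists_split hp hp2 hC hC₂
  obtain ⟨h2, hh2⟩ : ∃ h2 : ℤ, (p : ℤ) + 1 = 2 * h2 := by
    obtain ⟨k, hk⟩ := hp.odd_of_ne_two hp2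
    exact ⟨k + 1, by subst hk; push_cast; ring⟩
  refine ⟨h2 * (l - A true), h2 * (l - A false), -(2 * h2 * l),
    F * midFun G ^ (-(2 * h2 * c)), mul_ne_zero hF.ne_zero (zpow_ne_zero _ hd0), ?_⟩
  have hwi : ∀ b (i : ℤ), w b ^ i ≠ 0 := fun b i => zpow_ne_zero i (hw0 b)
  have h12 := mul_ne_zero hF.ne_zero (hwi true (h2 * (l - A true)))
  have h123 := mul_ne_zero h12 (hwi false (h2 * (l - A false)))
  have h1234 := mul_ne_zero h123 (zpow_ne_zero (-(2 * h2 * l)) hq0)
  have hH := mul_ne_zero hF.ne_zero (zpow_ne_zero (-(2 * h2 * c)) hd0)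
  refine ⟨mul_ne_zero h1234 (pow_ne_zero p hH), fun κ => ?_⟩
  rw [G.ord_mul κ h1234 (pow_ne_zero p hH), G.ord_mul κ h123 (zpow_ne_zero _ hq0),
    G.ord_mul κ h12 (hwi _ _), G.ord_mul κ hF.ne_zero (hwi _ _), G.ord_zpow κ (hw0 _),
    G.ord_zpow κ (hw0 _), G.ord_zpow κ hq0, G.ord_natCast, G.ord_pow κ hH,
    G.ord_mul κ hF.ne_zero (zpow_ne_zero _ hd0), G.ord_zpow κ hd0, hw, hw]
  rcases κ with _ | _ | _
  · rw [hnone, hNnone, if_neg (by simp), if_neg (by simp)]
    linear_combination N * C * hh2 + 2 * h2 * l * hN + 2 * h2 * N * hlc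
  · rw [hA, hNend, if_neg (by simp), if_pos rfl]
    linear_combination (A false * (q.factorial : ℤ)) * hh2
  · rw [hA, hNend, if_pos rfl, if_neg (by simp)]
    linear_combination (A true * (q.factorial : ℤ)) * hh2

end FLTAgent.LowerSquare.Geometry

end
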