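import Fermat.Agent.LowerSquare.Geometry.Mobius
import Fermat.Agent.CarayolSquare.Provider.Main

/-!
# Projective symmetry of the modular models

The permutations of the lines induced by `SL(2, ℤ)` and by Galois are projective.
-/

set_option autoImplicit false

noncomputable section

open scoped MatrixGroups Matrix
open UpperHalfPlane hiding I
open ModularCurve FLTAgent.LevelM FLTAgent.CarayolSquare

namespace FLTAgent.LowerSquare.Geometry

local notation "Qbar" => AlgebraicClosure ℚ

variable {q M : ℕ} [Fact q.Prime] (h : q.Coprime M)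

theorem eta01_ne_zero (h : q.Coprime M) :
    ((Provider.eta M q 0 1 : ℤ) : ZMod q) ≠ 0 := by
  intro h0
  obtain ⟨-, h10, h11, -⟩ := Provider.eta_spec h
  have hd := congrArg (Int.cast : ℤ → ZMod q) (Provider.eta M q).det_coe
  rw [Matrix.det_fin_two, h10, h11] at hd
  push_cast at hd
  simp [h0] at hd

/-- The matrix of the lines moved by an element of `SL(2, ℤ)`. -/
def moveMat (M : ℕ) (δ : SL(2, ℤ)) : Matrix (Fin 2) (Fin 2) (ZMod q) :=
  !![((δ 1 1 : ℤ) : ZMod q), (M : ZMod q)⁻¹ * (δ 0 1 : ℤ);
    (M : ZMod q) * (δ 1 0 : ℤ), ((δ 0 0 : ℤ) : ZMod q)]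

theorem isMob_linePerm (δ : SL(2, ℤ)) : IsMob (Provider.linePerm h δ : Equiv.Perm (Line q)) := by
  have hM := Provider.natCast_M_ne_zero h
  refine isMob_of_det (A := moveMat M δ) ?_ fun L => ?_
  · have hd := congrArg (Int.cast : ℤ → ZMod q) δ.det_coe
    rw [Matrix.det_fin_two] at hd
    push_cast at hd
    rw [moveMat, Matrix.det_fin_two_of]
    field_simp
    intro h0
    apply one_ne_zero (α := ZMod q)
    rw [← hd]
    linear_combination h0
  · show ∃ t : ZMod q, moveMat M δ *ᵥ lineVec L = t • lineVec (Provider.lineMap h δ L)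
    have he := Provider.lineR_mul h δ L
    generalize Provider.lineMap h δ L = L' at he ⊢
    generalize Provider.lineLift h δ L = γ at he
    have h00 := congrArg (Int.cast : ℤ → ZMod q) (congrFun (congrFun he 0) 0)
    have h01 := congrArg (Int.cast : ℤ → ZMod q) (congrFun (congrFun he 0) 1)
    have hη := eta01_ne_zero h
    obtain ⟨-, h10, h11, -⟩ := Provider.eta_spec h
    cases L with
    | none =>
      cases L' with
      | none =>
        simp [Provider.lineR, Matrix.mul_apply, Fin.sum_univ_two, hη, h10, h11] at h00 h01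
        refine ⟨((δ 1 1 : ℤ) : ZMod q), funext fun i => ?_⟩
        fin_cases i <;> simp [moveMat, lineVec, Matrix.mulVec, dotProduct, Fin.sum_univ_two]
        tauto
      | some b =>
        simp [Provider.lineR, Matrix.mul_apply, Fin.sum_univ_two, -ZMod.natCast_val,
          ZMod.natCast_zmod_val] at h00 h01
        refine ⟨(M : ZMod q) * ((δ 1 0 : ℤ) : ZMod q), funext fun i => ?_⟩
        fin_cases i <;> simp [moveMat, lineVec, Matrix.mulVec, dotProduct, Fin.sum_univ_two]
        rw [← h00] at h01
        exact mul_left_cancel₀ hη (by linear_combination h01)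
    | some c =>
      cases L' with
      | none =>
        simp [Provider.lineR, Matrix.mul_apply, Fin.sum_univ_two, h10, h11, -ZMod.natCast_val,
          ZMod.natCast_zmod_val] at h00 h01
        refine ⟨((δ 1 1 : ℤ) : ZMod q) * c + (M : ZMod q)⁻¹ * (δ 0 1 : ℤ), funext fun i => ?_⟩
        fin_cases i <;> simp [moveMat, lineVec, Matrix.mulVec, dotProduct, Fin.sum_univ_two]
        linear_combination h00
      | some b =>
        simp [Provider.lineR, Matrix.mul_apply, Fin.sum_univ_two, -ZMod.natCast_val,
          ZMod.natCast_zmod_val] at h00 h01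
        refine ⟨(M : ZMod q) * ((δ 1 0 : ℤ) : ZMod q) * c + ((δ 0 0 : ℤ) : ZMod q),
          funext fun i => ?_⟩
        fin_cases i <;> simp [moveMat, lineVec, Matrix.mulVec, dotProduct, Fin.sum_univ_two]
        field_simp
        linear_combination h01 - ((M : ZMod q) * b) * h00

variable {X : Ctx q} [NeZero M]

theorem exists_projSymm
    (P : MvPolynomial (Line q × Gen (Provider.CRing X M)) X.O)
    (hP : ∀ π : Equiv.Perm (Line q), IsMob π → MvPolynomial.rename (Prod.map π id) P = P) :
    ∃ f : Provider.LRing X M, ∀ δ, MvPolynomial.aeval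
      (fun v : Line q × Gen (Provider.CRing X M) => Provider.genSerAt M h X δ v.1 v.2) P =
        X.up (Provider.evAt X M δ f) := by
  obtain ⟨f, -, hf⟩ := Provider.exists_symm_of_rename h X P (fun δ => hP _ (isMob_linePerm h δ))
    fun a => hP _ (isMob_mulLine a)
  exact ⟨f, hf⟩

/-- **The modular models have projective symmetry.** -/
theorem projSymm_model {K : ℕ} [NeZero K] [NeZero q] (hM3 : 3 ≤ M) (hl : Provider.Lvl q M K)
    (H : Provider.Haupt K) : ProjSymm (Provider.model X h hM3 hl H) := fun P hP => by
  obtain ⟨f, hf⟩ := exists_projSymm h (X := X) P hP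
  exact ⟨Provider.equivC X M f, fun δ =>
    (hf δ).trans (congrArg X.up (Provider.csAt_equivC δ f).symm)⟩

end FLTAgent.LowerSquare.Geometry

end
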