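import Fermat.Agent.LowerSquare.Geometry.BridgeCharacter
import Fermat.Agent.LowerSquare.Geometry.BridgeEmbedding
import Fermat.Agent.CarayolSquare.Plumbing.SplitFunction
import Fermat.Agent.CarayolSquare.Provider.Main
import Fermat.Agent.LowerSquare.Geometry.ProviderSymm

/-!
# `OperatorKills` from the series statement on the split Cartan cover

`SeriesKills`: on a model with projective symmetry, for a function of `splitField` all whose
valuations over `K` and both norms are `p`-th powers up to constants, the product of its translates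
along the pairs with the exponents of a kernel is a constant times a `p`-th power.
-/

set_option autoImplicit false

noncomputable section

open CongruenceSubgroup AlgebraicCurve ModularCurve
open scoped MatrixGroups
open FLTAgent.HeckeJacobian FLTAgent.SemistableHecke

namespace FLTAgent.LowerSquare.Geometry

open FLTAgent.CarayolSquare

local notation "Qbar" => AlgebraicClosure ℚ

/-- The series form of the statement that kernels kill. -/
def SeriesKills : Prop :=
  ∀ {q : ℕ} [Fact q.Prime] [NeZero q] (X : Ctx q) (M₁ : ℕ) [NeZero M₁] (G : Model X M₁) (p : ℕ),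
    ProjSymm G → p.Prime → p ≠ 2 → q ≠ p → ∀ F : G.splitField, Plumbing.IsPowLike G p F →
    ∀ ν : Option (ZMod q) × Option (ZMod q) → ZMod p, IsKernel ν →
      ∃ (κ : X.K) (g : G.splitField),
        ∏ P : Pair q, (G.emb G.one P F) ^ (ν P.1).val =
          algebraMap X.K Ser κ * (g : Ser) ^ p

/-- The modular models with the facts used by the bridge. -/
theorem exists_model_data {q : ℕ} [Fact q.Prime] (M : ℕ) (hM : 0 < M) (h : ¬ q ∣ M) :
    ∃ (M₁ K : ℕ) (_ : NeZero M₁) (_ : NeZero K), M ∣ M₁ ∧ q.Coprime M₁ ∧ 3 ≤ M₁ ∧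
      Provider.Lvl q M₁ K ∧ Nonempty (Provider.Haupt K) := by
  have hq : q.Prime := Fact.out
  have key : ∀ (K a : ℕ) [NeZero K], LevelM.SmallLevel K → K ∣ a → 3 ≤ a → ¬ q ∣ a →
      (q : ZMod K) = -1 → ∃ (M₁ K : ℕ) (_ : NeZero M₁) (_ : NeZero K), M ∣ M₁ ∧ q.Coprime M₁ ∧
        3 ≤ M₁ ∧ Provider.Lvl q M₁ K ∧ Nonempty (Provider.Haupt K) := by
    intro K a _ hK hKa ha hqa hcong
    have hne : Nat.lcm M a ≠ 0 := Nat.lcm_ne_zero hM.ne' (by omega)
    have hqd : ¬ q ∣ Nat.lcm M a := fun hd =>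
      ((hq.dvd_mul).mp (hd.trans (Nat.lcm_dvd_mul M a))).elim h hqa
    exact ⟨_, K, ⟨hne⟩, inferInstance, Nat.dvd_lcm_left _ _,
      (Nat.Prime.coprime_iff_not_dvd hq).mpr hqd,
      ha.trans (Nat.le_of_dvd (Nat.pos_of_ne_zero hne) (Nat.dvd_lcm_right _ _)),
      ⟨hK, hKa.trans (Nat.dvd_lcm_right _ _), hqd, hcong⟩, Provider.exists_haupt hK⟩
  rcases eq_or_ne q 2 with rfl | hq2
  · exact key 3 3 (Or.inr rfl) dvd_rfl le_rfl (by norm_num) (by decide)
  · refine key 2 4 (Or.inl rfl) (by norm_num) (by norm_num) (fun hd => hq2 ?_) ?_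
    · have h2 : q ∣ 2 ^ 2 := hd
      exact (Nat.prime_dvd_prime_iff_eq hq Nat.prime_two).mp (hq.dvd_of_dvd_pow h2)
    · have hodd : ¬ 2 ∣ q := fun hd =>
        hq2 ((Nat.prime_dvd_prime_iff_eq Nat.prime_two hq).mp hd).symm
      rw [← ZMod.natCast_mod, show q % 2 = 1 by omega]
      decide

/-- The bijection of pairs given by the relabelling. -/
theorem relabel_bijective {q M : ℕ} [Fact q.Prime] (h : q.Coprime M) :
    Function.Bijective (relabel q M) := by
  have : NeZero q := ⟨(Fact.out : q.Prime).ne_zero⟩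
  have hM : (((-(M : ℤ) : ℤ)) : ZMod q) ≠ 0 := by
    push_cast
    exact neg_ne_zero.mpr (Provider.natCast_M_ne_zero h)
  exact Finite.injective_iff_bijective.mp (Option.map_injective (mul_right_injective₀ hM))

/-- **The reduction.** -/
theorem operatorKills_of_series (hser : SeriesKills) : OperatorKills := by
  intro q p M _ _ _ _ _ hq hp hp2 hqp hqM A hA x hx hfix hα hβ c hc ν hν
  have : Fact q.Prime := ⟨hq⟩
  obtain ⟨X, y, hXK, hy, hyfix, hyα, hyβ, hyc⟩ := exists_ctx_adapted hq hA hx hfix hα hβ hc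
  obtain ⟨M₁, K, _, _, hM, hcop, hM3, hl, ⟨H⟩⟩ :=
    exists_model_data (q := q) M (Nat.pos_of_ne_zero (NeZero.ne M)) hqM
  let G : Model X M₁ := Provider.model X hcop hM3 hl H
  have hI : ∀ σ ∈ X.A.inertiaSubgroupIn ℚ, ∀ a ∈ X.K, σ a = a := fun σ hσ a ha =>
    (IntermediateField.mem_fixedField_iff _ _).mp (hXK ▸ ha) σ hσ
  have hK : ∀ a : Qbar, (∀ σ ∈ X.A.inertiaSubgroupIn ℚ, σ a = a) → a ∈ X.K := fun a ha =>
    hXK ▸ (IntermediateField.mem_fixedField_iff _ _).mpr ha
  obtain ⟨D, f, F, rfl, -, hf0, -, hdiv, hFf, hF⟩ :=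
    Plumbing.exists_splitFunction (N₁ := q * M) (mul_comm q M) hqM _ hI hK G hM hp.ne_zero hy
      hyfix hyα hyβ
  have hF0 := hF.ne_zero
  let n : Pair q → ℕ := fun P => (ν P.1).val
  obtain ⟨κ, g, hg⟩ := hser X M₁ G p (projSymm_model hcop hM3 hl H) hp hp2 hqp F hF ν hν
  obtain ⟨u₁, u₂, hu, hF12⟩ := G.exists_rep F.2
  obtain ⟨w₁, w₂, hw, hg12⟩ := G.exists_rep g.2
  have hne : ∀ P : Pair q, G.emb G.one P F ≠ 0 := fun P =>
    fun h0 => hF0 ((G.emb G.one P).injective (h0.trans (map_zero _).symm))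
  have hκ : κ ≠ 0 := fun h0 => Finset.prod_ne_zero_iff.mpr
    (fun P _ => pow_ne_zero _ (hne P)) (hg.trans (by rw [h0, map_zero, zero_mul]))
  refine ⟨q * M₁, Nat.mul_pos hq.pos (Nat.pos_of_ne_zero (NeZero.ne M₁)), mul_dvd_mul_left q hM,
    fun gg hgg γ hγ δ hδ => ?_⟩
  let e : Pair q → Option (ZMod q) × Option (ZMod q) := fun P =>
    (relabel q M₁ P.1.1, relabel q M₁ P.1.2)
  have he : ∀ P, (e P).1 ≠ (e P).2 := fun P => (relabel_bijective hcop).1.ne P.2
  have key := character_of_series hcop X ((Nat.Prime.coprime_iff_not_dvd hq).mpr hqM) hM hp.ne_zero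
    hf0 hdiv hyc (u₁ := u₁) (u₂ := u₂) (w₁ := w₁) (w₂ := w₂) hu hw
    (fun P => G.evP_ne_zero G.one P hu) (by rw [← Plumbing.iota_apply (X := X), ← hFf]; exact hF12)
    hκ n (by
      show (∏ P, G.evP G.one P u₁ ^ n P) * G.ev0 w₂ ^ p =
        algebraMap X.K Ser κ * G.ev0 w₁ ^ p * ∏ P, G.evP G.one P u₂ ^ n P
      rw [← hg12]
      simp only [← G.emb_spec G.one _ F hu hF12, mul_pow, Finset.prod_mul_distrib]
      rw [hg]
      ring)
    hγ (g := fun P => gg (e P)) (fun P => hgg _ (he P)) (d := fun P => δ (e P))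
    fun P => hδ _ (he P)
  have hν' : ∀ L L', ν (relabel q M₁ L, relabel q M₁ L') = ν (L, L') := fun L L' => by
    have hu : (((-(M₁ : ℤ) : ℤ)) : ZMod q) ≠ 0 := by
      push_cast
      exact neg_ne_zero.mpr (Provider.natCast_M_ne_zero hcop)
    exact hν.invariant (Units.mk0 _ hu) L L'
  let e' := (Equiv.ofBijective _ (relabel_bijective hcop)).prodCongr
    (Equiv.ofBijective _ (relabel_bijective hcop))
  rw [← e'.sum_comp]
  rw [← Finset.sum_filter_of_ne (p := fun P : Option (ZMod q) × Option (ZMod q) => P.1 ≠ P.2)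
    (fun P _ hP hPd => hP (by
      show (ν (relabel q M₁ P.1, relabel q M₁ P.2)).val • _ = 0
      rw [hν', hPd, hν.diag, ZMod.val_zero, zero_smul]))]
  rw [Finset.sum_subtype (p := fun P : Option (ZMod q) × Option (ZMod q) => P.1 ≠ P.2) _
    (fun P => by simp)]
  refine Eq.trans ?_ key
  refine Finset.sum_congr rfl fun P _ => ?_
  show (ν (relabel q M₁ P.1.1, relabel q M₁ P.1.2)).val • _ = _
  rw [hν']
  rfl

end FLTAgent.LowerSquare.Geometry
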