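import Fermat.Agent.LowerSquare.Geometry.Engine
import Fermat.Agent.LowerSquare.Geometry.SeriesKills

/-!
# `SeriesKills` from the closed points

A kernel gives torus invariant exponents with fibre sums divisible by `p`; a normalised function
has residues with explicit roots, which glue at all points, so the operator gives a `p`-th power up
to a constant.
-/

set_option autoImplicit false

noncomputable section

open FLTAgent.CarayolSquare

namespace FLTAgent.LowerSquare.Geometry

variable {q : ℕ} [NeZero q] [Fact q.Prime] {X : Ctx q} {M₁ : ℕ} [NeZero M₁] {G : Model X M₁}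

/-- The exponents of a kernel. -/
def kerExpo {p : ℕ} (ν : Option (ZMod q) × Option (ZMod q) → ZMod p) (P : Pair q) : ℕ :=
  (ν P.1).val

theorem torusInv_kerExpo {p : ℕ} {ν : Option (ZMod q) × Option (ZMod q) → ZMod p}
    (hν : IsKernel ν) : TorusInv (kerExpo ν) := fun u P => by
  unfold kerExpo
  refine congrArg ZMod.val (Eq.trans ?_ (hν.invariant u P.1.1 P.1.2))
  exact congrArg ν (Prod.ext (mulLine_apply u P.1.1) (mulLine_apply u P.1.2))

omit [Fact (Nat.Prime q)] in
theorem fibDvd_kerExpo {p : ℕ} [NeZero p] {ν : Option (ZMod q) × Option (ZMod q) → ZMod p}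
    (hν : IsKernel ν) : FibDvd (kerExpo ν) p := by
  classical
  intro b L
  rw [← ZMod.natCast_eq_zero_iff, Nat.cast_sum]
  have e : ∀ P : Pair q, ((kerExpo ν P : ℕ) : ZMod p) = ν P.1 := fun P => ZMod.natCast_zmod_val _
  simp only [e]
  have hext : ∑ P ∈ Finset.univ.filter (fun P : Pair q => P.line b = L), ν P.1 =
      ∑ Q : Option (ZMod q) × Option (ZMod q), if (if b then Q.1 else Q.2) = L then ν Q else 0 := by
    rw [← Finset.sum_filter_of_ne (s := (Finset.univ : Finset (Option (ZMod q) × Option (ZMod q))))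
        (p := fun Q => Q.1 ≠ Q.2) (fun Q _ hQ hQd => hQ (by
          obtain ⟨A, B⟩ := Q
          obtain rfl : A = B := hQd
          simp [hν.diag])),
      Finset.sum_subtype (p := fun Q : Option (ZMod q) × Option (ZMod q) => Q.1 ≠ Q.2) _
        (fun Q => by simp), Finset.sum_filter]
    rfl
  rw [hext, Fintype.sum_prod_type]
  cases b
  · simp [hν.sum_snd]
  · simp [Finset.sum_ite_irrel, hν.sum_fst]

/-- What the normalisation of a function provides. -/
def Normalised (D : OpData G) (p : ℕ) (F : G.splitField) : Prop :=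
  ∃ (f : G.splitField) (c : X.K) (r : G.splitField),
    G.Unit0 f ∧ HorizAff G f p ∧ Horiz G (D.op f) p ∧
      D.op F ^ 2 = algebraMap X.K G.splitField c * D.op f * r ^ p

/-- **The operator on a normalised function.** -/
theorem exists_op_eq_pow (D : OpData G) {p : ℕ} (hp : p.Prime) (hp2 : p ≠ 2) (hqp : q ≠ p)
    (hfib : FibDvd D.ν p) (hpts : Points G)
    (htriple : ∀ (f : G.splitField), G.Unit0 f → HorizAff G f p → ∀ P : G.Point G.openChart,
      TriplePoint G P → ∀ j, GlueD D p f j P.φ)
    {F : G.splitField} (hF : F ≠ 0) (hnorm : Normalised D p F) :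
    ∃ (κ : X.K) (g : G.splitField), D.op F = algebraMap X.K G.splitField κ * g ^ p := by
  obtain ⟨f, c, r, hf, haff, hh, heq⟩ := hnorm
  have hq : q.Prime := Fact.out
  have hcop : q.Coprime p := (Nat.coprime_primes hq hp).mpr hqp
  have hdvd : ¬ q ∣ p := (Nat.Prime.coprime_iff_not_dvd hq).mp hcop
  obtain ⟨φ, hφ⟩ := exists_root hp.pos hdvd hfib hf fun j _ =>
    ⟨fun P hP => glueD_single hcop hp.pos hfib hf hh (fun κ b hb => G.openChart_le_V κ hb)
        (hpts.ordinary P hP) j,
      fun P hP => htriple f hf haff P (hpts.supersingular P hP) j,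
      fun u hu P hP => glueD_single hcop hp.pos hfib hf hh (fun κ b hb => G.uChart_le_V
        (fun κ' => by
          rcases hu with rfl | ⟨a, -, rfl⟩
          · exact G.unit0_h.inv_mem κ'
          · exact sub_mem (G.baseHom_mem_V κ' _) (G.algebraMap_mem_V κ' a)) κ hb)
        (hpts.cusp u hu P hP) j⟩
  obtain ⟨s, hs⟩ : Odd p := hp.odd_of_ne_two hp2
  have hF0 := D.op_ne_zero hF
  refine ⟨c ^ (s + 1), (φ * r) ^ (s + 1) / D.op F, ?_⟩
  rw [div_pow, ← pow_mul, mul_comm (s + 1) p, pow_mul, mul_pow, hφ, map_pow, mul_div_assoc',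
    eq_div_iff (pow_ne_zero _ hF0), ← mul_pow, ← mul_assoc, ← heq, ← pow_mul, ← pow_succ']
  congr 1
  omega

/-- **`SeriesKills` from the points, the normalisation and gluing at supersingular points.** -/
theorem seriesKills_of_pieces
    (hpts : ∀ {q : ℕ} [NeZero q] [Fact q.Prime] {X : Ctx q} {M₁ : ℕ} [NeZero M₁]
      (G : Model X M₁), ProjSymm G → Points G)
    (hnorm : ∀ {q : ℕ} [NeZero q] [Fact q.Prime] {X : Ctx q} {M₁ : ℕ} [NeZero M₁]
      {G : Model X M₁} (D : OpData G) (p : ℕ), p.Prime → p ≠ 2 → q ≠ p → FibDvd D.ν p →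
        ∀ F : G.splitField, Plumbing.IsPowLike G p F → Normalised D p F)
    (htriple : ∀ {q : ℕ} [NeZero q] [Fact q.Prime] {X : Ctx q} {M₁ : ℕ} [NeZero M₁]
      {G : Model X M₁} (D : OpData G) (p : ℕ), p.Prime → q ≠ p → FibDvd D.ν p →
        ∀ f : G.splitField, G.Unit0 f → HorizAff G f p → ∀ P : G.Point G.openChart,
          TriplePoint G P → ∀ j, GlueD D p f j P.φ) :
    SeriesKills := by
  intro q _ _ X M₁ _ G p hsym hp hp2 hqp F hF ν hν
  have : NeZero p := ⟨hp.ne_zero⟩
  let D : OpData G := ⟨hsym, kerExpo ν, torusInv_kerExpo hν⟩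
  have hfib : FibDvd D.ν p := fibDvd_kerExpo hν
  obtain ⟨κ, g, h⟩ := exists_op_eq_pow D hp hp2 hqp hfib (hpts G hsym)
    (htriple D p hp hqp hfib) hF.ne_zero (hnorm D p hp hp2 hqp hfib F hF)
  refine ⟨κ, g, ?_⟩
  have h1 := congrArg (fun x : G.splitField => (x : Ser)) h
  exact (D.coe_op F).symm.trans h1

end FLTAgent.LowerSquare.Geometry

end
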