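import Fermat.Agent.LowerSquare.Geometry.Normalise
import Fermat.Agent.LowerSquare.Geometry.DiscUnit
import Fermat.Agent.LowerSquare.Geometry.LineRoots
import Fermat.Agent.LowerSquare.Geometry.Reduction

/-!
# Normalised functions

A function with divisible horizontal orders and norms is replaced by a unit at the three components
whose orders on the open part are divisible, without changing the image under the operator modulo
constants and `p`-th powers.
-/

set_option autoImplicit false

noncomputable section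

open FLTAgent.CarayolSquare

namespace FLTAgent.LowerSquare.Geometry

variable {q : ℕ} [NeZero q] [Fact q.Prime] {X : Ctx q} {M₁ : ℕ} [NeZero M₁] {G : Model X M₁}

omit [NeZero q] [Fact (Nat.Prime q)] in
theorem valuation_algebraMap_eq_one {W : ValuationSubring G.splitField}
    (hK : ∀ c : X.K, algebraMap X.K G.splitField c ∈ W) {c : X.K} (hc : c ≠ 0) :
    W.valuation (algebraMap X.K G.splitField c) = 1 :=
  valuation_eq_one_of_inv W (hK c) (hK c⁻¹)
    (by rw [← map_mul, mul_inv_cancel₀ hc, map_one])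

/-- **Normalisation.** -/
theorem normalised (D : OpData G) (p : ℕ) (hp : p.Prime) (hp2 : p ≠ 2) (hfib : FibDvd D.ν p)
    (F : G.splitField) (hF : Plumbing.IsPowLike G p F) : Normalised D p F := by
  choose w hwLF hw0 hword hwval using fun b => exists_mult_open G b
  obtain ⟨i, j, l, H, hH, hf⟩ := exists_unit0 G hp hp2 hF w hw0 hword
  obtain ⟨rA, hA⟩ := D.op_LF_isPow hfib true (zpow_mem (hwLF true) i)
  obtain ⟨rB, hB⟩ := D.op_LF_isPow hfib false (zpow_mem (hwLF false) j)
  set k : X.K := (q : X.K) ^ l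
  have hk : k ≠ 0 := zpow_ne_zero _ (Nat.cast_ne_zero.mpr X.prime.ne_zero)
  have hqk : (q : G.splitField) ^ l = algebraMap X.K G.splitField k := by
    rw [map_zpow₀, map_natCast]
  rw [hqk] at hf
  set f := F * w true ^ i * w false ^ j * algebraMap X.K G.splitField k * H ^ p with hfdef
  set k' : X.K := k ^ ∑ Q, D.ν Q
  have hk' : k' ≠ 0 := pow_ne_zero _ hk
  set r := rA * rB * D.op H
  have hop : D.op f = D.op F * algebraMap X.K G.splitField k' * r ^ p := by
    rw [hfdef, D.op_mul, D.op_mul, D.op_mul, D.op_mul, hA, hB, D.op_algebraMap, D.op_pow, mul_pow,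
      mul_pow]
    ring
  have hr : r ≠ 0 := ne_zero_pow hp.ne_zero (right_ne_zero_of_mul (hop ▸ D.op_ne_zero hf.ne_zero))
  clear_value k'
  refine ⟨f ^ 2, k'⁻¹ ^ 2, (r⁻¹) ^ 2, hf.pow 2, fun W hK hh hD => ?_, fun W hK => ?_, ?_⟩
  · obtain ⟨g, hg, hgv⟩ := hF.valuation W hK
    refine ⟨(g * H) ^ 2, pow_ne_zero 2 (mul_ne_zero hg hH), ?_⟩
    rw [hfdef, pow_right_comm (g * H), mul_pow g H p, map_pow, map_pow, map_mul, map_mul, map_mul,
      map_mul, map_zpow₀, map_zpow₀, hwval true W hK hh hD, hwval false W hK hh hD, one_zpow,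
      one_zpow, valuation_algebraMap_eq_one hK hk, mul_one, mul_one, mul_one, map_mul, hgv]
  · obtain ⟨g, hg, hgv⟩ := D.horiz hF.ne_zero hF.valuation W hK
    refine ⟨(g * r) ^ 2, pow_ne_zero 2 (mul_ne_zero hg hr), ?_⟩
    rw [D.op_pow, hop, pow_right_comm (g * r), mul_pow g r p, map_pow, map_pow, map_mul, map_mul,
      valuation_algebraMap_eq_one hK hk', mul_one, map_mul, hgv]
  · rw [D.op_pow, hop, map_pow, map_inv₀, pow_right_comm, inv_pow, mul_pow, mul_pow]
    have h1 : (algebraMap X.K G.splitField) k' ≠ 0 := (_root_.map_ne_zero _).mpr hk'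
    have h2 : r ^ p ≠ 0 := pow_ne_zero p hr
    field_simp
    rw [one_div_pow, one_div_pow]
    field_simp

end FLTAgent.LowerSquare.Geometry

end
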