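import Fermat.Agent.LowerSquare.Geometry.Main
import Fermat.Agent.LowerSquare.Geometry.Normalised

/-!
# Kernels kill, given only the closed points

The normalisation hypothesis holds (`normalises`), so `OperatorKills` only needs the closed points
(`operatorKills_of_points`).
-/

set_option autoImplicit false

noncomputable section

namespace FLTAgent.LowerSquare.Geometry

theorem normalises : Normalises := fun D p hp hp2 _ hfib F hF => normalised D p hp hp2 hfib F hF

theorem operatorKills_of_points (hpts : HasPoints) : OperatorKills :=
  operatorKills_of_hyps hpts normalises

end FLTAgent.LowerSquare.Geometry

end
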