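import Fermat.Agent.LowerSquare.Geometry.Mobius
import Fermat.Agent.CarayolSquare.Geometry.Residues

/-!
# The operator of a torus invariant function of the pairs

For `ν` invariant under the torus the product of the values of `z` at all pairs with exponents `ν`
is again in `splitField`; at the other pairs it takes the translated products.
-/

set_option autoImplicit false

noncomputable section

open FLTAgent.CarayolSquare Polynomial

namespace FLTAgent.LowerSquare.Geometry

variable {q : ℕ} [NeZero q] [Fact q.Prime] {X : Ctx q} {M₁ : ℕ} [NeZero M₁] (G : Model X M₁)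

omit [NeZero q] in
theorem isMob_one : IsMob (1 : Equiv.Perm (Line q)) :=
  ⟨1, fun L => ⟨1, one_ne_zero, by rw [Matrix.one_mulVec, one_smul]; rfl⟩⟩

omit [NeZero q] [Fact (Nat.Prime q)] in
theorem permPair_one (P : Pair q) : Model.permPair (1 : Equiv.Perm (Line q)) P = P :=
  Subtype.ext rfl

/-- The value of a polynomial of the generators. -/
theorem emb_aeval (δ : G.Cusp) (P : Pair q) (p : G.PairPoly) :
    G.emb δ P (MvPolynomial.aeval (fun v : Bool × Gen G.C => G.gen v.1 v.2) p) = G.evP δ P p := by
  induction p using MvPolynomial.induction_on with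
  | C a =>
    rw [MvPolynomial.aeval_C, ← MvPolynomial.algebraMap_eq, AlgHom.commutes]
    exact (G.embO δ P).commutes a
  | add a b ha hb => simp only [map_add, ha, hb]
  | mul_X a v ha =>
    simp only [map_mul, ha, MvPolynomial.aeval_X, G.emb_gen]
    rw [Model.evP, MvPolynomial.aeval_X]

omit [Fact (Nat.Prime q)] in
/-- A polynomial separating the pairs. -/
theorem exists_sep : ∃ t : G.PairPoly, Function.Injective fun P : Pair q => G.evP G.one P t := by
  classical
  set a : Pair q → Bool → Ser := fun P b => G.emb G.one P (G.gen b (.pull G.h)) with ha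
  let bad : Pair q × Pair q → Ser := fun PP =>
    (a PP.2 false - a PP.1 false) / (a PP.1 true - a PP.2 true)
  have : CharZero Ser :=
    charZero_of_injective_ringHom (algebraMap (AlgebraicClosure ℚ) Ser).injective
  obtain ⟨n, hn⟩ : ∃ n : ℕ, (n : Ser) ∉ Finset.univ.image bad := by
    by_contra h
    push Not at h
    exact (Set.infinite_range_of_injective (Nat.cast_injective (R := Ser))).mono
      (by rintro _ ⟨n, rfl⟩; exact h n) (Finset.univ.image bad).finite_toSet
  refine ⟨(n : G.PairPoly) * MvPolynomial.X (true, .pull G.h) +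
    MvPolynomial.X (false, .pull G.h), fun P P' h => ?_⟩
  have h' : (n : Ser) * a P true + a P false = (n : Ser) * a P' true + a P' false := by
    simpa [ha, Model.evP, Model.emb_gen] using h
  by_cases ht : a P true = a P' true
  · refine G.line_injective G.one rfl fun b => ?_
    cases b
    · rw [ht] at h'
      exact add_left_cancel h'
    · exact ht
  · refine absurd (Finset.mem_image.mpr ⟨(P, P'), Finset.mem_univ _, ?_⟩) hn
    show (a P' false - a P false) / (a P true - a P' true) = (n : Ser)
    rw [div_eq_iff (sub_ne_zero.mpr ht)]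
    linear_combination -h'

/-- A separating polynomial. -/
def sepPoly : G.PairPoly := (exists_sep G).choose

omit [Fact (Nat.Prime q)] in
theorem sepPoly_injective : Function.Injective fun P : Pair q => G.evP G.one P (sepPoly G) :=
  (exists_sep G).choose_spec

/-- The translated product of a polynomial. -/
def transProd (ν : Pair q → ℕ) (a : G.PairPoly) (P : Pair q) : G.LinePoly :=
  ∏ Q, G.atPair (Model.permPair (moveTo P) Q) a ^ ν Q

/-- The separating values. -/
def sepAt (P : Pair q) : G.LinePoly := G.atPair P (sepPoly G)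

open Classical in
/-- The differences of a separating value with the others. -/
def sepDiff (P : Pair q) : G.LinePoly :=
  ∏ Q, if Q = P then 1 else sepAt G P - sepAt G Q

open Classical in
/-- The interpolation polynomial. -/
def interp (ν : Pair q → ℕ) (a : G.PairPoly) : Polynomial G.LinePoly :=
  ∑ P, C (transProd G ν a P * ∏ R, if R = P then 1 else sepDiff G R) *
    ∏ Q, if Q = P then 1 else (Polynomial.X - C (sepAt G Q))

variable {ν : Pair q → ℕ}

theorem rename_transProd (hν : TorusInv ν) (a : G.PairPoly) {π : Equiv.Perm (Line q)}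
    (hπ : IsMob π) (P : Pair q) :
    MvPolynomial.rename (Prod.map π id) (transProd G ν a P) =
      transProd G ν a (Model.permPair π P) := by
  rw [transProd, map_prod]
  simp only [map_pow, G.rename_atPair, ← permPair_mul]
  exact prod_perm_eq hν (fun Q n => G.atPair Q a ^ n) (hπ.mul (isMob_moveTo P))
    (isMob_moveTo _) (by rw [permPair_mul, moveTo_base, moveTo_base])

omit [Fact (Nat.Prime q)] in
theorem rename_sepAt (π : Equiv.Perm (Line q)) (P : Pair q) :
    MvPolynomial.rename (Prod.map π id) (sepAt G P) = sepAt G (Model.permPair π P) :=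
  G.rename_atPair π P _

omit [Fact (Nat.Prime q)] in
theorem rename_sepDiff (π : Equiv.Perm (Line q)) (P : Pair q) :
    MvPolynomial.rename (Prod.map π id) (sepDiff G P) = sepDiff G (Model.permPair π P) := by
  classical
  rw [sepDiff, map_prod]
  refine Fintype.prod_equiv (Model.permPair π) _ _ fun Q => ?_
  simp only [apply_ite (MvPolynomial.rename (Prod.map π id)), map_one, map_sub, rename_sepAt,
    EmbeddingLike.apply_eq_iff_eq]

theorem map_interp (hν : TorusInv ν) (a : G.PairPoly) {π : Equiv.Perm (Line q)} (hπ : IsMob π) :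
    (interp G ν a).map
      (MvPolynomial.rename (Prod.map π id) : G.LinePoly →ₐ[X.O] G.LinePoly).toRingHom =
        interp G ν a := by
  classical
  simp only [interp, Polynomial.map_sum, Polynomial.map_mul, Polynomial.map_C,
    Polynomial.map_prod]
  refine Fintype.sum_equiv (Model.permPair π) _ _ fun P => ?_
  congr 1
  · congr 1
    show MvPolynomial.rename (Prod.map π id) _ = _
    rw [map_mul, rename_transProd G hν a hπ, map_prod]
    congr 1
    refine Fintype.prod_equiv (Model.permPair π) _ _ fun R => ?_
    simp only [apply_ite (MvPolynomial.rename (Prod.map π id)), map_one, rename_sepDiff,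
      EmbeddingLike.apply_eq_iff_eq]
  · refine Fintype.prod_equiv (Model.permPair π) _ _ fun Q => ?_
    simp only [apply_ite (Polynomial.map _), Polynomial.map_one, Polynomial.map_sub,
      Polynomial.map_X, Polynomial.map_C, EmbeddingLike.apply_eq_iff_eq]
    congr 2
    exact congrArg C (rename_sepAt G π Q)

/-- The value of the interpolation polynomial at a separating value. -/
theorem eval_interp (a : G.PairPoly) (P : Pair q) :
    (interp G ν a).eval (sepAt G P) = transProd G ν a P * ∏ R, sepDiff G R := by
  classical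
  rw [interp, eval_finsetSum, Finset.sum_eq_single P]
  · rw [eval_mul, eval_C, eval_prod, mul_assoc]
    congr 1
    rw [← Finset.mul_prod_erase _ (fun R => sepDiff G R) (Finset.mem_univ P),
      ← Finset.mul_prod_erase _ _ (Finset.mem_univ P), if_pos rfl, one_mul, mul_comm]
    congr 1
    · rw [sepDiff]
      exact Finset.prod_congr rfl fun Q _ => by
        split_ifs
        · exact eval_one
        · rw [eval_sub, eval_X, eval_C]
    · exact Finset.prod_congr rfl fun R hR => if_neg (Finset.ne_of_mem_erase hR)
  · intro P' _ hne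
    rw [eval_mul]
    refine mul_eq_zero_of_right _ ?_
    rw [eval_prod]
    refine Finset.prod_eq_zero (Finset.mem_univ P) ?_
    rw [if_neg hne.symm, eval_sub, eval_X, eval_C, sub_self]
  · exact fun h => absurd (Finset.mem_univ P) h

omit [Fact (Nat.Prime q)] in
theorem evL_one_sepDiff_ne (R : Pair q) : G.evL G.one (sepDiff G R) ≠ 0 := by
  classical
  rw [sepDiff, map_prod, Finset.prod_ne_zero_iff]
  intro Q _
  by_cases h : Q = R
  · rw [if_pos h, map_one]; exact one_ne_zero
  · rw [if_neg h, map_sub, sepAt, sepAt, G.evL_atPair, G.evL_atPair, sub_ne_zero]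
    exact fun e => h (sepPoly_injective G e).symm

theorem exists_op_poly (hG : ProjSymm G) (hν : TorusInv ν) (a : G.PairPoly) :
    ∃ w : G.splitField, ∀ δ P, G.emb δ P w =
      ∏ Q, G.evP δ (Model.permPair (moveTo P) Q) a ^ ν Q := by
  classical
  set N := interp G ν a with hN
  set Δ : G.LinePoly := ∏ R, sepDiff G R with hΔdef
  have hinv : ∀ (n : ℕ) (π : Equiv.Perm (Line q)), IsMob π →
      MvPolynomial.rename (Prod.map π id) (N.coeff n) = N.coeff n := fun n π hπ => by
    conv_rhs => rw [hN, ← map_interp G hν a hπ, Polynomial.coeff_map, ← hN]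
    rfl
  choose c hc using fun n : ℕ => hG (N.coeff n) (hinv n)
  obtain ⟨d, hd⟩ := hG Δ fun π _ => by
    rw [hΔdef, map_prod]
    exact Fintype.prod_equiv (Model.permPair π) _ _ fun R => rename_sepDiff G π R
  have hd0 : d ≠ 0 := by
    intro h0
    have h := hd G.one
    rw [h0, map_zero, map_zero, hΔdef, map_prod, Finset.prod_eq_zero_iff] at h
    obtain ⟨R, -, hR⟩ := h
    exact evL_one_sepDiff_ne G R hR
  have hdne : ∀ δ, X.up (G.cs δ d) ≠ 0 := fun δ h =>
    hd0 (G.cs_injective δ ((X.up.injective (h.trans (map_zero _).symm)).trans (map_zero _).symm))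
  refine ⟨(∑ n ∈ Finset.range (N.natDegree + 1), G.baseHom (c n) *
    MvPolynomial.aeval (fun v : Bool × Gen G.C => G.gen v.1 v.2) (sepPoly G) ^ n) / G.baseHom d,
    fun δ P => ?_⟩
  rw [map_div₀, map_sum, G.emb_baseHom, div_eq_iff (hdne δ)]
  simp only [map_mul, map_pow, G.emb_baseHom, emb_aeval, ← hc, ← hd]
  have h := congrArg (G.evL δ) (eval_interp G (ν := ν) a P)
  rw [← hN, eval_eq_sum_range, map_sum, map_mul, transProd, map_prod] at h
  simp only [map_mul, map_pow, sepAt, G.evL_atPair] at h
  exact h

/-- **The operator exists.** -/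
theorem exists_op (hG : ProjSymm G) (hν : TorusInv ν) (z : G.splitField) :
    ∃ w : G.splitField, ∀ δ P, G.emb δ P w =
      ∏ Q, G.emb δ (Model.permPair (moveTo P) Q) z ^ ν Q := by
  obtain ⟨a, b, hb, hab⟩ := G.exists_rep z.2
  obtain ⟨wa, ha⟩ := exists_op_poly G hG hν a
  obtain ⟨wb, hwb⟩ := exists_op_poly G hG hν b
  refine ⟨wa / wb, fun δ P => ?_⟩
  rw [map_div₀, ha, hwb, ← Finset.prod_div_distrib]
  refine Finset.prod_congr rfl fun Q _ => ?_
  rw [← div_pow, ← G.emb_spec δ _ z hb hab,
    mul_div_cancel_right₀ _ (G.evP_ne_zero δ _ hb)]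

/-- The hypotheses of the operator. -/
structure OpData where
  symm : ProjSymm G
  ν : Pair q → ℕ
  inv : TorusInv ν

variable {G} (D : OpData G)

/-- **The operator.** -/
def OpData.op (z : G.splitField) : G.splitField := (exists_op G D.symm D.inv z).choose

theorem OpData.emb_op (δ : G.Cusp) (P : Pair q) (z : G.splitField) :
    G.emb δ P (D.op z) = ∏ Q, G.emb δ (Model.permPair (moveTo P) Q) z ^ D.ν Q :=
  (exists_op G D.symm D.inv z).choose_spec δ P

theorem OpData.emb_op_of_mob (δ : G.Cusp) {π : Equiv.Perm (Line q)} (hπ : IsMob π)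
    (z : G.splitField) :
    G.emb δ (Model.permPair π (Pair.base q)) (D.op z) =
      ∏ Q, G.emb δ (Model.permPair π Q) z ^ D.ν Q := by
  rw [D.emb_op]
  exact prod_perm_eq D.inv (fun Q n => G.emb δ Q z ^ n) (isMob_moveTo _) hπ
    (moveTo_base _)

theorem OpData.coe_op (z : G.splitField) :
    (D.op z : Ser) = ∏ Q, G.emb G.one Q z ^ D.ν Q := by
  have h := D.emb_op_of_mob G.one isMob_one z
  simp only [permPair_one] at h
  rwa [G.emb_base] at h

theorem OpData.op_mul (z w : G.splitField) : D.op (z * w) = D.op z * D.op w := by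
  apply Subtype.ext
  show (D.op (z * w) : Ser) = (D.op z : Ser) * (D.op w : Ser)
  simp only [D.coe_op, map_mul, mul_pow, Finset.prod_mul_distrib]

theorem OpData.op_one : D.op 1 = 1 := by
  apply Subtype.ext
  show (D.op 1 : Ser) = 1
  simp [D.coe_op]

/-- The operator as a homomorphism. -/
def OpData.opHom : G.splitField →* G.splitField where
  toFun := D.op
  map_one' := D.op_one
  map_mul' := D.op_mul

theorem OpData.op_ne_zero {z : G.splitField} (hz : z ≠ 0) : D.op z ≠ 0 := fun h => by
  have h1 := congrArg (fun x : G.splitField => (x : Ser)) h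
  simp only [D.coe_op, ZeroMemClass.coe_zero, Finset.prod_eq_zero_iff] at h1
  obtain ⟨Q, -, hQ⟩ := h1
  exact hz ((map_eq_zero_iff _ (G.emb G.one Q).toRingHom.injective).mp
    (eq_zero_of_pow_eq_zero hQ))

theorem OpData.op_pow (z : G.splitField) (i : ℕ) : D.op (z ^ i) = D.op z ^ i :=
  map_pow D.opHom z i

theorem OpData.op_inv (z : G.splitField) : D.op z⁻¹ = (D.op z)⁻¹ := by
  apply Subtype.ext
  show (D.op z⁻¹ : Ser) = ((D.op z : Ser))⁻¹
  simp only [D.coe_op, map_inv₀, inv_pow, Finset.prod_inv_distrib]

theorem OpData.op_algebraMap (c : X.K) :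
    D.op (algebraMap X.K G.splitField c) = algebraMap X.K G.splitField (c ^ ∑ Q, D.ν Q) := by
  apply Subtype.ext
  show (D.op (algebraMap X.K G.splitField c) : Ser) = algebraMap X.K Ser _
  simp only [D.coe_op, AlgHom.commutes, map_pow, Finset.prod_pow_eq_pow_sum]

end FLTAgent.LowerSquare.Geometry

end
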