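import Fermat.Agent.LowerSquare.Geometry.Residual

/-!
# Orders at the components

Orders at the two end components are multiples of `q!`; a function of one line has equal orders at
the two components on which that line is affine; the difference of the two translates of `h` is a
unit at the ends and has order `q! / (q - 1)` at the middle component.
-/

set_option autoImplicit false

noncomputable section

open ModularCurve FLTAgent.CarayolSquare

namespace FLTAgent.LowerSquare.Geometry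

local notation "Qbar" => AlgebraicClosure ℚ

variable {q : ℕ} [NeZero q] [Fact q.Prime]

omit [NeZero q] [Fact (Nat.Prime q)] in
theorem valuation_one_sub_zeta_pow_le (X : Ctx q) (i : ℕ) :
    X.A.valuation (1 - X.ζ ^ i) ≤ X.A.valuation (1 - X.ζ) := by
  rw [← geom_sum_mul_neg X.ζ i, map_mul]
  exact mul_le_of_le_one_left' ((X.A.valuation_le_one_iff _).mpr
    (sum_mem fun j _ => pow_mem X.ζ_mem_A j))

omit [NeZero q] [Fact (Nat.Prime q)] in
theorem exists_pow_eq_zpow (X : Ctx q) (n : ℤ) : ∃ i : ℕ, X.ζ ^ n = X.ζ ^ i := by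
  refine ⟨(n % q).toNat, ?_⟩
  rw [← zpow_natCast X.ζ ((_ : ℤ).toNat),
    Int.toNat_of_nonneg (Int.emod_nonneg _ (by exact_mod_cast X.prime.ne_zero))]
  conv_lhs => rw [← Int.emod_add_mul_ediv n q, zpow_add₀ X.ζ_ne_zero, zpow_mul, zpow_natCast,
    X.hζ.pow_eq_one, one_zpow, mul_one]

omit [NeZero q] [Fact (Nat.Prime q)] in
/-- An integral series with a unit coefficient has order zero. -/
theorem hasOrd_zero_of_coeff (X : Ctx q) {s : Ser} (hs : s ∈ X.intSer) {n : ℤ}
    (hn : X.A.valuation (s.coeff n) = 1) : X.HasOrd s 0 :=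
  ⟨1, ⟨s, hs⟩, 1, fun h0 => ((X.redS_eq_zero_iff _).mp h0 n).ne hn,
    by rw [map_one]; exact one_ne_zero, by simp, by simp⟩

omit [NeZero q] [Fact (Nat.Prime q)] in
theorem sigma_eq_of_zeta (X : Ctx q) {σ τ : Qbar ≃ₐ[X.K] Qbar} (h : σ X.ζ = τ X.ζ) {a : Qbar}
    (ha : a ∈ X.L₁) : σ a = τ a := by
  induction ha using IntermediateField.adjoin_induction with
  | mem x hx => rw [Set.mem_singleton_iff.mp hx]; exact h
  | algebraMap c => rw [AlgEquiv.commutes, AlgEquiv.commutes]
  | add x y _ _ hx hy => rw [map_add, map_add, hx, hy]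
  | inv x _ hx => rw [map_inv₀, map_inv₀, hx]
  | mul x y _ _ hx hy => rw [map_mul, map_mul, hx, hy]

theorem exists_sigma_eq (X : Ctx q) (σ : Qbar ≃ₐ[X.K] Qbar) :
    ∃ a : (ZMod q)ˣ, σ X.ζ = X.sigma a X.ζ := by
  obtain ⟨i, -, hi⟩ := X.hζ.eq_pow_of_pow_eq_one
    (show σ X.ζ ^ q = 1 by rw [← map_pow, X.hζ.pow_eq_one, map_one])
  have hi0 : (i : ZMod q) ≠ 0 := by
    intro h0
    rw [ZMod.natCast_eq_zero_iff] at h0
    obtain ⟨c, rfl⟩ := h0
    rw [pow_mul, X.hζ.pow_eq_one, one_pow] at hi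
    exact X.hζ.ne_one X.prime.one_lt (σ.injective (hi.symm.trans (map_one σ).symm))
  refine ⟨Units.mk0 (i : ZMod q) hi0, ?_⟩
  rw [X.sigma_zeta, Units.val_mk0, X.zeta_pow_val, hi]

theorem affPair_end (a : (ZMod q)ˣ) (b : Bool) :
    affPair a 0 (kindPair (some b)) = kindPair (q := q) (some b) := by
  refine Subtype.ext (Prod.ext ?_ ?_) <;>
    cases b <;> simp [affPair, kindPair, Pair.base, Ctx.affLine]

variable {X : Ctx q} {M₁ : ℕ} [NeZero M₁] (G : Model X M₁)

/-- At the end components the series of a polynomial has coefficients in `K`. -/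
theorem coeff_evP_mem (b : Bool) (p : G.PairPoly) (n : ℤ) :
    ∃ c : X.K, algebraMap X.K Qbar c = (G.evP G.one (kindPair (some b)) p).coeff n := by
  refine X.fixedData.fixed _ fun σ _ => ?_
  obtain ⟨a, ha⟩ := exists_sigma_eq X σ
  rw [sigma_eq_of_zeta X ha ((G.evP_mem_goodSer G.one _ p).2 n)]
  have h := congrArg (fun s : Ser => s.coeff n)
    (G.twistSer_evP a 0 G.one (kindPair (some b)) p)
  simp only [affPair_end] at h
  conv_rhs => rw [← h]
  show _ = ((X.zetaU 0 ^ n : Qbarˣ) : Qbar) * X.sigma a _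
  rw [show X.zetaU 0 = 1 from Units.ext (by simp [Ctx.zetaU]), one_zpow, Units.val_one, one_mul]

theorem exists_hasOrd_evP (b : Bool) {p : G.PairPoly} (hp : G.ev0 p ≠ 0) :
    ∃ m : ℤ, X.HasOrd (G.evP G.one (kindPair (some b)) p) (m * q.factorial) := by
  have hmem := G.evP_mem_goodSer G.one (kindPair (some b)) p
  obtain ⟨c, s', -, hc0, heq, hs'⟩ :=
    X.exists_normalise ⟨_, hmem.1⟩ hmem.2 (G.evP_ne_zero G.one _ hp)
  rw [Ne, X.redS_eq_zero_iff] at hs'
  obtain ⟨n, hn⟩ := not_forall.mp hs'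
  have hn1 : X.A.valuation ((s' : Ser).coeff n) = 1 :=
    le_antisymm ((X.A.valuation_le_one_iff _).mpr (s'.2 n)) (not_lt.mp hn)
  obtain ⟨k, hk⟩ := coeff_evP_mem G b p n
  have hv : X.A.valuation (algebraMap X.K Qbar k) = X.A.valuation c := by
    rw [hk, show G.evP G.one (kindPair (some b)) p = HahnSeries.C c * (s' : Ser) from heq,
      HahnSeries.C_mul_eq_smul, HahnSeries.coeff_smul, smul_eq_mul, map_mul, hn1, mul_one]
  have hk0 : k ≠ 0 := fun h => hc0 (by
    rw [h, map_zero, map_zero] at hv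
    exact X.A.valuation.zero_iff.mp hv.symm)
  obtain ⟨i, j, hij⟩ := X.exists_valuation_eq_pow k hk0
  have hv' : X.A.valuation c = X.A.valuation (q : Qbar) ^ ((j : ℤ) - i) := by
    rw [← hv, zpow_sub₀ X.v_q_pos.ne', zpow_natCast, zpow_natCast,
      eq_div_iff (pow_ne_zero i X.v_q_pos.ne'), hij]
  refine ⟨(j : ℤ) - i, c, s', 1, ?_, by rw [map_one]; exact one_ne_zero, ?_, ?_⟩
  · exact fun h => hn (((X.redS_eq_zero_iff _).mp h) n)
  · rw [show ((1 : X.intSer) : Ser) = 1 from rfl, mul_one]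
    exact heq
  · rw [hv', ← zpow_natCast, ← zpow_mul]

/-- Orders at the end components are multiples of `q!`. -/
theorem exists_ord_end (b : Bool) (z : G.splitField) :
    ∃ m : ℤ, G.ord (some b) z = m * q.factorial := by
  rcases eq_or_ne z 0 with rfl | hz
  · exact ⟨0, by simp [Model.ord]⟩
  obtain ⟨u, v, hv, h⟩ := G.exists_rep z.2
  have hu : G.ev0 u ≠ 0 := by
    rw [← h]
    exact mul_ne_zero (fun h0 => hz (Subtype.ext h0)) hv
  obtain ⟨m, hm⟩ := exists_hasOrd_evP G b hu
  obtain ⟨m', hm'⟩ := exists_hasOrd_evP G b hv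
  refine ⟨m - m', ?_⟩
  have h1 := (G.hasOrd_ord (some b) hz).mul hm'
  rw [G.emb_spec G.one _ z hv h] at h1
  linear_combination h1.unique hm

/-- A function of one line has equal orders at the components where that line is affine. -/
theorem ord_LF (b : Bool) {z : G.splitField} (hz : z ∈ G.LF b) :
    G.ord none z = G.ord (some !b) z := by
  rcases eq_or_ne z 0 with rfl | h0
  · simp [Model.ord]
  let P : Pair q := ⟨if b then (some 0, some 1) else (some 1, some 0), by cases b <;> simp⟩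
  have hP : kindOf P = none := by cases b <;> simp [P, kindOf]
  have h1 := G.hasOrd_emb P h0
  rw [hP] at h1
  have h2 := G.hasOrd_ord (some !b) h0
  rw [G.emb_LF_eq G.one b (P := kindPair (some !b)) (P' := P) (by cases b <;> rfl) hz] at h2
  exact h1.unique h2

/-- The difference of the translates of `h` along the two lines. -/
def midFun : G.splitField := G.gen true (.pull G.h) - G.gen false (.pull G.h)

omit [Fact (Nat.Prime q)] [NeZero q] in
theorem emb_midFun (P : Pair q) :
    G.emb G.one P (midFun G) = X.sub P.1.1 (G.h : Ser) - X.sub P.1.2 (G.h : Ser) := by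
  rw [midFun, map_sub, G.emb_gen, G.emb_gen, G.sub_h, G.sub_h]
  rfl

/-- The order at the middle component of `midFun`. -/
theorem ord_midFun : ∃ N : ℤ, N * ((q : ℤ) - 1) = q.factorial ∧ G.ord none (midFun G) = N ∧
    ∀ b, G.ord (some b) (midFun G) = 0 := by
  obtain ⟨e, he, hqe, hlow, hlead⟩ := G.h_order
  have hgood : ∀ L : Line q, X.sub L (G.h : Ser) ∈ X.intSer := fun L =>
    (X.sub_mem_goodSer L (X.goodSer_of_coeffInO (G.coeff_mem _ G.h.2))).1
  have hnone : (X.sub none (G.h : Ser)).coeff (-(e : ℤ)) = 0 :=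
    qExpand_coeff_of_not_dvd q (X.up (G.h : Ser)) (by rw [dvd_neg]; exact_mod_cast hqe)
  have hsome : (X.sub (some 0) (G.h : Ser)).coeff (-(e : ℤ)) = (G.h : Ser).coeff (-(e : ℤ)) := by
    show (Igusa.scale (X.zetaU 0) _).coeff _ = _
    rw [Igusa.coeff_scale, show X.zetaU 0 = 1 from Units.ext (by simp [Ctx.zetaU]), one_zpow,
      Units.val_one, one_mul]
  have hend : ∀ b, X.HasOrd (G.emb G.one (kindPair (some b)) (midFun G)) 0 := by
    intro b
    rw [emb_midFun]
    refine hasOrd_zero_of_coeff X (X.intSer.sub_mem (hgood _) (hgood _)) (n := -(e : ℤ)) ?_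
    cases b <;> simp [kindPair, Pair.base, HahnSeries.coeff_sub, hnone, hsome, hlead]
  have hne : midFun G ≠ 0 := fun h => (hend true).ne_zero (by rw [h, map_zero])
  obtain ⟨N, hN⟩ : (q - 1) ∣ q.factorial :=
    Nat.dvd_factorial (by have := X.prime.two_le; omega) (Nat.sub_le q 1)
  refine ⟨N, ?_, G.ord_eq hne ?_, fun b => G.ord_eq hne (hend b)⟩
  · rw [hN]
    push_cast [Nat.cast_sub (NeZero.one_le : 1 ≤ q)]
    ring
  · rw [emb_midFun]
    show X.HasOrd (X.sub (some 0) (G.h : Ser) - X.sub (some 1) (G.h : Ser)) N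
    set d : Qbar := 1 - X.ζ with hd
    have hd0 : d ≠ 0 := sub_ne_zero.mpr (X.hζ.ne_one X.prime.one_lt).symm
    set s : Ser := X.sub (some 0) (G.h : Ser) - X.sub (some 1) (G.h : Ser)
    have hcoef : ∀ n : ℤ, s.coeff n = (1 - X.ζ ^ n) * (G.h : Ser).coeff n := by
      intro n
      show ((Igusa.scale (X.zetaU 0) (G.h : Ser)) - Igusa.scale (X.zetaU 1) (G.h : Ser)).coeff n = _
      rw [HahnSeries.coeff_sub, Igusa.coeff_scale, Igusa.coeff_scale,
        Units.val_zpow_eq_zpow_val, Units.val_zpow_eq_zpow_val, Ctx.zetaU, Ctx.zetaU,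
        Units.val_mk0, Units.val_mk0, ZMod.val_zero, ZMod.val_one, pow_zero, pow_one, one_zpow]
      ring
    have hmem : HahnSeries.C d⁻¹ * s ∈ X.intSer := by
      intro n
      rw [HahnSeries.C_mul_eq_smul, HahnSeries.coeff_smul, smul_eq_mul, hcoef, ← mul_assoc]
      refine X.A.mul_mem _ _ ?_ ((X.goodSer_of_coeffInO (G.coeff_mem _ G.h.2)).1 n)
      obtain ⟨i, hi⟩ := exists_pow_eq_zpow X n
      rw [← X.A.valuation_le_one_iff, map_mul, map_inv₀, hi,
        inv_mul_le_one₀ (X.A.valuation.pos_iff.mpr hd0)]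
      exact valuation_one_sub_zeta_pow_le X i
    refine ⟨d, ⟨_, hmem⟩, 1, fun h0 => ?_, by rw [map_one]; exact one_ne_zero, ?_, ?_⟩
    · have h1 := (X.redS_eq_zero_iff _).mp h0 (-(e : ℤ))
      refine h1.ne ?_
      show X.A.valuation ((HahnSeries.C d⁻¹ * s).coeff (-(e : ℤ))) = 1
      obtain ⟨i, hi⟩ := exists_pow_eq_zpow X (-(e : ℤ))
      have hi0 : ¬ q ∣ i := fun hdvd => by
        obtain ⟨c, rfl⟩ := hdvd
        rw [pow_mul, X.hζ.pow_eq_one, one_pow] at hi
        have h2 := (X.hζ.zpow_eq_one_iff_dvd (-(e : ℤ))).mp hi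
        rw [dvd_neg] at h2
        exact hqe (by exact_mod_cast h2)
      have hμ : IsPrimitiveRoot (X.ζ ^ i) q :=
        X.hζ.pow_of_coprime _ ((X.prime.coprime_iff_not_dvd.mpr hi0).symm)
      rw [HahnSeries.C_mul_eq_smul, HahnSeries.coeff_smul, smul_eq_mul, hcoef, hi, map_mul,
        map_mul, hlead, mul_one, map_inv₀,
        le_antisymm (X.valuation_one_sub_eq hμ X.hζ) (X.valuation_one_sub_eq X.hζ hμ)]
      exact inv_mul_cancel₀ (X.A.valuation.ne_zero_iff.mpr hd0)
    · show s * ((1 : X.intSer) : Ser) = HahnSeries.C d * (HahnSeries.C d⁻¹ * s)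
      rw [← mul_assoc, ← map_mul, mul_inv_cancel₀ hd0, map_one, one_mul]
      exact mul_one s
    · rw [X.valuation_q_eq rfl X.hζ, X.hζ.card_primitiveRoots, Nat.totient_prime X.prime,
        zpow_natCast, ← pow_mul, hN]

end FLTAgent.LowerSquare.Geometry

end
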